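/-
S41 / F2 (Poincaré duality on `Hom_par(Γ, ℤ)`), helper9: **basic definitions**.

* `lrdR = S * T` (`S² = R³ = -1`);
* `LrdSys Γ ι`: a system of right-coset representatives `rep x ∈ SL(2, ℤ)` (`x ∈ ι ≅ Γ \ SL(2, ℤ)`)
  of a subgroup `Γ ∋ -1`; `rep x * g = eps g x * rep (act g x)`, `eps g x ∈ Γ` (right action:
  `act (g * h) x = act h (act g x)`, `eps (g * h) x = eps g x * eps h (act g x)`);
* `LrdSys.coc φ g x = φ (eps g x)`: the (Shapiro) cocycle of `φ ∈ Hom(Γ, A)`;
* the combinatorial model: `lrdDot`, `LrdWit`, `LrdNorm`, `LrdSymb` for two permutations `s, r`;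
* the Heisenberg group `LrdHeis k`;
* positive parabolic elements `LrdPosPar`, cusp systems `LrdCusps`.
-/
import Mathlib

set_option autoImplicit false

namespace Fermat.Agent.LR

open Matrix MatrixGroups ModularGroup

/-! ### `S`, `R = S T` -/

/-- `R = S * T`, of order three modulo `± 1` -/
def lrdR : SL(2, ℤ) := S * T

theorem lrd_S_mul_S : S * S = (-1 : SL(2, ℤ)) := by decide

theorem lrdR_cube : lrdR * lrdR * lrdR = (-1 : SL(2, ℤ)) := by decide

theorem lrd_T_eq : T = S⁻¹ * lrdR := by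
  rw [lrdR, inv_mul_cancel_left]

theorem lrd_neg_one_mul_self : (-1 : SL(2, ℤ)) * (-1) = 1 := by decide

theorem lrd_S_inv : S⁻¹ = -1 * S := by decide

theorem lrd_closure_S_R : Subgroup.closure ({S, lrdR} : Set SL(2, ℤ)) = ⊤ := by
  rw [eq_top_iff, ← SpecialLinearGroup.SL2Z_generators, Subgroup.closure_le]
  rintro g (rfl | rfl)
  · exact Subgroup.subset_closure (by simp)
  · rw [lrd_T_eq]
    exact mul_mem (inv_mem (Subgroup.subset_closure (by simp))) (Subgroup.subset_closure (by simp))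

/-- the central element `-1` commutes with everything -/
theorem lrd_neg_one_mul (g : SL(2, ℤ)) : (-1 : SL(2, ℤ)) * g = g * (-1) := by
  apply Subtype.ext
  simp

/-! ### Right-coset systems -/

/-- a system of right-coset representatives of `Γ ∋ -1` in `SL(2, ℤ)` -/
structure LrdSys (Γ : Subgroup SL(2, ℤ)) (ι : Type) [Fintype ι] where
  rep : ι → SL(2, ℤ)
  base : ι
  rep_base : rep base = 1
  neg_mem : (-1 : SL(2, ℤ)) ∈ Γ
  perm : ∀ (g : SL(2, ℤ)) (x : ι), ∃! y : ι, rep x * g * (rep y)⁻¹ ∈ Γ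

namespace LrdSys

variable {Γ : Subgroup SL(2, ℤ)} {ι : Type} [Fintype ι] (D : LrdSys Γ ι)

/-- the right action of `SL(2, ℤ)` on the index set: `Γ (rep x) g = Γ rep (act g x)` -/
noncomputable def act (g : SL(2, ℤ)) (x : ι) : ι := (D.perm g x).exists.choose

/-- the element `eps g x = rep x * g * (rep (act g x))⁻¹ ∈ Γ` -/
noncomputable def eps (g : SL(2, ℤ)) (x : ι) : Γ :=
  ⟨D.rep x * g * (D.rep (D.act g x))⁻¹, (D.perm g x).exists.choose_spec⟩

theorem coe_eps (g : SL(2, ℤ)) (x : ι) :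
    ((D.eps g x : Γ) : SL(2, ℤ)) = D.rep x * g * (D.rep (D.act g x))⁻¹ := rfl

theorem rep_mul (g : SL(2, ℤ)) (x : ι) :
    D.rep x * g = (D.eps g x : SL(2, ℤ)) * D.rep (D.act g x) := by
  rw [coe_eps, inv_mul_cancel_right]

/-- uniqueness of `act g x` and `eps g x` -/
theorem eq_of_rep_mul {g : SL(2, ℤ)} {x y : ι} {ε : Γ}
    (h : D.rep x * g = (ε : SL(2, ℤ)) * D.rep y) : y = D.act g x ∧ ε = D.eps g x := by
  have hy : y = D.act g x := by
    refine (D.perm g x).unique ?_ (D.perm g x).exists.choose_spec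
    rw [h, mul_inv_cancel_right]
    exact ε.2
  refine ⟨hy, ?_⟩
  subst hy
  apply Subtype.ext
  rw [coe_eps, h, mul_inv_cancel_right]

theorem act_one (x : ι) : D.act 1 x = x :=
  ((D.eq_of_rep_mul (g := 1) (x := x) (y := x) (ε := 1) (by simp)).1).symm

theorem eps_one (x : ι) : D.eps 1 x = 1 :=
  ((D.eq_of_rep_mul (g := 1) (x := x) (y := x) (ε := 1) (by simp)).2).symm

theorem rep_mul_mul (g h : SL(2, ℤ)) (x : ι) :
    D.rep x * (g * h)
      = ((D.eps g x * D.eps h (D.act g x) : Γ) : SL(2, ℤ)) * D.rep (D.act h (D.act g x)) := by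
  rw [← mul_assoc, D.rep_mul g x, mul_assoc, D.rep_mul h, Subgroup.coe_mul, mul_assoc]

theorem act_mul (g h : SL(2, ℤ)) (x : ι) : D.act (g * h) x = D.act h (D.act g x) :=
  ((D.eq_of_rep_mul (D.rep_mul_mul g h x)).1).symm

theorem eps_mul (g h : SL(2, ℤ)) (x : ι) :
    D.eps (g * h) x = D.eps g x * D.eps h (D.act g x) :=
  ((D.eq_of_rep_mul (D.rep_mul_mul g h x)).2).symm

/-- the permutation `x ↦ act g x`; `sigma (g * h) = sigma h * sigma g` -/
noncomputable def sigma (g : SL(2, ℤ)) : Equiv.Perm ι where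
  toFun := D.act g
  invFun := D.act g⁻¹
  left_inv x := by rw [← D.act_mul, mul_inv_cancel, D.act_one]
  right_inv x := by rw [← D.act_mul, inv_mul_cancel, D.act_one]

@[simp] theorem sigma_apply (g : SL(2, ℤ)) (x : ι) : D.sigma g x = D.act g x := rfl

theorem sigma_one : D.sigma 1 = 1 := Equiv.ext fun x => D.act_one x

theorem sigma_mul (g h : SL(2, ℤ)) : D.sigma (g * h) = D.sigma h * D.sigma g :=
  Equiv.ext fun x => D.act_mul g h x

theorem sigma_inv (g : SL(2, ℤ)) : D.sigma g⁻¹ = (D.sigma g)⁻¹ := by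
  refine eq_inv_of_mul_eq_one_left ?_
  rw [← sigma_mul, mul_inv_cancel, sigma_one]

theorem sigma_pow (g : SL(2, ℤ)) (n : ℕ) : D.sigma (g ^ n) = D.sigma g ^ n := by
  induction n with
  | zero => rw [pow_zero, pow_zero, sigma_one]
  | succ n ih => rw [pow_succ, sigma_mul, ih, pow_succ']

theorem act_pow (g : SL(2, ℤ)) (n : ℕ) (x : ι) : D.act (g ^ n) x = (D.sigma g ^ n) x := by
  rw [← sigma_pow]; rfl

theorem act_inv_act (g : SL(2, ℤ)) (x : ι) : D.act g⁻¹ (D.act g x) = x :=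
  (D.sigma g).left_inv x

theorem act_act_inv (g : SL(2, ℤ)) (x : ι) : D.act g (D.act g⁻¹ x) = x :=
  (D.sigma g).right_inv x

theorem eps_inv (g : SL(2, ℤ)) (x : ι) : D.eps g⁻¹ x = (D.eps g (D.act g⁻¹ x))⁻¹ := by
  have h := D.eps_mul g⁻¹ g x
  rw [inv_mul_cancel, D.eps_one] at h
  exact eq_inv_of_mul_eq_one_left h.symm

/-- `eps (g ^ n) x` is the product of the `eps g` along the `sigma g`-orbit of `x` -/
theorem eps_pow (g : SL(2, ℤ)) (n : ℕ) (x : ι) :
    D.eps (g ^ n) x = ((List.range n).map fun k => D.eps g ((D.sigma g ^ k) x)).prod := by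
  induction n with
  | zero => rw [pow_zero, eps_one]; rfl
  | succ n ih =>
    rw [pow_succ, eps_mul, ih, List.range_succ, List.map_append, List.prod_append, act_pow]
    simp

theorem eps_pow_of_fixed {g : SL(2, ℤ)} {x : ι} (h : D.act g x = x) (n : ℕ) :
    D.eps (g ^ n) x = D.eps g x ^ n := by
  induction n with
  | zero => rw [pow_zero, pow_zero, eps_one]
  | succ n ih =>
    have hn : D.act (g ^ n) x = x := by
      rw [act_pow]
      exact Equiv.Perm.pow_apply_eq_self_of_apply_eq_self h n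
    rw [pow_succ, eps_mul, ih, hn, pow_succ]

/-! #### the element `-1` -/

theorem act_neg_one (x : ι) : D.act (-1) x = x := by
  refine ((D.eq_of_rep_mul (g := -1) (x := x) (y := x) (ε := ⟨-1, D.neg_mem⟩) ?_).1).symm
  exact (lrd_neg_one_mul (D.rep x)).symm

theorem eps_neg_one (x : ι) : D.eps (-1) x = ⟨-1, D.neg_mem⟩ := by
  refine ((D.eq_of_rep_mul (g := -1) (x := x) (y := x) (ε := ⟨-1, D.neg_mem⟩) ?_).2).symm
  exact (lrd_neg_one_mul (D.rep x)).symm

/-! #### the base point -/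

theorem act_mem_base (γ : Γ) : D.act (γ : SL(2, ℤ)) D.base = D.base := by
  refine ((D.eq_of_rep_mul (g := (γ : SL(2, ℤ))) (x := D.base) (y := D.base) (ε := γ) ?_).1).symm
  rw [D.rep_base, one_mul, mul_one]

theorem eps_mem_base (γ : Γ) : D.eps (γ : SL(2, ℤ)) D.base = γ := by
  refine ((D.eq_of_rep_mul (g := (γ : SL(2, ℤ))) (x := D.base) (y := D.base) (ε := γ) ?_).2).symm
  rw [D.rep_base, one_mul, mul_one]

theorem act_rep_base (x : ι) : D.act (D.rep x) D.base = x := by
  refine ((D.eq_of_rep_mul (g := D.rep x) (x := D.base) (y := x) (ε := 1) ?_).1).symm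
  rw [D.rep_base, one_mul, Subgroup.coe_one, one_mul]

theorem eps_rep_base (x : ι) : D.eps (D.rep x) D.base = 1 := by
  refine ((D.eq_of_rep_mul (g := D.rep x) (x := D.base) (y := x) (ε := 1) ?_).2).symm
  rw [D.rep_base, one_mul, Subgroup.coe_one, one_mul]

/-- `g ∈ Γ` iff `g` fixes the base point -/
theorem mem_iff_act_base (g : SL(2, ℤ)) : g ∈ Γ ↔ D.act g D.base = D.base := by
  constructor
  · intro hg
    exact D.act_mem_base ⟨g, hg⟩
  · intro h
    have h1 := D.rep_mul g D.base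
    rw [h, D.rep_base, one_mul, mul_one] at h1
    rw [h1]
    exact (D.eps g D.base).2

/-! #### the permutations of `S`, `R`, `T` -/

/-- the permutation of `S` -/
noncomputable def sS : Equiv.Perm ι := D.sigma S

/-- the permutation of `R = S T` -/
noncomputable def sR : Equiv.Perm ι := D.sigma lrdR

/-- the permutation of `T` -/
noncomputable def sT : Equiv.Perm ι := D.sigma T

@[simp] theorem sS_apply (x : ι) : D.sS x = D.act S x := rfl

@[simp] theorem sR_apply (x : ι) : D.sR x = D.act lrdR x := rfl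

@[simp] theorem sT_apply (x : ι) : D.sT x = D.act T x := rfl

theorem sS_mul_sS : D.sS * D.sS = 1 := by
  rw [sS, ← sigma_mul, lrd_S_mul_S]
  exact Equiv.ext fun x => D.act_neg_one x

theorem sR_cube : D.sR * D.sR * D.sR = 1 := by
  rw [sR, ← sigma_mul, ← sigma_mul, ← mul_assoc, lrdR_cube]
  exact Equiv.ext fun x => D.act_neg_one x

theorem sS_sS (x : ι) : D.sS (D.sS x) = x := by
  have := congrArg (fun f => f x) D.sS_mul_sS
  simpa using this

theorem sR_sR_sR (x : ι) : D.sR (D.sR (D.sR x)) = x := by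
  have := congrArg (fun f => f x) D.sR_cube
  simpa using this

theorem sS_inv : (D.sS)⁻¹ = D.sS := inv_eq_of_mul_eq_one_left D.sS_mul_sS

/-- `T = S⁻¹ R`, hence `sT = sR * sS` (first `sS`, then `sR`) -/
theorem sT_eq : D.sT = D.sR * D.sS := by
  rw [sT, lrd_T_eq, sigma_mul, sigma_inv]
  show D.sR * (D.sS)⁻¹ = _
  rw [sS_inv]

theorem sT_apply' (x : ι) : D.sT x = D.sR (D.sS x) := by
  rw [sT_eq]; rfl

/-! #### the cocycle of a homomorphism -/

/-- the cocycle `g ↦ (x ↦ φ (eps g x))` of `φ ∈ Hom(Γ, A)` -/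
noncomputable def coc {A : Type*} [AddCommGroup A] (φ : Additive Γ →+ A) (g : SL(2, ℤ)) (x : ι) :
    A :=
  φ (Additive.ofMul (D.eps g x))

theorem coc_mul {A : Type*} [AddCommGroup A] (φ : Additive Γ →+ A) (g h : SL(2, ℤ)) (x : ι) :
    D.coc φ (g * h) x = D.coc φ g x + D.coc φ h (D.act g x) := by
  rw [coc, eps_mul, ofMul_mul, map_add]; rfl

theorem coc_one {A : Type*} [AddCommGroup A] (φ : Additive Γ →+ A) (x : ι) :
    D.coc φ 1 x = 0 := by
  rw [coc, eps_one, ofMul_one, map_zero]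

theorem coc_inv {A : Type*} [AddCommGroup A] (φ : Additive Γ →+ A) (g : SL(2, ℤ)) (x : ι) :
    D.coc φ g⁻¹ x = - D.coc φ g (D.act g⁻¹ x) := by
  rw [coc, eps_inv, ofMul_inv, map_neg]; rfl

theorem coc_add {A : Type*} [AddCommGroup A] (φ ψ : Additive Γ →+ A) (g : SL(2, ℤ)) (x : ι) :
    D.coc (φ + ψ) g x = D.coc φ g x + D.coc ψ g x := rfl

theorem coc_base {A : Type*} [AddCommGroup A] (φ : Additive Γ →+ A) (γ : Γ) :
    D.coc φ (γ : SL(2, ℤ)) D.base = φ (Additive.ofMul γ) := by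
  rw [coc, eps_mem_base]

/-- `coc φ (-1) = 0` if `A` has no `2`-torsion -/
theorem coc_neg_one {A : Type*} [AddCommGroup A] (h2 : ∀ a : A, a + a = 0 → a = 0)
    (φ : Additive Γ →+ A) (x : ι) : D.coc φ (-1) x = 0 := by
  apply h2
  rw [coc, eps_neg_one, ← map_add, ← ofMul_mul]
  have : (⟨-1, D.neg_mem⟩ : Γ) * ⟨-1, D.neg_mem⟩ = 1 := Subtype.ext lrd_neg_one_mul_self
  rw [this, ofMul_one, map_zero]

theorem coc_S_add {A : Type*} [AddCommGroup A] (h2 : ∀ a : A, a + a = 0 → a = 0)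
    (φ : Additive Γ →+ A) (x : ι) : D.coc φ S x + D.coc φ S (D.sS x) = 0 := by
  rw [sS_apply, ← coc_mul, lrd_S_mul_S, D.coc_neg_one h2]

theorem coc_R_add {A : Type*} [AddCommGroup A] (h2 : ∀ a : A, a + a = 0 → a = 0)
    (φ : Additive Γ →+ A) (x : ι) :
    D.coc φ lrdR x + D.coc φ lrdR (D.sR x) + D.coc φ lrdR (D.sR (D.sR x)) = 0 := by
  have h1 := D.coc_mul φ (lrdR * lrdR) lrdR x
  rw [D.coc_mul φ lrdR lrdR x, lrdR_cube, D.coc_neg_one h2, D.act_mul] at h1
  exact h1.symm

/-- `coc φ T x = (coc φ R - coc φ S) (sS x)` -/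
theorem coc_T {A : Type*} [AddCommGroup A] (φ : Additive Γ →+ A) (x : ι) :
    D.coc φ T x = D.coc φ lrdR (D.sS x) - D.coc φ S (D.sS x) := by
  have hs : D.act S⁻¹ x = D.sS x := by
    show (D.sigma S)⁻¹ x = _
    rw [show (D.sigma S)⁻¹ = (D.sS)⁻¹ from rfl, sS_inv]
  rw [lrd_T_eq, coc_mul, coc_inv, hs]
  abel

end LrdSys

/-! ### Existence of a coset system -/

section Exists

variable (Γ : Subgroup SL(2, ℤ))

open Classical in
/-- representative `g` of the right coset `Γ g` corresponding to the left coset `g⁻¹ Γ`;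
the trivial coset is represented by `1` -/
noncomputable def lrdRepOf (q : SL(2, ℤ) ⧸ Γ) : SL(2, ℤ) :=
  if q = ((1 : SL(2, ℤ)) : SL(2, ℤ) ⧸ Γ) then 1 else (Quotient.out q)⁻¹

theorem lrdRepOf_spec (q : SL(2, ℤ) ⧸ Γ) :
    (((lrdRepOf Γ q)⁻¹ : SL(2, ℤ)) : SL(2, ℤ) ⧸ Γ) = q := by
  unfold lrdRepOf
  split_ifs with h
  · rw [inv_one, h]
  · rw [inv_inv]
    exact QuotientGroup.out_eq' q

/-- the standard coset system of a finite-index subgroup containing `-1` -/
noncomputable def lrdSysOf [Γ.FiniteIndex] (hneg : (-1 : SL(2, ℤ)) ∈ Γ) :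
    @LrdSys Γ (SL(2, ℤ) ⧸ Γ) Subgroup.fintypeQuotientOfFiniteIndex :=
  letI : Fintype (SL(2, ℤ) ⧸ Γ) := Subgroup.fintypeQuotientOfFiniteIndex
  { rep := lrdRepOf Γ
    base := ((1 : SL(2, ℤ)) : SL(2, ℤ) ⧸ Γ)
    rep_base := by
      unfold lrdRepOf
      rw [if_pos rfl]
    neg_mem := hneg
    perm := by
      intro g x
      have key : ∀ y : SL(2, ℤ) ⧸ Γ, lrdRepOf Γ x * g * (lrdRepOf Γ y)⁻¹ ∈ Γ ↔
          y = (((lrdRepOf Γ x * g)⁻¹ : SL(2, ℤ)) : SL(2, ℤ) ⧸ Γ) := by
        intro y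
        constructor
        · intro h
          rw [← lrdRepOf_spec Γ y]
          rw [QuotientGroup.eq, inv_inv]
          have := inv_mem h
          rwa [_root_.mul_inv_rev, inv_inv] at this
        · intro h
          have h2 := lrdRepOf_spec Γ y
          rw [h, QuotientGroup.eq, inv_inv] at h2
          have := inv_mem h2
          rw [_root_.mul_inv_rev, inv_inv] at this
          rw [h]
          exact this
      exact ⟨_, (key _).mpr rfl, fun y hy => (key y).mp hy⟩ }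

end Exists

/-! ### The combinatorial model (two permutations `s`, `r` of a finite set) -/

section Model

variable {X : Type*} [Fintype X] {k : Type*} [CommRing k]

/-- `⟨f, g⟩ = ∑ x, f x * g x` -/
def lrdDot (f g : X → k) : k := ∑ x, f x * g x

/-- `(u₁, u₂)` trivialises the cocycle `(a, b)` on `⟨s⟩` and on `⟨r⟩`:
`a = (s - 1) u₁`, `b = (r - 1) u₂` -/
def LrdWit (s r : Equiv.Perm X) (a b u₁ u₂ : X → k) : Prop :=
  (∀ x, a x = u₁ (s x) - u₁ x) ∧ (∀ x, b x = u₂ (r x) - u₂ x)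

/-- `u` normalises the cocycle `(a, b)` to the symbol `w`:
`w = a + (s - 1) u = b + (r - 1) u` (i.e. the cohomologous cocycle vanishes at `T = S⁻¹ R`) -/
def LrdNorm (s r : Equiv.Perm X) (a b u w : X → k) : Prop :=
  (∀ x, w x = a x + u (s x) - u x) ∧ (∀ x, w x = b x + u (r x) - u x)

/-- modular symbols: `(1 + s) w = 0`, `(1 + r + r²) w = 0` -/
def LrdSymb (s r : Equiv.Perm X) (w : X → k) : Prop :=
  (∀ x, w x + w (s x) = 0) ∧ (∀ x, w x + w (r x) + w (r (r x)) = 0)

end Model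

/-! ### The Heisenberg group -/

/-- the Heisenberg group `k³`, `(x, y, z) (x', y', z') = (x + x', y + y', z + z' + x y')` -/
@[ext] structure LrdHeis (k : Type*) where
  x : k
  y : k
  z : k

namespace LrdHeis

variable {k : Type*} [CommRing k]

instance : Mul (LrdHeis k) := ⟨fun a b => ⟨a.x + b.x, a.y + b.y, a.z + b.z + a.x * b.y⟩⟩

instance : One (LrdHeis k) := ⟨⟨0, 0, 0⟩⟩

instance : Inv (LrdHeis k) := ⟨fun a => ⟨-a.x, -a.y, -a.z + a.x * a.y⟩⟩

@[simp] theorem mul_x (a b : LrdHeis k) : (a * b).x = a.x + b.x := rfl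

@[simp] theorem mul_y (a b : LrdHeis k) : (a * b).y = a.y + b.y := rfl

@[simp] theorem mul_z (a b : LrdHeis k) : (a * b).z = a.z + b.z + a.x * b.y := rfl

@[simp] theorem one_x : (1 : LrdHeis k).x = 0 := rfl

@[simp] theorem one_y : (1 : LrdHeis k).y = 0 := rfl

@[simp] theorem one_z : (1 : LrdHeis k).z = 0 := rfl

@[simp] theorem inv_x (a : LrdHeis k) : (a⁻¹).x = -a.x := rfl

@[simp] theorem inv_y (a : LrdHeis k) : (a⁻¹).y = -a.y := rfl

@[simp] theorem inv_z (a : LrdHeis k) : (a⁻¹).z = -a.z + a.x * a.y := rfl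

instance : Group (LrdHeis k) where
  mul_assoc a b c := by
    ext
    · simp [add_assoc]
    · simp [add_assoc]
    · simp; ring
  one_mul a := by ext <;> simp
  mul_one a := by ext <;> simp
  inv_mul_cancel a := by
    ext
    · simp
    · simp
    · simp

/-- the projection to the first coordinate -/
def fstHom : LrdHeis k →* Multiplicative k where
  toFun a := Multiplicative.ofAdd a.x
  map_one' := rfl
  map_mul' _ _ := rfl

/-- the projection to the second coordinate -/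
def sndHom : LrdHeis k →* Multiplicative k where
  toFun a := Multiplicative.ofAdd a.y
  map_one' := rfl
  map_mul' _ _ := rfl

/-- conjugation does not change the `z`-coordinate of an element with `x = y = 0` -/
theorem conj_z (a b : LrdHeis k) (hx : a.x = 0) (hy : a.y = 0) : (b * a * b⁻¹).z = a.z := by
  simp [hx, hy]
  ring

theorem conj_x (a b : LrdHeis k) : (b * a * b⁻¹).x = a.x := by simp

theorem conj_y (a b : LrdHeis k) : (b * a * b⁻¹).y = a.y := by simp

/-- `z` is additive on elements with `x = 0` (or `y = 0`) -/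
theorem mul_z_of_x (a b : LrdHeis k) (hx : a.x = 0) : (a * b).z = a.z + b.z := by
  simp [hx]

theorem pow_x (a : LrdHeis k) (n : ℕ) : (a ^ n).x = n * a.x := by
  induction n with
  | zero => simp
  | succ n ih => rw [pow_succ, mul_x, ih]; push_cast; ring

theorem pow_y (a : LrdHeis k) (n : ℕ) : (a ^ n).y = n * a.y := by
  induction n with
  | zero => simp
  | succ n ih => rw [pow_succ, mul_y, ih]; push_cast; ring

theorem pow_z_of_central (a : LrdHeis k) (hx : a.x = 0) (n : ℕ) : (a ^ n).z = n * a.z := by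
  induction n with
  | zero => simp
  | succ n ih => rw [pow_succ, mul_z, ih, pow_x, hx]; push_cast; ring

end LrdHeis

/-! ### Positive parabolic elements and cusp systems -/

/-- `γ` is conjugate to `T ^ k` with `k > 0`: trace `2` and `γ 1 0 < γ 0 1` -/
def LrdPosPar (γ : SL(2, ℤ)) : Prop :=
  (γ : Matrix (Fin 2) (Fin 2) ℤ).trace = 2 ∧ γ 1 0 < γ 0 1

/-- a system of representatives `gen c` of the `Γ`-conjugacy classes of primitive positive
parabolic elements of `Γ` -/
structure LrdCusps (Γ : Subgroup SL(2, ℤ)) (κ : Type) [Fintype κ] where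
  gen : κ → Γ
  pos : ∀ c, LrdPosPar (gen c : SL(2, ℤ))
  conj_exists : ∀ γ : Γ, LrdPosPar (γ : SL(2, ℤ)) →
    ∃ (c : κ) (m : ℕ) (δ : Γ), 0 < m ∧ γ = δ * gen c ^ m * δ⁻¹
  conj_unique : ∀ (c c' : κ) (m m' : ℕ) (δ : Γ), 0 < m → 0 < m' →
    gen c ^ m = δ * gen c' ^ m' * δ⁻¹ → c = c' ∧ m = m'

end Fermat.Agent.LR
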