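/-
S41 / F2-(P) (helper4): **the presentation of `PSL(2, ℤ)`** in the form needed for the Heisenberg
lifts: for every group `H` and `s r : H` with `s ^ 2 = 1`, `r ^ 3 = 1` there is a homomorphism
`θ : SL(2, ℤ) →* H` with `θ S = s`, `θ (S * T) = r` (`lrdp_lift`).

Proof: ping-pong (Mathlib's `Monoid.CoprodI.lift_injective_of_ping_pong`) for
`C₂ * C₃ → Perm (Mat₂(ℤ))`, `g ↦ (Q ↦ g Q gᵀ)` (so that `-1` acts trivially), with the two cones
`{Q 0 0, Q 1 1 ≥ 0, Q 0 1, Q 1 0 > 0}` and `{Q 0 0, Q 1 1 ≥ 0, Q 0 1, Q 1 0 < 0}`.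
-/
import Fermat.Agent.Lib.LR.Dual.Defs

set_option autoImplicit false

namespace Fermat.Agent.LR

open Matrix MatrixGroups ModularGroup

/-! ### homomorphisms out of cyclic groups -/

/-- the homomorphism `C_n → G`, `1 ↦ g`, for `g ^ n = 1` -/
noncomputable def lrdpCyc {G : Type*} [Group G] (n : ℕ) (g : G) (hg : g ^ n = 1) :
    Multiplicative (ZMod n) →* G :=
  AddMonoidHom.toMultiplicativeLeft
    (ZMod.lift n ⟨zmultiplesHom (Additive G) (Additive.ofMul g), by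
      show (n : ℤ) • Additive.ofMul g = 0
      rw [natCast_zsmul, ← ofMul_pow, hg, ofMul_one]⟩)

theorem lrdpCyc_apply {G : Type*} [Group G] (n : ℕ) (g : G) (hg : g ^ n = 1) (k : ℤ) :
    lrdpCyc n g hg (Multiplicative.ofAdd (k : ZMod n)) = g ^ k := by
  show Additive.toMul (ZMod.lift n _ (k : ZMod n)) = _
  rw [ZMod.lift_coe]
  rfl

/-! ### the action on `Mat₂(ℤ)` -/

theorem lrdp_conj_one (Q : Matrix (Fin 2) (Fin 2) ℤ) :
    ((1 : SL(2, ℤ)) : Matrix (Fin 2) (Fin 2) ℤ) * Q *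
      ((1 : SL(2, ℤ)) : Matrix (Fin 2) (Fin 2) ℤ)ᵀ = Q := by
  simp

theorem lrdp_conj_mul (g h : SL(2, ℤ)) (Q : Matrix (Fin 2) (Fin 2) ℤ) :
    ((g * h : SL(2, ℤ)) : Matrix (Fin 2) (Fin 2) ℤ) * Q *
      ((g * h : SL(2, ℤ)) : Matrix (Fin 2) (Fin 2) ℤ)ᵀ =
      (g : Matrix (Fin 2) (Fin 2) ℤ) * ((h : Matrix (Fin 2) (Fin 2) ℤ) * Q *
        (h : Matrix (Fin 2) (Fin 2) ℤ)ᵀ) * (g : Matrix (Fin 2) (Fin 2) ℤ)ᵀ := by
  rw [Matrix.SpecialLinearGroup.coe_mul, Matrix.transpose_mul]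
  simp only [Matrix.mul_assoc]

/-- `g ↦ (Q ↦ g Q gᵀ)` -/
def lrdpEnd : SL(2, ℤ) →* Function.End (Matrix (Fin 2) (Fin 2) ℤ) where
  toFun g := fun Q => (g : Matrix (Fin 2) (Fin 2) ℤ) * Q * (g : Matrix (Fin 2) (Fin 2) ℤ)ᵀ
  map_one' := funext lrdp_conj_one
  map_mul' g h := funext (lrdp_conj_mul g h)

/-- `g ↦ (Q ↦ g Q gᵀ)` as a homomorphism to the permutation group -/
def lrdpRho : SL(2, ℤ) →* Equiv.Perm (Matrix (Fin 2) (Fin 2) ℤ) :=
  MonoidHom.toHomPerm lrdpEnd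

theorem lrdpRho_apply (g : SL(2, ℤ)) (Q : Matrix (Fin 2) (Fin 2) ℤ) :
    lrdpRho g Q = (g : Matrix (Fin 2) (Fin 2) ℤ) * Q * (g : Matrix (Fin 2) (Fin 2) ℤ)ᵀ := rfl

theorem lrdpRho_neg_one : lrdpRho (-1) = 1 := by
  ext Q : 1
  rw [lrdpRho_apply]
  simp

theorem lrdpRho_S_sq : lrdpRho S ^ 2 = 1 := by
  rw [← map_pow, pow_two, lrd_S_mul_S, lrdpRho_neg_one]

theorem lrdpRho_R_cube : lrdpRho lrdR ^ 3 = 1 := by
  rw [← map_pow, pow_succ, pow_two, lrdR_cube, lrdpRho_neg_one]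

/-! ### the ping-pong cones -/

/-- the positive cone -/
def lrdpPos : Set (Matrix (Fin 2) (Fin 2) ℤ) :=
  {Q | 0 ≤ Q 0 0 ∧ 0 ≤ Q 1 1 ∧ 0 < Q 0 1 ∧ 0 < Q 1 0}

/-- the negative cone -/
def lrdpNeg : Set (Matrix (Fin 2) (Fin 2) ℤ) :=
  {Q | 0 ≤ Q 0 0 ∧ 0 ≤ Q 1 1 ∧ Q 0 1 < 0 ∧ Q 1 0 < 0}

theorem lrdp_conj_entries (g : SL(2, ℤ)) (Q : Matrix (Fin 2) (Fin 2) ℤ) (i j : Fin 2) :
    (lrdpRho g Q) i j = (g i 0 * Q 0 0 + g i 1 * Q 1 0) * g j 0 +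
      (g i 0 * Q 0 1 + g i 1 * Q 1 1) * g j 1 := by
  rw [lrdpRho_apply]
  simp [Matrix.mul_apply, Fin.sum_univ_two, Matrix.transpose_apply]

theorem lrdp_S_neg {Q : Matrix (Fin 2) (Fin 2) ℤ} (hQ : Q ∈ lrdpNeg) : lrdpRho S Q ∈ lrdpPos := by
  obtain ⟨h1, h2, h3, h4⟩ := hQ
  refine ⟨?_, ?_, ?_, ?_⟩ <;> rw [lrdp_conj_entries] <;> simp [S] <;> linarith

theorem lrdp_R_pos {Q : Matrix (Fin 2) (Fin 2) ℤ} (hQ : Q ∈ lrdpPos) :
    lrdpRho lrdR Q ∈ lrdpNeg := by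
  obtain ⟨h1, h2, h3, h4⟩ := hQ
  have e00 : (lrdR : SL(2, ℤ)) 0 0 = 0 := by decide
  have e01 : (lrdR : SL(2, ℤ)) 0 1 = -1 := by decide
  have e10 : (lrdR : SL(2, ℤ)) 1 0 = 1 := by decide
  have e11 : (lrdR : SL(2, ℤ)) 1 1 = 1 := by decide
  refine ⟨?_, ?_, ?_, ?_⟩ <;> rw [lrdp_conj_entries] <;> simp only [e00, e01, e10, e11] <;>
    linarith

theorem lrdp_RR_pos {Q : Matrix (Fin 2) (Fin 2) ℤ} (hQ : Q ∈ lrdpPos) :
    lrdpRho (lrdR * lrdR) Q ∈ lrdpNeg := by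
  obtain ⟨h1, h2, h3, h4⟩ := hQ
  have e00 : (lrdR * lrdR : SL(2, ℤ)) 0 0 = -1 := by decide
  have e01 : (lrdR * lrdR : SL(2, ℤ)) 0 1 = -1 := by decide
  have e10 : (lrdR * lrdR : SL(2, ℤ)) 1 0 = 1 := by decide
  have e11 : (lrdR * lrdR : SL(2, ℤ)) 1 1 = 0 := by decide
  refine ⟨?_, ?_, ?_, ?_⟩ <;> rw [lrdp_conj_entries] <;> simp only [e00, e01, e10, e11] <;>
    linarith

/-! ### the free product `C₂ * C₃` -/

/-- the orders `2, 3` -/
def lrdpN : Fin 2 → ℕ := ![2, 3]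

/-- the family `C₂, C₃` -/
abbrev LrdpH (i : Fin 2) : Type := Multiplicative (ZMod (lrdpN i))

/-- the family of homomorphisms `C₂ → G`, `C₃ → G` given by `gs 0`, `gs 1` -/
noncomputable def lrdpF {G : Type*} [Group G] (gs : Fin 2 → G) (hgs : ∀ i, gs i ^ lrdpN i = 1)
    (i : Fin 2) : LrdpH i →* G :=
  lrdpCyc (lrdpN i) (gs i) (hgs i)

theorem lrdpF_gen {G : Type*} [Group G] (gs : Fin 2 → G) (hgs : ∀ i, gs i ^ lrdpN i = 1)
    (i : Fin 2) : lrdpF gs hgs i (Multiplicative.ofAdd 1) = gs i := by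
  have := lrdpCyc_apply (lrdpN i) (gs i) (hgs i) 1
  rw [Int.cast_one, zpow_one] at this
  exact this

theorem lrdpF_two {G : Type*} [Group G] (gs : Fin 2 → G) (hgs : ∀ i, gs i ^ lrdpN i = 1)
    (i : Fin 2) : lrdpF gs hgs i (Multiplicative.ofAdd 2) = gs i * gs i := by
  have := lrdpCyc_apply (lrdpN i) (gs i) (hgs i) 2
  rw [Int.cast_ofNat, zpow_two] at this
  exact this

theorem lrdp_C2_cases' : ∀ h : Multiplicative (ZMod 2), h ≠ 1 → h = Multiplicative.ofAdd 1 := by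
  decide

theorem lrdp_C3_cases' : ∀ h : Multiplicative (ZMod 3), h ≠ 1 →
    h = Multiplicative.ofAdd 1 ∨ h = Multiplicative.ofAdd 2 := by
  decide

theorem lrdp_C2_cases (h : LrdpH 0) (hh : h ≠ 1) : h = Multiplicative.ofAdd 1 :=
  lrdp_C2_cases' h hh

theorem lrdp_C3_cases (h : LrdpH 1) (hh : h ≠ 1) :
    h = Multiplicative.ofAdd 1 ∨ h = Multiplicative.ofAdd 2 :=
  lrdp_C3_cases' h hh

/-- the two generators in `Perm (Mat₂(ℤ))` -/
def lrdpGs : Fin 2 → Equiv.Perm (Matrix (Fin 2) (Fin 2) ℤ) := ![lrdpRho S, lrdpRho lrdR]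

theorem lrdpGs_pow (i : Fin 2) : lrdpGs i ^ lrdpN i = 1 := by
  fin_cases i
  · exact lrdpRho_S_sq
  · exact lrdpRho_R_cube

/-- the two cones -/
def lrdpX : Fin 2 → Set (Matrix (Fin 2) (Fin 2) ℤ) := ![lrdpPos, lrdpNeg]

/-- **ping-pong**: `C₂ * C₃ → Perm (Mat₂(ℤ))` is injective -/
theorem lrdp_injective :
    Function.Injective (Monoid.CoprodI.lift (lrdpF lrdpGs lrdpGs_pow)) := by
  apply Monoid.CoprodI.lift_injective_of_ping_pong (lrdpF lrdpGs lrdpGs_pow) _ lrdpX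
  · intro i
    fin_cases i
    · refine ⟨!![0, 1; 1, 0], ?_⟩
      show _ ∈ lrdpPos
      simp [lrdpPos]
    · refine ⟨!![0, -1; -1, 0], ?_⟩
      show _ ∈ lrdpNeg
      simp [lrdpNeg]
  · intro i j hij
    have key : Disjoint lrdpPos lrdpNeg := by
      rw [Set.disjoint_left]
      rintro Q ⟨-, -, h3, -⟩ ⟨-, -, h3', -⟩
      exact lt_asymm h3 h3'
    fin_cases i <;> fin_cases j
    · exact absurd rfl hij
    · exact key
    · exact key.symm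
    · exact absurd rfl hij
  · intro i j hij h hh
    fin_cases i <;> fin_cases j
    · exact absurd rfl hij
    · rw [lrdp_C2_cases h hh]
      rintro _ ⟨Q, hQ, rfl⟩
      show (lrdpF lrdpGs lrdpGs_pow 0 (Multiplicative.ofAdd 1)) Q ∈ lrdpPos
      rw [lrdpF_gen]
      exact lrdp_S_neg hQ
    · rcases lrdp_C3_cases h hh with rfl | rfl
      · rintro _ ⟨Q, hQ, rfl⟩
        show (lrdpF lrdpGs lrdpGs_pow 1 (Multiplicative.ofAdd 1)) Q ∈ lrdpNeg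
        rw [lrdpF_gen]
        exact lrdp_R_pos hQ
      · rintro _ ⟨Q, hQ, rfl⟩
        show (lrdpF lrdpGs lrdpGs_pow 1 (Multiplicative.ofAdd 2)) Q ∈ lrdpNeg
        rw [lrdpF_two]
        show lrdpRho lrdR (lrdpRho lrdR Q) ∈ lrdpNeg
        rw [← Equiv.Perm.mul_apply, ← map_mul]
        exact lrdp_RR_pos hQ
    · exact absurd rfl hij
  · right
    refine ⟨1, ?_⟩
    show 3 ≤ Cardinal.mk (Multiplicative (ZMod 3))
    rw [Cardinal.mk_fintype, Fintype.card_multiplicative, ZMod.card]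
    norm_num

/-! ### the lift -/

/-- **Presentation of `PSL(2, ℤ)`**: for `s ^ 2 = 1`, `r ^ 3 = 1` in any group `H` there is a
homomorphism `θ : SL(2, ℤ) →* H` with `θ S = s`, `θ (S * T) = r`. -/
theorem lrdp_lift {H : Type*} [Group H] (s r : H) (hs : s ^ 2 = 1) (hr : r ^ 3 = 1) :
    ∃ θ : SL(2, ℤ) →* H, θ S = s ∧ θ (S * T) = r := by
  classical
  set π := Monoid.CoprodI.lift (lrdpF lrdpGs lrdpGs_pow) with hπ
  have hinj : Function.Injective π := lrdp_injective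
  have hhs : ∀ i, (![s, r] : Fin 2 → H) i ^ lrdpN i = 1 := by
    intro i
    fin_cases i
    · exact hs
    · exact hr
  set F := Monoid.CoprodI.lift (lrdpF (![s, r] : Fin 2 → H) hhs) with hF
  have hπS : π (Monoid.CoprodI.of (i := (0 : Fin 2)) (Multiplicative.ofAdd 1)) = lrdpRho S := by
    rw [hπ, Monoid.CoprodI.lift_of, lrdpF_gen]
    rfl
  have hπR : π (Monoid.CoprodI.of (i := (1 : Fin 2)) (Multiplicative.ofAdd 1)) =
      lrdpRho lrdR := by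
    rw [hπ, Monoid.CoprodI.lift_of, lrdpF_gen]
    rfl
  have hsurj : ∀ g : SL(2, ℤ), ∃ w, π w = lrdpRho g := by
    intro g
    have hg : g ∈ Subgroup.closure ({S, lrdR} : Set SL(2, ℤ)) := by
      rw [lrd_closure_S_R]
      trivial
    induction hg using Subgroup.closure_induction with
    | mem x hx =>
      rcases hx with rfl | rfl
      · exact ⟨_, hπS⟩
      · exact ⟨_, hπR⟩
    | one => exact ⟨1, by rw [map_one, map_one]⟩
    | mul x y _ _ hx hy =>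
      obtain ⟨a, ha⟩ := hx
      obtain ⟨b, hb⟩ := hy
      exact ⟨a * b, by rw [map_mul, ha, hb, map_mul]⟩
    | inv x _ hx =>
      obtain ⟨a, ha⟩ := hx
      exact ⟨a⁻¹, by rw [map_inv, ha, map_inv]⟩
  choose w hw using hsurj
  have hw1 : w 1 = 1 := hinj (by rw [hw, map_one, map_one])
  have hwmul : ∀ g h, w (g * h) = w g * w h := fun g h =>
    hinj (by rw [hw, map_mul, map_mul, hw, hw])
  have hwS : w S = Monoid.CoprodI.of (i := (0 : Fin 2)) (Multiplicative.ofAdd 1) :=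
    hinj (by rw [hw, hπS])
  have hwR : w lrdR = Monoid.CoprodI.of (i := (1 : Fin 2)) (Multiplicative.ofAdd 1) :=
    hinj (by rw [hw, hπR])
  refine ⟨⟨⟨fun g => F (w g), by rw [hw1, map_one]⟩, fun g h => by
    show F (w (g * h)) = F (w g) * F (w h)
    rw [hwmul, map_mul]⟩, ?_, ?_⟩
  · show F (w S) = s
    rw [hwS, hF, Monoid.CoprodI.lift_of, lrdpF_gen]
    rfl
  · show F (w lrdR) = r
    rw [hwR, hF, Monoid.CoprodI.lift_of, lrdpF_gen]
    rfl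

end Fermat.Agent.LR
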