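/-
S41 / F2-(S) (helper3): **cocycles with values in an arbitrary group `H`**.

* `lrds_hom_ext`: two homomorphisms `ρ, ρ' : Γ →* H` whose (Shapiro) cocycles differ by the
  coboundary of `h : ι → H` at `S` and at `R` are conjugate by `h base`;
* `lrds_exists_hom_of`: given the presentation of `SL(2, ℤ)` (a homomorphism out of `SL(2, ℤ)` with
  prescribed values `s, r` at `S, R = S T`, `s² = r³ = 1`) in the wreath product
  `LrdsWr ι H = (ι → H) ⋊ Perm ι`, every pair `cS, cR : ι → H` satisfying the `S²`- and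
  `R³`-relations is, up to a coboundary, the cocycle of a homomorphism `ρ : Γ →* H`.
-/
import Mathlib
import Fermat.Agent.Lib.LR.Dual.Defs
import Fermat.Agent.Lib.LR.Dual.Pres

set_option autoImplicit false

namespace Fermat.Agent.LR

open Matrix MatrixGroups ModularGroup

/-! ### uniqueness -/

section Ext

variable {Γ : Subgroup SL(2, ℤ)} {ι : Type} [Fintype ι] (D : LrdSys Γ ι) {H : Type*} [Group H]

/-- the property propagated along `SL(2, ℤ) = ⟨S, R⟩` -/
theorem lrds_hom_ext_aux (ρ ρ' : Γ →* H) (h : ι → H)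
    (hS : ∀ x, ρ (D.eps S x) = h x * ρ' (D.eps S x) * (h (D.sS x))⁻¹)
    (hR : ∀ x, ρ (D.eps lrdR x) = h x * ρ' (D.eps lrdR x) * (h (D.sR x))⁻¹)
    (g : SL(2, ℤ)) : ∀ x, ρ (D.eps g x) = h x * ρ' (D.eps g x) * (h (D.act g x))⁻¹ := by
  have hg : g ∈ Subgroup.closure ({S, lrdR} : Set SL(2, ℤ)) := by
    rw [lrd_closure_S_R]; exact Subgroup.mem_top g
  induction hg using Subgroup.closure_induction with
  | mem g hg =>
    rcases hg with rfl | hg
    · exact hS
    · rw [Set.mem_singleton_iff] at hg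
      subst hg
      exact hR
  | one =>
    intro x
    rw [D.eps_one, D.act_one, map_one, map_one, mul_one, mul_inv_cancel]
  | mul g k _ _ ihg ihk =>
    intro x
    rw [D.eps_mul, D.act_mul, map_mul, map_mul, ihg x, ihk (D.act g x)]
    group
  | inv g _ ihg =>
    intro x
    have h1 := ihg (D.act g⁻¹ x)
    rw [D.act_act_inv] at h1
    rw [D.eps_inv, map_inv, map_inv, h1]
    group

/-- **uniqueness**: two homomorphisms `Γ →* H` whose cocycles at `S` and `R` differ by the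
coboundary of `h` are conjugate by `h base`. -/
theorem lrds_hom_ext (ρ ρ' : Γ →* H) (h : ι → H)
    (hS : ∀ x, ρ (D.eps S x) = h x * ρ' (D.eps S x) * (h (D.sS x))⁻¹)
    (hR : ∀ x, ρ (D.eps lrdR x) = h x * ρ' (D.eps lrdR x) * (h (D.sR x))⁻¹) :
    ∀ γ : Γ, ρ γ = h D.base * ρ' γ * (h D.base)⁻¹ := by
  intro γ
  have h1 := lrds_hom_ext_aux D ρ ρ' h hS hR (γ : SL(2, ℤ)) D.base
  rwa [D.eps_mem_base, D.act_mem_base] at h1

end Ext

/-! ### the wreath product -/

/-- the wreath product `(ι → H) ⋊ Perm ι`, with the multiplication adapted to right actions: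
`(c, σ) (c', σ') = (x ↦ c x * c' (σ x), σ' ∘ σ)`. -/
@[ext] structure LrdsWr (ι : Type) (H : Type*) where
  c : ι → H
  σ : Equiv.Perm ι

namespace LrdsWr

variable {ι : Type} {H : Type*} [Group H]

instance : Mul (LrdsWr ι H) := ⟨fun a b => ⟨fun x => a.c x * b.c (a.σ x), b.σ * a.σ⟩⟩

instance : One (LrdsWr ι H) := ⟨⟨fun _ => 1, 1⟩⟩

instance : Inv (LrdsWr ι H) := ⟨fun a => ⟨fun x => (a.c (a.σ⁻¹ x))⁻¹, a.σ⁻¹⟩⟩

@[simp] theorem mul_c (a b : LrdsWr ι H) (x : ι) : (a * b).c x = a.c x * b.c (a.σ x) := rfl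

@[simp] theorem mul_σ (a b : LrdsWr ι H) : (a * b).σ = b.σ * a.σ := rfl

@[simp] theorem one_c (x : ι) : (1 : LrdsWr ι H).c x = 1 := rfl

@[simp] theorem one_σ : (1 : LrdsWr ι H).σ = 1 := rfl

@[simp] theorem inv_c (a : LrdsWr ι H) (x : ι) : (a⁻¹).c x = (a.c (a.σ⁻¹ x))⁻¹ := rfl

@[simp] theorem inv_σ (a : LrdsWr ι H) : (a⁻¹).σ = a.σ⁻¹ := rfl

instance : Group (LrdsWr ι H) :=
  Group.ofLeftAxioms
    (fun a b c => by
      ext x
      · simp [mul_assoc]
      · simp [mul_assoc])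
    (fun a => by
      ext x
      · simp
      · simp)
    (fun a => by
      ext x
      · simp
      · simp)

end LrdsWr

/-! ### existence -/

section Exists

variable {Γ : Subgroup SL(2, ℤ)} {ι : Type} [Fintype ι] (D : LrdSys Γ ι) {H : Type*} [Group H]

/-- the permutation component of a homomorphism `θ : SL(2, ℤ) →* LrdsWr ι H` with
`θ S = (·, sS)`, `θ R = (·, sR)` is `sigma`. -/
theorem lrds_sigma_eq (θ : SL(2, ℤ) →* LrdsWr ι H) (hS : (θ S).σ = D.sS)
    (hR : (θ lrdR).σ = D.sR) (g : SL(2, ℤ)) : (θ g).σ = D.sigma g := by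
  have hg : g ∈ Subgroup.closure ({S, lrdR} : Set SL(2, ℤ)) := by
    rw [lrd_closure_S_R]; exact Subgroup.mem_top g
  induction hg using Subgroup.closure_induction with
  | mem g hg =>
    rcases hg with rfl | hg
    · exact hS
    · rw [Set.mem_singleton_iff] at hg
      subst hg
      exact hR
  | one => rw [map_one, D.sigma_one]; rfl
  | mul g k _ _ ihg ihk => rw [map_mul, LrdsWr.mul_σ, ihg, ihk, D.sigma_mul]
  | inv g _ ihg => rw [map_inv, LrdsWr.inv_σ, ihg, D.sigma_inv]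

/-- **existence**, given the presentation of `SL(2, ℤ)` in the wreath product: the strong form
with `h base = 1`. -/
theorem lrds_exists_hom_of' (cS cR : ι → H) (hS : ∀ x, cS x * cS (D.sS x) = 1)
    (hR : ∀ x, cR x * cR (D.sR x) * cR (D.sR (D.sR x)) = 1)
    (hP : ∀ s r : LrdsWr ι H, s ^ 2 = 1 → r ^ 3 = 1 →
      ∃ θ : SL(2, ℤ) →* LrdsWr ι H, θ S = s ∧ θ (S * T) = r) :
    ∃ (ρ : Γ →* H) (h : ι → H), h D.base = 1 ∧
      (∀ x, ρ (D.eps S x) = h x * cS x * (h (D.sS x))⁻¹) ∧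
      (∀ x, ρ (D.eps lrdR x) = h x * cR x * (h (D.sR x))⁻¹) := by
  have hs2 : (⟨cS, D.sS⟩ : LrdsWr ι H) ^ 2 = 1 := by
    rw [pow_two]
    ext x
    · exact hS x
    · simp [D.sS_mul_sS]
  have hr3 : (⟨cR, D.sR⟩ : LrdsWr ι H) ^ 3 = 1 := by
    rw [pow_succ, pow_two]
    ext x
    · exact hR x
    · have := D.sR_cube
      simp [← mul_assoc, this]
  obtain ⟨θ, hθS, hθR⟩ := hP _ _ hs2 hr3
  have hθR' : θ lrdR = ⟨cR, D.sR⟩ := hθR
  have hσ : ∀ g, (θ g).σ = D.sigma g :=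
    lrds_sigma_eq D θ (by rw [hθS]) (by rw [hθR'])
  have hc : ∀ g k x, (θ (g * k)).c x = (θ g).c x * (θ k).c (D.act g x) := by
    intro g k x
    rw [map_mul, LrdsWr.mul_c, hσ]
    rfl
  let ρ : Γ →* H :=
    { toFun := fun γ => (θ (γ : SL(2, ℤ))).c D.base
      map_one' := by
        show (θ ((1 : Γ) : SL(2, ℤ))).c D.base = 1
        rw [Subgroup.coe_one, map_one]
        rfl
      map_mul' := by
        intro γ γ'
        show (θ ((γ * γ' : Γ) : SL(2, ℤ))).c D.base = _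
        rw [Subgroup.coe_mul, hc, D.act_mem_base] }
  have hρ : ∀ γ : Γ, ρ γ = (θ (γ : SL(2, ℤ))).c D.base := fun _ => rfl
  have key : ∀ (g : SL(2, ℤ)) (x : ι),
      ρ (D.eps g x) = (θ (D.rep x)).c D.base * (θ g).c x * ((θ (D.rep (D.act g x))).c D.base)⁻¹ := by
    intro g x
    have h1 := congrArg (fun w => (θ w).c D.base) (D.rep_mul g x)
    simp only [hc, D.act_rep_base, D.act_mem_base] at h1
    rw [hρ, h1]
    group
  refine ⟨ρ, fun x => (θ (D.rep x)).c D.base, ?_, ?_, ?_⟩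
  · show (θ (D.rep D.base)).c D.base = 1
    rw [D.rep_base, map_one]
    rfl
  · intro x
    rw [key S x, hθS]
    rfl
  · intro x
    rw [key lrdR x, hθR']
    rfl

/-- **existence**, given the presentation of `SL(2, ℤ)` in the wreath product (literal form of the
sub-brief). -/
theorem lrds_exists_hom_of (cS cR : ι → H) (hS : ∀ x, cS x * cS (D.sS x) = 1)
    (hR : ∀ x, cR x * cR (D.sR x) * cR (D.sR (D.sR x)) = 1)
    (hP : ∀ s r : LrdsWr ι H, s ^ 2 = 1 → r ^ 3 = 1 →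
      ∃ θ : SL(2, ℤ) →* LrdsWr ι H, θ S = s ∧ θ (S * T) = r) :
    ∃ (ρ : Γ →* H) (h : ι → H),
      (∀ x, ρ (D.eps S x) = h x * cS x * (h (D.sS x))⁻¹) ∧
      (∀ x, ρ (D.eps lrdR x) = h x * cR x * (h (D.sR x))⁻¹) := by
  obtain ⟨ρ, h, -, h1, h2⟩ := lrds_exists_hom_of' D cS cR hS hR hP
  exact ⟨ρ, h, h1, h2⟩

/-- **existence** (strong form, `h base = 1`): every pair `cS, cR : ι → H` satisfying the `S²`- and
`R³`-relations is, up to the coboundary of `h`, the cocycle of a homomorphism `ρ : Γ →* H`. -/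
theorem lrds_exists_hom' (cS cR : ι → H) (hS : ∀ x, cS x * cS (D.sS x) = 1)
    (hR : ∀ x, cR x * cR (D.sR x) * cR (D.sR (D.sR x)) = 1) :
    ∃ (ρ : Γ →* H) (h : ι → H), h D.base = 1 ∧
      (∀ x, ρ (D.eps S x) = h x * cS x * (h (D.sS x))⁻¹) ∧
      (∀ x, ρ (D.eps lrdR x) = h x * cR x * (h (D.sR x))⁻¹) :=
  lrds_exists_hom_of' D cS cR hS hR fun s r hs hr => lrdp_lift s r hs hr

/-- **existence** (literal form of the F2 sub-brief). -/
theorem lrds_exists_hom (cS cR : ι → H) (hS : ∀ x, cS x * cS (D.sS x) = 1)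
    (hR : ∀ x, cR x * cR (D.sR x) * cR (D.sR (D.sR x)) = 1) :
    ∃ (ρ : Γ →* H) (h : ι → H),
      (∀ x, ρ (D.eps S x) = h x * cS x * (h (D.sS x))⁻¹) ∧
      (∀ x, ρ (D.eps lrdR x) = h x * cR x * (h (D.sR x))⁻¹) :=
  lrds_exists_hom_of D cS cR hS hR fun s r hs hr => lrdp_lift s r hs hr

end Exists

end Fermat.Agent.LR
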