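/-
S41 / F2-(C) (helper6): the canonical pairing `P_can(ρ) = Σ_cusps z(ρ(π_c))` of a Heisenberg lift
`ρ : Γ → Heis(ℚ)` — CORE computations (imports `Defs.lean` only).

* `lrdPcan`, `LrdLift` (literal definitions of the sub-brief);
* `lrdk_invariance_of_perm`: `P_can(ρ ∘ θ) = P_can(ρ)` if `θ` permutes the cusp classes;
* the normalised Heisenberg cocycle `lrdqC`, its value at `T` (`lrdqC_T`: central) and at `T ^ n`
  (`lrdq_rho_eps_T_pow`), and the sum formula `lrdq_sum_G`: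
  `6 Σ_x z(C(T)(x)) = ⟨w + 2 w∘r, w'⟩`;
* explicit Heisenberg cocycle `lrdqCS`, `lrdqCR` with the `S²`- and `R³`-relations
  (`lrdqCS_mul`, `lrdqCR_mul`) for the existence of lifts, and the additive uniqueness
  `lrdq_hom_ext`.
-/
import Mathlib
import Fermat.Agent.Lib.LR.Dual.Defs

set_option autoImplicit false

namespace Fermat.Agent.LR

open Matrix MatrixGroups ModularGroup

/-! ### Definitions -/

/-- the canonical pairing of a Heisenberg-valued homomorphism: `Σ_c z(ρ(π_c))` -/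
def lrdPcan {Γ : Subgroup SL(2, ℤ)} {κ : Type} [Fintype κ] (K : LrdCusps Γ κ)
    (ρ : Γ →* LrdHeis ℚ) : ℚ := ∑ c, (ρ (K.gen c)).z

/-- `ρ` lifts the pair `(φ, ψ)` -/
def LrdLift {Γ : Subgroup SL(2, ℤ)} (φ ψ : Additive Γ →+ ℤ) (ρ : Γ →* LrdHeis ℚ) : Prop :=
  ∀ γ : Γ, (ρ γ).x = ((φ (Additive.ofMul γ) : ℤ) : ℚ) ∧ (ρ γ).y = ((ψ (Additive.ofMul γ) : ℤ) : ℚ)

/-! ### Heisenberg lemmas -/

theorem lrdq_heis_sq {a : LrdHeis ℚ} (h : a * a = 1) : a = 1 := by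
  have hx := congrArg LrdHeis.x h
  have hy := congrArg LrdHeis.y h
  have hz := congrArg LrdHeis.z h
  simp only [LrdHeis.mul_x, LrdHeis.mul_y, LrdHeis.mul_z, LrdHeis.one_x, LrdHeis.one_y,
    LrdHeis.one_z] at hx hy hz
  have hx0 : a.x = 0 := by linarith
  have hy0 : a.y = 0 := by linarith
  have hz0 : a.z = 0 := by rw [hx0] at hz; linarith
  ext <;> simp [hx0, hy0, hz0]

theorem lrdq_central_mul (z₁ z₂ : ℚ) :
    (⟨0, 0, z₁⟩ : LrdHeis ℚ) * ⟨0, 0, z₂⟩ = ⟨0, 0, z₁ + z₂⟩ := by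
  ext <;> simp

theorem lrdq_conj_central (b : LrdHeis ℚ) (z : ℚ) : b * ⟨0, 0, z⟩ * b⁻¹ = ⟨0, 0, z⟩ := by
  ext
  · simp
  · simp
  · simp
    ring

theorem lrdq_conj_central' (b : LrdHeis ℚ) (z : ℚ) : b⁻¹ * ⟨0, 0, z⟩ * b = ⟨0, 0, z⟩ := by
  have := lrdq_conj_central b⁻¹ z
  rwa [inv_inv] at this

/-! ### Invariance -/

/-- `P_can` is invariant under an automorphism permuting the cusp classes -/
theorem lrdk_invariance_of_perm {Γ : Subgroup SL(2, ℤ)} {κ κ' : Type} [Fintype κ] [Fintype κ']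
    (K : LrdCusps Γ κ) (K' : LrdCusps Γ κ') (θ : Γ ≃* Γ)
    (hperm : ∃ (σ : κ ≃ κ') (δ : κ → Γ), ∀ c, θ (K.gen c) = δ c * K'.gen (σ c) * (δ c)⁻¹)
    (ρ : Γ →* LrdHeis ℚ)
    (hc : ∀ γ : Γ, LrdPosPar (γ : SL(2, ℤ)) → (ρ γ).x = 0 ∧ (ρ γ).y = 0) :
    lrdPcan K (ρ.comp θ.toMonoidHom) = lrdPcan K' ρ := by
  obtain ⟨σ, δ, hσ⟩ := hperm
  unfold lrdPcan
  rw [← Equiv.sum_comp σ (fun c' => (ρ (K'.gen c')).z)]
  refine Finset.sum_congr rfl fun c _ => ?_
  have h1 : (ρ.comp θ.toMonoidHom) (K.gen c) = ρ (δ c) * ρ (K'.gen (σ c)) * (ρ (δ c))⁻¹ := by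
    rw [MonoidHom.comp_apply, MulEquiv.coe_toMonoidHom, hσ c, map_mul, map_mul, map_inv]
  rw [h1]
  obtain ⟨hx, hy⟩ := hc _ (K'.pos (σ c))
  exact LrdHeis.conj_z _ _ hx hy

/-! ### The normalised Heisenberg cocycle -/

section cocycle

variable {Γ : Subgroup SL(2, ℤ)} {ι : Type} [Fintype ι] (D : LrdSys Γ ι)
  (ρ : Γ →* LrdHeis ℚ) (u u' : ι → ℚ)

/-- the normalising `0`-cochain `k x = (-u x, -u' x, 0)` -/
def lrdqK (x : ι) : LrdHeis ℚ := ⟨-u x, -u' x, 0⟩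

/-- the cocycle `C g x = k x * ρ (eps g x) * (k (act g x))⁻¹` -/
noncomputable def lrdqC (g : SL(2, ℤ)) (x : ι) : LrdHeis ℚ :=
  lrdqK u u' x * ρ (D.eps g x) * (lrdqK u u' (D.act g x))⁻¹

theorem lrdqC_mul (g h : SL(2, ℤ)) (x : ι) :
    lrdqC D ρ u u' (g * h) x = lrdqC D ρ u u' g x * lrdqC D ρ u u' h (D.act g x) := by
  unfold lrdqC
  rw [D.eps_mul, map_mul, D.act_mul]
  group

theorem lrdqC_one (x : ι) : lrdqC D ρ u u' 1 x = 1 := by
  unfold lrdqC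
  rw [D.eps_one, map_one, D.act_one]
  group

theorem lrdq_rho_neg_one : ρ ⟨-1, D.neg_mem⟩ = 1 := by
  apply lrdq_heis_sq
  rw [← map_mul]
  have : (⟨-1, D.neg_mem⟩ : Γ) * ⟨-1, D.neg_mem⟩ = 1 := Subtype.ext lrd_neg_one_mul_self
  rw [this, map_one]

theorem lrdqC_neg_one (x : ι) : lrdqC D ρ u u' (-1) x = 1 := by
  unfold lrdqC
  rw [D.eps_neg_one, lrdq_rho_neg_one D ρ, D.act_neg_one]
  group

theorem lrdqC_S_S (x : ι) : lrdqC D ρ u u' S x * lrdqC D ρ u u' S (D.sS x) = 1 := by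
  rw [LrdSys.sS_apply, ← lrdqC_mul, lrd_S_mul_S, lrdqC_neg_one]

theorem lrdqC_R_R_R (x : ι) :
    lrdqC D ρ u u' lrdR x * lrdqC D ρ u u' lrdR (D.sR x) * lrdqC D ρ u u' lrdR (D.sR (D.sR x))
      = 1 := by
  rw [LrdSys.sR_apply, LrdSys.sR_apply, ← lrdqC_mul, ← D.act_mul, ← lrdqC_mul, lrdR_cube,
    lrdqC_neg_one]

theorem lrdq_act_S_inv (x : ι) : D.act S⁻¹ x = D.sS x := by
  show (D.sigma S)⁻¹ x = _
  rw [show (D.sigma S)⁻¹ = (D.sS)⁻¹ from rfl, D.sS_inv]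

theorem lrdqC_T_eq (x : ι) :
    lrdqC D ρ u u' T x = (lrdqC D ρ u u' S (D.sS x))⁻¹ * lrdqC D ρ u u' lrdR (D.sS x) := by
  have h1 : lrdqC D ρ u u' S⁻¹ x * lrdqC D ρ u u' S (D.sS x) = 1 := by
    rw [← lrdq_act_S_inv, ← lrdqC_mul, inv_mul_cancel, lrdqC_one]
  rw [lrd_T_eq, lrdqC_mul, lrdq_act_S_inv, eq_inv_of_mul_eq_one_left h1]

/-- components of the normalised cocycle -/
theorem lrdqC_x (g : SL(2, ℤ)) (x : ι) :
    (lrdqC D ρ u u' g x).x = (ρ (D.eps g x)).x + u (D.act g x) - u x := by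
  simp [lrdqC, lrdqK]
  ring

theorem lrdqC_y (g : SL(2, ℤ)) (x : ι) :
    (lrdqC D ρ u u' g x).y = (ρ (D.eps g x)).y + u' (D.act g x) - u' x := by
  simp [lrdqC, lrdqK]
  ring

end cocycle

/-! ### The normalised situation: `C(S)` and `C(R)` have the same abelian parts -/

section normalised

variable {Γ : Subgroup SL(2, ℤ)} {ι : Type} [Fintype ι] (D : LrdSys Γ ι)
  (ρ : Γ →* LrdHeis ℚ) (u u' : ι → ℚ)
  (hSRx : ∀ y, (lrdqC D ρ u u' S y).x = (lrdqC D ρ u u' lrdR y).x)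
  (hSRy : ∀ y, (lrdqC D ρ u u' S y).y = (lrdqC D ρ u u' lrdR y).y)

/-- the central value `G x = z(C(T)(x))` -/
noncomputable def lrdqG (x : ι) : ℚ := (lrdqC D ρ u u' T x).z

include hSRx hSRy

theorem lrdqC_T (x : ι) : lrdqC D ρ u u' T x = ⟨0, 0, lrdqG D ρ u u' x⟩ := by
  have h := lrdqC_T_eq D ρ u u' x
  ext
  · rw [h]
    simp [hSRx]
  · rw [h]
    simp [hSRy]
  · rfl

theorem lrdqG_eq (x : ι) :
    lrdqG D ρ u u' x = (lrdqC D ρ u u' lrdR (D.sS x)).z - (lrdqC D ρ u u' S (D.sS x)).z := by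
  unfold lrdqG
  rw [lrdqC_T_eq]
  simp [hSRx, hSRy]
  ring

theorem lrdqC_T_pow (n : ℕ) (x : ι) :
    lrdqC D ρ u u' (T ^ n) x =
      ⟨0, 0, ∑ j ∈ Finset.range n, lrdqG D ρ u u' ((D.sT ^ j) x)⟩ := by
  induction n with
  | zero =>
    rw [pow_zero, lrdqC_one]
    ext <;> simp
  | succ n ih =>
    rw [pow_succ, lrdqC_mul, ih, lrdqC_T D ρ u u' hSRx hSRy, lrdq_central_mul,
      Finset.sum_range_succ, D.act_pow]
    rfl

/-- the value of `ρ` at the parabolic element `eps (T ^ n) x` (`x` fixed by `T ^ n`) -/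
theorem lrdq_rho_eps_T_pow (n : ℕ) (x : ι) (hx : (D.sT ^ n) x = x) :
    ρ (D.eps (T ^ n) x) = ⟨0, 0, ∑ j ∈ Finset.range n, lrdqG D ρ u u' ((D.sT ^ j) x)⟩ := by
  have h := lrdqC_T_pow D ρ u u' hSRx hSRy n x
  unfold lrdqC at h
  have hact : D.act (T ^ n) x = x := by rw [D.act_pow]; exact hx
  rw [hact] at h
  have h2 : ρ (D.eps (T ^ n) x) = (lrdqK u u' x)⁻¹ *
      (lrdqK u u' x * ρ (D.eps (T ^ n) x) * (lrdqK u u' x)⁻¹) * lrdqK u u' x := by group
  rw [h2, h, lrdq_conj_central']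

/-- **the sum formula**: `6 Σ_x G x = Σ_x (w x + 2 w (r x)) w' x`, `w = x(C(S))`, `w' = y(C(S))` -/
theorem lrdq_sum_G :
    6 * ∑ x, lrdqG D ρ u u' x =
      ∑ x, ((lrdqC D ρ u u' S x).x + 2 * (lrdqC D ρ u u' S (D.sR x)).x) *
        (lrdqC D ρ u u' S x).y := by
  set w : ι → ℚ := fun x => (lrdqC D ρ u u' S x).x with hw
  set w' : ι → ℚ := fun x => (lrdqC D ρ u u' S x).y with hw'
  set fS : ι → ℚ := fun x => (lrdqC D ρ u u' S x).z with hfS
  set fR : ι → ℚ := fun x => (lrdqC D ρ u u' lrdR x).z with hfR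
  -- relations
  have hS2 : ∀ x, w' x + w' (D.sS x) = 0 ∧ fS x + fS (D.sS x) = w x * w' x := by
    intro x
    have h := lrdqC_S_S D ρ u u' x
    have hy := congrArg LrdHeis.y h
    have hz := congrArg LrdHeis.z h
    simp only [LrdHeis.mul_y, LrdHeis.mul_z, LrdHeis.one_y, LrdHeis.one_z] at hy hz
    refine ⟨hy, ?_⟩
    have hy' : w' (D.sS x) = - w' x := by
      have : w' x + w' (D.sS x) = 0 := hy
      linarith
    show (lrdqC D ρ u u' S x).z + (lrdqC D ρ u u' S (D.sS x)).z = w x * w' x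
    have hz' : (lrdqC D ρ u u' S x).z + (lrdqC D ρ u u' S (D.sS x)).z + w x * w' (D.sS x) = 0 := hz
    rw [hy'] at hz'
    linarith
  have hR3 : ∀ x, w' x + w' (D.sR x) + w' (D.sR (D.sR x)) = 0 ∧
      fR x + fR (D.sR x) + fR (D.sR (D.sR x)) =
        -(w x * w' (D.sR x) + (w x + w (D.sR x)) * w' (D.sR (D.sR x))) := by
    intro x
    have h := lrdqC_R_R_R D ρ u u' x
    have hy := congrArg LrdHeis.y h
    have hz := congrArg LrdHeis.z h
    simp only [LrdHeis.mul_x, LrdHeis.mul_y, LrdHeis.mul_z, LrdHeis.one_y, LrdHeis.one_z] at hy hz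
    rw [← hSRy, ← hSRy, ← hSRy] at hy
    rw [← hSRx, ← hSRx, ← hSRy, ← hSRy] at hz
    refine ⟨hy, ?_⟩
    show (lrdqC D ρ u u' lrdR x).z + (lrdqC D ρ u u' lrdR (D.sR x)).z +
      (lrdqC D ρ u u' lrdR (D.sR (D.sR x))).z = _
    simp only [hw, hw']
    linarith
  -- the basic sums
  set P : ℚ := ∑ x, w x * w' x with hP
  set Q : ℚ := ∑ x, w x * w' (D.sR x) with hQ
  have s1 : ∑ x, w x * w' (D.sR (D.sR x)) = -P - Q := by
    rw [hP, hQ, ← Finset.sum_neg_distrib, ← Finset.sum_sub_distrib]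
    refine Finset.sum_congr rfl fun x _ => ?_
    have := (hR3 x).1
    have e : w' (D.sR (D.sR x)) = - w' x - w' (D.sR x) := by linarith
    rw [e]; ring
  have s2 : ∑ x, w (D.sR x) * w' (D.sR (D.sR x)) = Q :=
    Equiv.sum_comp D.sR (fun y => w y * w' (D.sR y))
  have s3 : ∑ x, w (D.sR x) * w' x = -P - Q := by
    rw [← s1, ← Equiv.sum_comp D.sR (fun y => w y * w' (D.sR (D.sR y)))]
    refine Finset.sum_congr rfl fun x _ => ?_
    rw [D.sR_sR_sR]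
  have sS : 2 * ∑ x, fS x = P := by
    have e : ∑ x, fS (D.sS x) = ∑ x, fS x := Equiv.sum_comp D.sS fS
    have : ∑ x, (fS x + fS (D.sS x)) = P := by
      rw [hP]
      exact Finset.sum_congr rfl fun x _ => (hS2 x).2
    rw [Finset.sum_add_distrib, e] at this
    linarith
  have sR : 3 * ∑ x, fR x = P - Q := by
    have e1 : ∑ x, fR (D.sR x) = ∑ x, fR x := Equiv.sum_comp D.sR fR
    have e2 : ∑ x, fR (D.sR (D.sR x)) = ∑ x, fR x := by
      rw [← e1]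
      exact Equiv.sum_comp D.sR (fun y => fR (D.sR y))
    have : ∑ x, (fR x + fR (D.sR x) + fR (D.sR (D.sR x))) =
        ∑ x, -(w x * w' (D.sR x) + (w x + w (D.sR x)) * w' (D.sR (D.sR x))) :=
      Finset.sum_congr rfl fun x _ => (hR3 x).2
    rw [Finset.sum_add_distrib, Finset.sum_add_distrib, e1, e2] at this
    have e3 : ∑ x, -(w x * w' (D.sR x) + (w x + w (D.sR x)) * w' (D.sR (D.sR x))) =
        -(Q + ∑ x, w x * w' (D.sR (D.sR x)) + ∑ x, w (D.sR x) * w' (D.sR (D.sR x))) := by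
      rw [hQ, Finset.sum_neg_distrib, ← Finset.sum_add_distrib, ← Finset.sum_add_distrib]
      congr 1
      refine Finset.sum_congr rfl fun x _ => ?_
      ring
    rw [e3, s1, s2] at this
    linarith
  have sG : ∑ x, lrdqG D ρ u u' x = ∑ x, fR x - ∑ x, fS x := by
    rw [← Equiv.sum_comp D.sS fR, ← Equiv.sum_comp D.sS fS, ← Finset.sum_sub_distrib]
    exact Finset.sum_congr rfl fun x _ => lrdqG_eq D ρ u u' hSRx hSRy x
  have sT : ∑ x, (w x + 2 * w (D.sR x)) * w' x = P + 2 * (-P - Q) := by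
    rw [← s3, hP, Finset.mul_sum, ← Finset.sum_add_distrib]
    refine Finset.sum_congr rfl fun x _ => ?_
    ring
  rw [sT, sG]
  linarith

end normalised

/-! ### Explicit cocycle for the existence of lifts -/

section explicit

variable {ι : Type} (s r : Equiv.Perm ι) (w w' : ι → ℚ)

/-- `c_S x = (w x, w' x, w x w' x / 2)` -/
def lrdqCS (x : ι) : LrdHeis ℚ := ⟨w x, w' x, w x * w' x / 2⟩

/-- `c_R x = (w x, w' x, -(w x w'(r x) - w(r² x) w'(r² x)) / 3)` -/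
def lrdqCR (x : ι) : LrdHeis ℚ :=
  ⟨w x, w' x, -(w x * w' (r x) - w (r (r x)) * w' (r (r x))) / 3⟩

theorem lrdqCS_mul (hw : ∀ x, w x + w (s x) = 0) (hw' : ∀ x, w' x + w' (s x) = 0) (x : ι) :
    lrdqCS w w' x * lrdqCS w w' (s x) = 1 := by
  have e1 : w (s x) = - w x := by linarith [hw x]
  have e2 : w' (s x) = - w' x := by linarith [hw' x]
  ext
  · simp [lrdqCS, e1]
  · simp [lrdqCS, e2]
  · simp [lrdqCS, e1, e2]
    try ring

theorem lrdqCR_mul (hr : ∀ x, r (r (r x)) = x) (hw : ∀ x, w x + w (r x) + w (r (r x)) = 0)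
    (hw' : ∀ x, w' x + w' (r x) + w' (r (r x)) = 0) (x : ι) :
    lrdqCR r w w' x * lrdqCR r w w' (r x) * lrdqCR r w w' (r (r x)) = 1 := by
  have e1 : w (r (r x)) = - w x - w (r x) := by linarith [hw x]
  have e2 : w' (r (r x)) = - w' x - w' (r x) := by linarith [hw' x]
  ext
  · simp [lrdqCR, e1]
  · simp [lrdqCR, e2]
  · simp [lrdqCR, hr, e1, e2]
    try ring

end explicit

/-! ### Uniqueness of a homomorphism with given cocycle class (additive form) -/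

theorem lrdq_hom_ext {Γ : Subgroup SL(2, ℤ)} {ι : Type} [Fintype ι] (D : LrdSys Γ ι)
    {A : Type*} [AddCommGroup A] (χ χ' : Additive Γ →+ A) (v : ι → A)
    (hS : ∀ x, D.coc χ S x = D.coc χ' S x + v x - v (D.sS x))
    (hR : ∀ x, D.coc χ lrdR x = D.coc χ' lrdR x + v x - v (D.sR x)) : χ = χ' := by
  have key : ∀ g : SL(2, ℤ), ∀ x, D.coc χ g x = D.coc χ' g x + v x - v (D.act g x) := by
    intro g
    have hg : g ∈ Subgroup.closure ({S, lrdR} : Set SL(2, ℤ)) := by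
      rw [lrd_closure_S_R]; exact Subgroup.mem_top _
    induction hg using Subgroup.closure_induction with
    | mem g hg =>
      rcases hg with rfl | rfl
      · exact hS
      · exact hR
    | one =>
      intro x
      rw [D.coc_one, D.coc_one, D.act_one]
      abel
    | mul g h _ _ ihg ihh =>
      intro x
      rw [D.coc_mul, D.coc_mul, ihg x, ihh (D.act g x), D.act_mul]
      abel
    | inv g _ ih =>
      intro x
      rw [D.coc_inv, D.coc_inv, ih (D.act g⁻¹ x), D.act_act_inv]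
      abel
  refine AddMonoidHom.ext fun a => ?_
  have h := key ((Additive.toMul a : Γ) : SL(2, ℤ)) D.base
  rw [D.coc_base, D.coc_base, D.act_mem_base] at h
  have h' : χ a = χ' a + v D.base - v D.base := h
  rw [h']
  abel

end Fermat.Agent.LR
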