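/-
S41 / F2 (helper9): **orbits of a permutation of a finite set**.

* `lrdo_potential`: a function with vanishing orbit sums is a coboundary `f x = u x - u (t x)`
  (over any abelian group, in particular integrally);
* `lrdOrb t`: the type of orbits; `lrdo_sum_orbits`: decomposition of a sum into orbit sums.
-/
import Mathlib

set_option autoImplicit false
set_option linter.unusedSectionVars false

namespace Fermat.Agent.LR

open Function

section Potential

variable {X : Type*} {A : Type*} [AddCommGroup A]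

/-- partial sums of `f` along the orbit of `x` -/
def lrdoPS (t : Equiv.Perm X) (f : X → A) (x : X) (m : ℕ) : A :=
  ∑ j ∈ Finset.range m, f ((t ^ j) x)

theorem lrdoPS_zero (t : Equiv.Perm X) (f : X → A) (x : X) : lrdoPS t f x 0 = 0 := by
  simp [lrdoPS]

theorem lrdoPS_succ (t : Equiv.Perm X) (f : X → A) (x : X) (m : ℕ) :
    lrdoPS t f x (m + 1) = lrdoPS t f x m + f ((t ^ m) x) := by
  simp [lrdoPS, Finset.sum_range_succ]

theorem lrdoPS_add (t : Equiv.Perm X) (f : X → A) (x : X) (m d : ℕ) :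
    lrdoPS t f x (m + d) = lrdoPS t f x m + lrdoPS t f ((t ^ m) x) d := by
  unfold lrdoPS
  rw [Finset.sum_range_add]
  congr 1
  refine Finset.sum_congr rfl fun j _ => ?_
  rw [add_comm m j, pow_add, Equiv.Perm.mul_apply]

theorem lrdoPS_mul_period (t : Equiv.Perm X) (f : X → A) (y : X) (w : ℕ) (hw : (t ^ w) y = y)
    (q : ℕ) : lrdoPS t f y (w * q) = q • lrdoPS t f y w := by
  induction q with
  | zero => simp [lrdoPS_zero]
  | succ q ih =>
    have h1 : (t ^ (w * q)) y = y := by
      rw [pow_mul]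
      exact Equiv.Perm.pow_apply_eq_self_of_apply_eq_self hw q
    rw [Nat.mul_succ, lrdoPS_add, ih, h1, succ_nsmul]

variable [Finite X]

theorem lrdo_minimalPeriod_dvd (t : Equiv.Perm X) (y : X) (d : ℕ) (hd : (t ^ d) y = y) :
    minimalPeriod t y ∣ d := by
  apply IsPeriodicPt.minimalPeriod_dvd
  show (⇑t)^[d] y = y
  rw [Equiv.Perm.iterate_eq_pow]
  exact hd

theorem lrdo_pow_minimalPeriod (t : Equiv.Perm X) (y : X) : (t ^ minimalPeriod t y) y = y := by
  have := iterate_minimalPeriod (f := t) (x := y)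
  rwa [Equiv.Perm.iterate_eq_pow] at this

theorem lrdo_minimalPeriod_pos (t : Equiv.Perm X) (y : X) : 0 < minimalPeriod t y := by
  apply minimalPeriod_pos_of_mem_periodicPts
  refine mk_mem_periodicPts (orderOf_pos t) ?_
  show (⇑t)^[orderOf t] y = y
  rw [Equiv.Perm.iterate_eq_pow, pow_orderOf_eq_one]
  rfl

theorem lrdoPS_eq_zero_of_fixed (t : Equiv.Perm X) (f : X → A)
    (hf : ∀ x, lrdoPS t f x (minimalPeriod t x) = 0) (y : X) (d : ℕ) (hd : (t ^ d) y = y) :
    lrdoPS t f y d = 0 := by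
  obtain ⟨q, rfl⟩ := lrdo_minimalPeriod_dvd t y d hd
  rw [lrdoPS_mul_period t f y _ (lrdo_pow_minimalPeriod t y), hf, smul_zero]

theorem lrdoPS_congr (t : Equiv.Perm X) (f : X → A)
    (hf : ∀ x, lrdoPS t f x (minimalPeriod t x) = 0) (x : X) (m m' : ℕ)
    (h : (t ^ m) x = (t ^ m') x) : lrdoPS t f x m = lrdoPS t f x m' := by
  wlog hle : m ≤ m' generalizing m m'
  · exact (this m' m h.symm (le_of_not_ge hle)).symm
  obtain ⟨d, rfl⟩ := Nat.exists_eq_add_of_le hle
  rw [lrdoPS_add]
  have hd : (t ^ d) ((t ^ m) x) = (t ^ m) x := by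
    rw [← Equiv.Perm.mul_apply, ← pow_add, add_comm d m]
    exact h.symm
  rw [lrdoPS_eq_zero_of_fixed t f hf _ d hd, add_zero]

/-- **integral potential**: a function with vanishing orbit sums is a coboundary -/
theorem lrdo_potential (t : Equiv.Perm X) (f : X → A)
    (hf : ∀ x, ∑ j ∈ Finset.range (minimalPeriod t x), f ((t ^ j) x) = 0) :
    ∃ u : X → A, ∀ x, f x = u x - u (t x) := by
  classical
  let R : Setoid X := Equiv.Perm.SameCycle.setoid t
  let rp : X → X := fun x => Quotient.out (Quotient.mk R x)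
  have hrp : ∀ x, Equiv.Perm.SameCycle t (rp x) x := fun x =>
    Quotient.exact (Quotient.out_eq (Quotient.mk R x))
  have hex : ∀ x, ∃ i : ℕ, (t ^ i) (rp x) = x := fun x => (hrp x).exists_nat_pow_eq
  choose k hk using hex
  have hrpt : ∀ x, rp (t x) = rp x := by
    intro x
    show Quotient.out (Quotient.mk R (t x)) = Quotient.out (Quotient.mk R x)
    congr 1
    apply Quotient.sound
    show Equiv.Perm.SameCycle t (t x) x
    exact (Equiv.Perm.sameCycle_apply_left).mpr (Equiv.Perm.SameCycle.refl t x)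
  refine ⟨fun x => - lrdoPS t f (rp x) (k x), fun x => ?_⟩
  have h1 : lrdoPS t f (rp x) (k (t x)) = lrdoPS t f (rp x) (k x + 1) := by
    apply lrdoPS_congr t f hf
    have := hk (t x)
    rw [hrpt] at this
    rw [this, pow_succ', Equiv.Perm.mul_apply, hk x]
  show f x = - lrdoPS t f (rp x) (k x) - - lrdoPS t f (rp (t x)) (k (t x))
  rw [hrpt, h1, lrdoPS_succ, hk x]
  abel

end Potential

/-! ### The type of orbits -/

section Orbits

variable {X : Type*}

/-- the type of orbits of a permutation -/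
def lrdOrb (t : Equiv.Perm X) : Type _ := Quotient (Equiv.Perm.SameCycle.setoid t)

noncomputable instance lrdOrb_fintype [Fintype X] (t : Equiv.Perm X) : Fintype (lrdOrb t) := by
  classical
  exact Quotient.fintype _

/-- the orbit of a point -/
def lrdOrbMk (t : Equiv.Perm X) (x : X) : lrdOrb t := Quotient.mk _ x

/-- a representative of an orbit -/
noncomputable def lrdOrbOut (t : Equiv.Perm X) (c : lrdOrb t) : X := Quotient.out c

theorem lrdOrbMk_out (t : Equiv.Perm X) (c : lrdOrb t) : lrdOrbMk t (lrdOrbOut t c) = c :=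
  Quotient.out_eq c

theorem lrdOrbMk_eq_iff (t : Equiv.Perm X) (x y : X) :
    lrdOrbMk t x = lrdOrbMk t y ↔ Equiv.Perm.SameCycle t x y :=
  ⟨fun h => Quotient.exact h, fun h => Quotient.sound h⟩

theorem lrdOrbMk_apply (t : Equiv.Perm X) (x : X) : lrdOrbMk t (t x) = lrdOrbMk t x := by
  rw [lrdOrbMk_eq_iff]
  exact (Equiv.Perm.sameCycle_apply_left).mpr (Equiv.Perm.SameCycle.refl t x)

theorem lrdOrbMk_pow_apply (t : Equiv.Perm X) (x : X) (j : ℕ) :
    lrdOrbMk t ((t ^ j) x) = lrdOrbMk t x := by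
  induction j with
  | zero => rfl
  | succ j ih => rw [pow_succ', Equiv.Perm.mul_apply, lrdOrbMk_apply, ih]

variable [Fintype X]

/-- **orbit decomposition** of a sum -/
theorem lrdo_sum_orbits {M : Type*} [AddCommMonoid M] (t : Equiv.Perm X) (F : X → M) :
    ∑ c : lrdOrb t, ∑ j ∈ Finset.range (minimalPeriod t (lrdOrbOut t c)),
        F ((t ^ j) (lrdOrbOut t c)) = ∑ x, F x := by
  classical
  rw [← Finset.sum_fiberwise (Finset.univ : Finset X) (lrdOrbMk t) F]
  refine Finset.sum_congr rfl fun c _ => ?_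
  set x₀ := lrdOrbOut t c with hx₀
  have hinj : Set.InjOn (fun j : ℕ => (t ^ j) x₀) (Finset.range (minimalPeriod t x₀)) := by
    intro m hm n hn hmn
    have hm' : m < minimalPeriod t x₀ := Finset.mem_range.mp hm
    have hn' : n < minimalPeriod t x₀ := Finset.mem_range.mp hn
    have := iterate_injOn_Iio_minimalPeriod (f := t) (x := x₀) hm' hn'
    apply this
    show (⇑t)^[m] x₀ = (⇑t)^[n] x₀
    rw [Equiv.Perm.iterate_eq_pow, Equiv.Perm.iterate_eq_pow]
    exact hmn
  rw [← Finset.sum_image (f := F) hinj]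
  refine Finset.sum_congr ?_ fun _ _ => rfl
  ext y
  simp only [Finset.mem_image, Finset.mem_range, Finset.mem_filter, Finset.mem_univ, true_and]
  constructor
  · rintro ⟨j, _, rfl⟩
    rw [lrdOrbMk_pow_apply, hx₀, lrdOrbMk_out]
  · intro hy
    have hsc : Equiv.Perm.SameCycle t x₀ y := by
      rw [← lrdOrbMk_eq_iff, hy, hx₀, lrdOrbMk_out]
    obtain ⟨i, hi⟩ := hsc.exists_nat_pow_eq
    refine ⟨i % minimalPeriod t x₀, Nat.mod_lt _ (lrdo_minimalPeriod_pos t x₀), ?_⟩
    rw [← hi]
    have := iterate_mod_minimalPeriod_eq (f := t) (x := x₀) (n := i)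
    rw [Equiv.Perm.iterate_eq_pow, Equiv.Perm.iterate_eq_pow] at this
    exact this

end Orbits

end Fermat.Agent.LR
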