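/-
S41 / F2 (helper9): **the combinatorial model** — two permutations `s, r` of a finite set `X`
with `s² = 1`, `r³ = 1`; functions `X → k`.

* `lrdDot` calculus (`lrdDot_shift`, bilinearity);
* `LrdNorm.symb`: a normalised cocycle is a modular symbol;
* `lrdm_key`: `6 ⟨u₁ - u₂, w'⟩ = ⟨w + 2 w∘r, w'⟩`;
* `lrdm_alt`, `lrdm_antisymm`;
* `lrdm_exists_wit`: `H¹(C₂, ℤ[X]) = H¹(C₃, ℤ[X]) = 0`;
* `lrdSymbMod`, `lrdm_extend`: every functional on the symbols is `⟨v, ·⟩` (saturation);
* `lrdm_norm_of_perp`: `v ⊥` boundary symbols `⇒` the cocycle `((s-1) v, 0)` is parabolic.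
-/
import Mathlib
import Fermat.Agent.Lib.LR.Dual.Defs
import Fermat.Agent.Lib.LR.Dual.Orbit

set_option autoImplicit false
set_option linter.unusedSectionVars false

namespace Fermat.Agent.LR

open Function

section Dot

variable {X : Type*} [Fintype X] {k : Type*} [CommRing k]

theorem lrdDot_shift (σ : Equiv.Perm X) (f g : X → k) :
    ∑ x, f (σ x) * g x = ∑ x, f x * g (σ.symm x) := by
  rw [← Equiv.sum_comp σ (fun y => f y * g (σ.symm y))]
  simp

theorem lrdDot_add_left (f f' g : X → k) : lrdDot (f + f') g = lrdDot f g + lrdDot f' g := by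
  simp [lrdDot, add_mul, Finset.sum_add_distrib]

theorem lrdDot_add_right (f g g' : X → k) : lrdDot f (g + g') = lrdDot f g + lrdDot f g' := by
  simp [lrdDot, mul_add, Finset.sum_add_distrib]

theorem lrdDot_sub_left (f f' g : X → k) : lrdDot (f - f') g = lrdDot f g - lrdDot f' g := by
  simp [lrdDot, sub_mul, Finset.sum_sub_distrib]

theorem lrdDot_sub_right (f g g' : X → k) : lrdDot f (g - g') = lrdDot f g - lrdDot f g' := by
  simp [lrdDot, mul_sub, Finset.sum_sub_distrib]

theorem lrdDot_smul_left (c : k) (f g : X → k) : lrdDot (c • f) g = c * lrdDot f g := by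
  simp [lrdDot, Finset.mul_sum, mul_assoc]

theorem lrdDot_smul_right (c : k) (f g : X → k) : lrdDot f (c • g) = c * lrdDot f g := by
  simp only [lrdDot, Finset.mul_sum, Pi.smul_apply, smul_eq_mul]
  refine Finset.sum_congr rfl fun x _ => ?_
  ring

theorem lrdDot_zero_left (g : X → k) : lrdDot (0 : X → k) g = 0 := by simp [lrdDot]

theorem lrdDot_zero_right (f : X → k) : lrdDot f (0 : X → k) = 0 := by simp [lrdDot]

theorem lrdDot_comm (f g : X → k) : lrdDot f g = lrdDot g f := by
  simp [lrdDot, mul_comm]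

end Dot

section Model

variable {X : Type*} [Fintype X] {k : Type*} [CommRing k] {s r : Equiv.Perm X}

theorem lrd_symm_of_sq (hs : ∀ x, s (s x) = x) (y : X) : s.symm y = s y := by
  rw [Equiv.symm_apply_eq, hs]

theorem lrd_symm_of_cube (hr : ∀ x, r (r (r x)) = x) (y : X) : r.symm y = r (r y) := by
  rw [Equiv.symm_apply_eq, hr]

/-- a normalised cocycle is a modular symbol -/
theorem LrdNorm.symb (hs : ∀ x, s (s x) = x) (hr : ∀ x, r (r (r x)) = x) {a b u w : X → k}
    (hN : LrdNorm s r a b u w) (ha : ∀ x, a x + a (s x) = 0)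
    (hb : ∀ x, b x + b (r x) + b (r (r x)) = 0) : LrdSymb s r w := by
  refine ⟨fun x => ?_, fun x => ?_⟩
  · rw [hN.1 x, hN.1 (s x), hs x]
    linear_combination ha x
  · rw [hN.2 x, hN.2 (r x), hN.2 (r (r x)), hr x]
    linear_combination hb x

/-- the first half: `2 ⟨U, w'⟩ = - ⟨(s - 1) U, w'⟩` for a symbol `w'` -/
theorem lrdm_half_s (hs : ∀ x, s (s x) = x) {w' : X → k} (hw' : ∀ x, w' x + w' (s x) = 0)
    (U : X → k) : ∑ x, (U (s x) - U x) * w' x = - (2 * ∑ x, U x * w' x) := by
  have h1 : ∑ x, U (s x) * w' x = - ∑ x, U x * w' x := by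
    rw [lrdDot_shift s U w', ← Finset.sum_neg_distrib]
    refine Finset.sum_congr rfl fun x _ => ?_
    rw [lrd_symm_of_sq hs]
    linear_combination U x * hw' x
  simp only [sub_mul, Finset.sum_sub_distrib, h1]
  ring

/-- the second half: `3 ⟨U, w'⟩ = - ⟨2 (r - 1) U + ((r - 1) U) ∘ r, w'⟩` for a symbol `w'` -/
theorem lrdm_half_r (hr : ∀ x, r (r (r x)) = x) {w' : X → k}
    (hw' : ∀ x, w' x + w' (r x) + w' (r (r x)) = 0) (U : X → k) :
    ∑ x, (2 * (U (r x) - U x) + (U (r (r x)) - U (r x))) * w' x = - (3 * ∑ x, U x * w' x) := by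
  have h1 : ∑ x, U (r x) * w' x = ∑ x, U x * w' (r (r x)) := by
    rw [lrdDot_shift r U w']
    refine Finset.sum_congr rfl fun x _ => ?_
    rw [lrd_symm_of_cube hr]
  have h2 : ∑ x, U (r (r x)) * w' x = ∑ x, U x * w' (r x) := by
    have := lrdDot_shift (r * r) U w'
    simp only [Equiv.Perm.mul_apply] at this
    rw [this]
    refine Finset.sum_congr rfl fun x _ => ?_
    have e : (r * r).symm x = r x := by
      rw [Equiv.symm_apply_eq, Equiv.Perm.mul_apply, hr]
    rw [e]
  have h3 : ∑ x, (2 * (U (r x) - U x) + (U (r (r x)) - U (r x))) * w' x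
      = ∑ x, U (r x) * w' x + ∑ x, U (r (r x)) * w' x - 2 * ∑ x, U x * w' x := by
    rw [Finset.mul_sum, ← Finset.sum_add_distrib, ← Finset.sum_sub_distrib]
    refine Finset.sum_congr rfl fun x _ => ?_
    ring
  rw [h3, h1, h2, Finset.mul_sum, Finset.mul_sum, ← Finset.sum_add_distrib,
    ← Finset.sum_sub_distrib, ← Finset.sum_neg_distrib]
  refine Finset.sum_congr rfl fun x _ => ?_
  linear_combination U x * hw' x

/-- **the key identity**: `6 ⟨u₁ - u₂, w'⟩ = ⟨w + 2 w∘r, w'⟩` -/
theorem lrdm_key (hs : ∀ x, s (s x) = x) (hr : ∀ x, r (r (r x)) = x)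
    {a b u₁ u₂ u w w' : X → k} (hW : LrdWit s r a b u₁ u₂) (hN : LrdNorm s r a b u w)
    (hw' : LrdSymb s r w') :
    6 * lrdDot (u₁ - u₂) w' = lrdDot (fun x => w x + 2 * w (r x)) w' := by
  have e1 : ∀ x, w x = (u₁ + u) (s x) - (u₁ + u) x := by
    intro x
    rw [hN.1 x, hW.1 x]
    simp only [Pi.add_apply]
    ring
  have e2 : ∀ x, w x = (u₂ + u) (r x) - (u₂ + u) x := by
    intro x
    rw [hN.2 x, hW.2 x]
    simp only [Pi.add_apply]
    ring
  have h1 := lrdm_half_s hs hw'.1 (u₁ + u)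
  have h2 := lrdm_half_r hr hw'.2 (u₂ + u)
  have h1' : ∑ x, w x * w' x = - (2 * ∑ x, (u₁ + u) x * w' x) := by
    rw [← h1]
    exact Finset.sum_congr rfl fun x _ => by rw [e1 x]
  have h2' : ∑ x, (2 * w x + w (r x)) * w' x = - (3 * ∑ x, (u₂ + u) x * w' x) := by
    rw [← h2]
    exact Finset.sum_congr rfl fun x _ => by rw [e2 x, e2 (r x)]
  have h3 : lrdDot (fun x => w x + 2 * w (r x)) w'
      = 2 * ∑ x, (2 * w x + w (r x)) * w' x - 3 * ∑ x, w x * w' x := by
    unfold lrdDot
    rw [Finset.mul_sum, Finset.mul_sum, ← Finset.sum_sub_distrib]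
    refine Finset.sum_congr rfl fun x _ => ?_
    ring
  have h4 : lrdDot (u₁ - u₂) w' = ∑ x, (u₁ + u) x * w' x - ∑ x, (u₂ + u) x * w' x := by
    unfold lrdDot
    rw [← Finset.sum_sub_distrib]
    refine Finset.sum_congr rfl fun x _ => ?_
    simp only [Pi.sub_apply, Pi.add_apply]
    ring
  rw [h3, h4, h1', h2']
  ring

/-- `⟨w + 2 w∘r, w⟩ = 0` for a symbol `w` -/
theorem lrdm_alt (hr : ∀ x, r (r (r x)) = x) {w : X → k}
    (hw : ∀ x, w x + w (r x) + w (r (r x)) = 0) :
    lrdDot (fun x => w x + 2 * w (r x)) w = 0 := by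
  have h1 : ∑ x, w (r x) * w x = ∑ x, w (r (r x)) * w x := by
    rw [lrdDot_shift r w w]
    refine Finset.sum_congr rfl fun x _ => ?_
    rw [lrd_symm_of_cube hr, mul_comm]
  have h2 : lrdDot (fun x => w x + 2 * w (r x)) w
      = ∑ x, (w x + w (r x) + w (r (r x))) * w x + (∑ x, w (r x) * w x - ∑ x, w (r (r x)) * w x) := by
    unfold lrdDot
    rw [← Finset.sum_sub_distrib, ← Finset.sum_add_distrib]
    refine Finset.sum_congr rfl fun x _ => ?_
    ring
  rw [h2, h1, sub_self, add_zero]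
  exact Finset.sum_eq_zero fun x _ => by rw [hw x, zero_mul]

/-- antisymmetry of `(w, w') ↦ ⟨w + 2 w∘r, w'⟩` on symbols -/
theorem lrdm_antisymm (hr : ∀ x, r (r (r x)) = x) {w w' : X → k}
    (hw : ∀ x, w x + w (r x) + w (r (r x)) = 0)
    (hw' : ∀ x, w' x + w' (r x) + w' (r (r x)) = 0) :
    lrdDot (fun x => w x + 2 * w (r x)) w' = - lrdDot (fun x => w' x + 2 * w' (r x)) w := by
  have hsum : ∀ x, (w + w') x + (w + w') (r x) + (w + w') (r (r x)) = 0 := by
    intro x
    simp only [Pi.add_apply]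
    linear_combination hw x + hw' x
  have h0 := lrdm_alt hr hsum
  have h1 := lrdm_alt hr hw
  have h2 := lrdm_alt hr hw'
  have h3 : lrdDot (fun x => (w + w') x + 2 * (w + w') (r x)) (w + w')
      = lrdDot (fun x => w x + 2 * w (r x)) w + lrdDot (fun x => w x + 2 * w (r x)) w'
        + lrdDot (fun x => w' x + 2 * w' (r x)) w + lrdDot (fun x => w' x + 2 * w' (r x)) w' := by
    unfold lrdDot
    rw [← Finset.sum_add_distrib, ← Finset.sum_add_distrib, ← Finset.sum_add_distrib]
    refine Finset.sum_congr rfl fun x _ => ?_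
    simp only [Pi.add_apply]
    ring
  rw [h3, h1, h2] at h0
  linear_combination h0

end Model

/-! ### Integral statements -/

section Integral

variable {X : Type*} [Fintype X] {s r : Equiv.Perm X}

/-- `H¹(C₂, ℤ[X]) = 0` -/
theorem lrdm_exists_wit_s (hs : ∀ x, s (s x) = x) (a : X → ℤ) (ha : ∀ x, a x + a (s x) = 0) :
    ∃ u : X → ℤ, ∀ x, a x = u (s x) - u x := by
  obtain ⟨u, hu⟩ := lrdo_potential s a (by
    intro x
    have hd : minimalPeriod s x ∣ 2 := lrdo_minimalPeriod_dvd s x 2 (by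
      rw [pow_two, Equiv.Perm.mul_apply, hs])
    have hpos := lrdo_minimalPeriod_pos s x
    have h12 : minimalPeriod s x = 1 ∨ minimalPeriod s x = 2 := by
      have := Nat.le_of_dvd (by norm_num) hd
      interval_cases h : minimalPeriod s x
      · left; rfl
      · right; rfl
    rcases h12 with h | h
    · rw [h, Finset.sum_range_one, pow_zero, Equiv.Perm.one_apply]
      have hfix : s x = x := by
        have := lrdo_pow_minimalPeriod s x
        rwa [h, pow_one] at this
      have := ha x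
      rw [hfix] at this
      omega
    · rw [h, Finset.sum_range_succ, Finset.sum_range_one, pow_zero, pow_one, Equiv.Perm.one_apply]
      exact ha x)
  exact ⟨fun x => - u x, fun x => by rw [hu x]; ring⟩

/-- `H¹(C₃, ℤ[X]) = 0` -/
theorem lrdm_exists_wit_r (hr : ∀ x, r (r (r x)) = x) (b : X → ℤ)
    (hb : ∀ x, b x + b (r x) + b (r (r x)) = 0) :
    ∃ u : X → ℤ, ∀ x, b x = u (r x) - u x := by
  obtain ⟨u, hu⟩ := lrdo_potential r b (by
    intro x
    have hd : minimalPeriod r x ∣ 3 := lrdo_minimalPeriod_dvd r x 3 (by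
      rw [pow_succ, pow_two, Equiv.Perm.mul_apply, Equiv.Perm.mul_apply, hr])
    have hpos := lrdo_minimalPeriod_pos r x
    have h13 : minimalPeriod r x = 1 ∨ minimalPeriod r x = 3 :=
      (Nat.dvd_prime Nat.prime_three).mp hd
    rcases h13 with h | h
    · rw [h, Finset.sum_range_one, pow_zero, Equiv.Perm.one_apply]
      have hfix : r x = x := by
        have := lrdo_pow_minimalPeriod r x
        rwa [h, pow_one] at this
      have := hb x
      rw [hfix, hfix] at this
      omega
    · rw [h, Finset.sum_range_succ, Finset.sum_range_succ, Finset.sum_range_one, pow_zero,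
        pow_one, pow_two, Equiv.Perm.one_apply, Equiv.Perm.mul_apply]
      exact hb x)
  exact ⟨fun x => - u x, fun x => by rw [hu x]; ring⟩

/-- integral witnesses exist -/
theorem lrdm_exists_wit (hs : ∀ x, s (s x) = x) (hr : ∀ x, r (r (r x)) = x) (a b : X → ℤ)
    (ha : ∀ x, a x + a (s x) = 0) (hb : ∀ x, b x + b (r x) + b (r (r x)) = 0) :
    ∃ u₁ u₂ : X → ℤ, LrdWit s r a b u₁ u₂ := by
  obtain ⟨u₁, h₁⟩ := lrdm_exists_wit_s hs a ha
  obtain ⟨u₂, h₂⟩ := lrdm_exists_wit_r hr b hb
  exact ⟨u₁, u₂, h₁, h₂⟩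

/-- **normalisation**: if the function `(b - a) ∘ s` (the value of the cocycle at `T`) has
vanishing sums over the orbits of `r * s`, the cocycle can be normalised -/
theorem lrdm_exists_norm (hs : ∀ x, s (s x) = x) (a b : X → ℤ)
    (hT : ∀ x, ∑ j ∈ Finset.range (minimalPeriod (r * s) x),
      (b (s (((r * s) ^ j) x)) - a (s (((r * s) ^ j) x))) = 0) :
    ∃ u w : X → ℤ, LrdNorm s r a b u w := by
  obtain ⟨u, hu⟩ := lrdo_potential (r * s) (fun y => b (s y) - a (s y)) hT
  refine ⟨u, fun x => a x + u (s x) - u x, fun x => rfl, fun x => ?_⟩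
  have := hu (s x)
  simp only [Equiv.Perm.mul_apply, hs] at this
  linear_combination -this

/-- conversely, a normalised cocycle satisfies `(b - a) (s y) = u y - u (r (s y))` -/
theorem LrdNorm.cocT (hs : ∀ x, s (s x) = x) {k : Type*} [CommRing k] {a b u w : X → k}
    (hN : LrdNorm s r a b u w) (y : X) : b (s y) - a (s y) = u y - u (r (s y)) := by
  have h1 := hN.1 (s y)
  have h2 := hN.2 (s y)
  rw [hs] at h1
  linear_combination h1 - h2

end Integral

/-! ### Extension of functionals from the symbols -/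

section Extend

variable {X : Type*} [Fintype X] (s r : Equiv.Perm X)

/-- the module of integral modular symbols -/
def lrdSymbMod : Submodule ℤ (X → ℤ) where
  carrier := {w | LrdSymb s r w}
  zero_mem' := ⟨fun x => by simp, fun x => by simp⟩
  add_mem' := by
    rintro w w' ⟨h1, h2⟩ ⟨h1', h2'⟩
    refine ⟨fun x => ?_, fun x => ?_⟩
    · simp only [Pi.add_apply]
      linear_combination h1 x + h1' x
    · simp only [Pi.add_apply]
      linear_combination h2 x + h2' x
  smul_mem' := by
    rintro c w ⟨h1, h2⟩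
    refine ⟨fun x => ?_, fun x => ?_⟩
    · simp only [Pi.smul_apply, smul_eq_mul]
      linear_combination c * h1 x
    · simp only [Pi.smul_apply, smul_eq_mul]
      linear_combination c * h2 x

variable {s r}

theorem mem_lrdSymbMod {w : X → ℤ} : w ∈ lrdSymbMod s r ↔ LrdSymb s r w := Iff.rfl

/-- the symbols are saturated in `X → ℤ` -/
theorem lrdSymbMod_saturated {n : ℤ} (hn : n ≠ 0) {w : X → ℤ} (h : n • w ∈ lrdSymbMod s r) :
    w ∈ lrdSymbMod s r := by
  obtain ⟨h1, h2⟩ := h
  refine ⟨fun x => ?_, fun x => ?_⟩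
  · have := h1 x
    simp only [Pi.smul_apply, smul_eq_mul] at this
    have h3 : n * (w x + w (s x)) = 0 := by linear_combination this
    rcases mul_eq_zero.mp h3 with h | h
    · exact absurd h hn
    · exact h
  · have := h2 x
    simp only [Pi.smul_apply, smul_eq_mul] at this
    have h3 : n * (w x + w (r x) + w (r (r x))) = 0 := by linear_combination this
    rcases mul_eq_zero.mp h3 with h | h
    · exact absurd h hn
    · exact h

/-- every functional on a saturated submodule of `X → ℤ` is `⟨v, ·⟩` -/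
theorem lrdm_extend_aux (N : Submodule ℤ (X → ℤ))
    (hsat : ∀ n : ℤ, n ≠ 0 → ∀ w : X → ℤ, n • w ∈ N → w ∈ N) (lam : ↥N →ₗ[ℤ] ℤ) :
    ∃ v : X → ℤ, ∀ w : ↥N, lam w = lrdDot v (w : X → ℤ) := by
  classical
  -- the quotient is torsion-free, hence free, hence projective
  have : Module.IsTorsionFree ℤ ((X → ℤ) ⧸ N) := by
    refine Module.IsTorsionFree.of_smul_eq_zero fun n q hq => ?_
    by_cases hn : n = 0
    · exact Or.inl hn
    · right
      obtain ⟨m, rfl⟩ := Submodule.Quotient.mk_surjective N q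
      rw [← Submodule.Quotient.mk_smul, Submodule.Quotient.mk_eq_zero] at hq
      rw [Submodule.Quotient.mk_eq_zero]
      exact hsat n hn m hq
  have : Module.Free ℤ ((X → ℤ) ⧸ N) := Module.free_of_finite_type_torsion_free'
  obtain ⟨g, hg⟩ := (N.mkQ).exists_rightInverse_of_surjective (Submodule.range_mkQ N)
  -- the projection onto `N`
  have hproj : ∀ m : X → ℤ, m - g (N.mkQ m) ∈ N := by
    intro m
    rw [← Submodule.Quotient.mk_eq_zero, Submodule.Quotient.mk_sub]
    have := congrArg (fun f => f (N.mkQ m)) hg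
    simp only [LinearMap.comp_apply, LinearMap.id_apply] at this
    rw [sub_eq_zero]
    exact this.symm
  let P : (X → ℤ) →ₗ[ℤ] ↥N :=
    (LinearMap.id - g.comp N.mkQ).codRestrict N (by
      intro m
      simpa using hproj m)
  have hP : ∀ w : ↥N, P (w : X → ℤ) = w := by
    intro w
    apply Subtype.ext
    show (w : X → ℤ) - g (N.mkQ (w : X → ℤ)) = w
    have h0 : N.mkQ (w : X → ℤ) = 0 := by
      rw [Submodule.mkQ_apply, Submodule.Quotient.mk_eq_zero]
      exact w.2
    rw [h0, map_zero, sub_zero]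
  let L : (X → ℤ) →ₗ[ℤ] ℤ := lam.comp P
  refine ⟨fun x => L (Pi.single x 1), fun w => ?_⟩
  have h1 : lam w = L (w : X → ℤ) := by
    show lam w = lam (P (w : X → ℤ))
    rw [hP]
  rw [h1]
  have h2 : (w : X → ℤ) = ∑ x, (w : X → ℤ) x • (Pi.single x (1 : ℤ) : X → ℤ) := by
    ext y
    simp [Finset.sum_apply, Pi.single_apply]
  conv_lhs => rw [h2]
  rw [map_sum]
  unfold lrdDot
  refine Finset.sum_congr rfl fun x _ => ?_
  rw [map_smul, smul_eq_mul, mul_comm]

/-- **every functional on the symbols is `⟨v, ·⟩`** (the symbols are a direct summand) -/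
theorem lrdm_extend (lam : ↥(lrdSymbMod s r) →ₗ[ℤ] ℤ) :
    ∃ v : X → ℤ, ∀ w : ↥(lrdSymbMod s r), lam w = lrdDot v (w : X → ℤ) :=
  lrdm_extend_aux (lrdSymbMod s r) (fun _ hn _ h => lrdSymbMod_saturated hn h) lam

end Extend

/-! ### Boundary symbols -/

section Boundary

variable {X : Type*} [Fintype X] {s r : Equiv.Perm X}

open Classical in
/-- the sum over the orbit of `x₀` -/
theorem lrdo_sum_sameCycle {M : Type*} [AddCommMonoid M] (t : Equiv.Perm X) (x₀ : X) (F : X → M) :
    ∑ x ∈ Finset.univ.filter (fun x => Equiv.Perm.SameCycle t x₀ x), F x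
      = ∑ j ∈ Finset.range (minimalPeriod t x₀), F ((t ^ j) x₀) := by
  have hinj : Set.InjOn (fun j : ℕ => (t ^ j) x₀) (Finset.range (minimalPeriod t x₀)) := by
    intro m hm n hn hmn
    have hm' : m < minimalPeriod t x₀ := Finset.mem_range.mp hm
    have hn' : n < minimalPeriod t x₀ := Finset.mem_range.mp hn
    have := iterate_injOn_Iio_minimalPeriod (f := t) (x := x₀) hm' hn'
    apply this
    show (⇑t)^[m] x₀ = (⇑t)^[n] x₀
    rw [Equiv.Perm.iterate_eq_pow, Equiv.Perm.iterate_eq_pow]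
    exact hmn
  rw [← Finset.sum_image (f := F) hinj]
  refine Finset.sum_congr ?_ fun _ _ => rfl
  ext y
  simp only [Finset.mem_image, Finset.mem_range, Finset.mem_filter, Finset.mem_univ, true_and]
  constructor
  · intro hsc
    obtain ⟨i, hi⟩ := hsc.exists_nat_pow_eq
    refine ⟨i % minimalPeriod t x₀, Nat.mod_lt _ (lrdo_minimalPeriod_pos t x₀), ?_⟩
    rw [← hi]
    have := iterate_mod_minimalPeriod_eq (f := t) (x := x₀) (n := i)
    rw [Equiv.Perm.iterate_eq_pow, Equiv.Perm.iterate_eq_pow] at this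
    exact this
  · rintro ⟨j, _, rfl⟩
    exact ⟨(j : ℤ), by simp⟩

/-- if `v` is orthogonal to the boundary symbols `(s - 1) u₀` (`u₀` invariant under `r * s`),
then the cocycle `((s - 1) v, 0)` can be normalised -/
theorem lrdm_norm_of_perp (hs : ∀ x, s (s x) = x) (v : X → ℤ)
    (hv : ∀ u₀ : X → ℤ, (∀ x, u₀ ((r * s) x) = u₀ x) →
      lrdDot v (fun x => u₀ (s x) - u₀ x) = 0) :
    ∃ u w : X → ℤ, LrdNorm s r (fun x => v (s x) - v x) 0 u w := by
  classical
  refine lrdm_exists_norm hs _ _ fun x₀ => ?_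
  set t := r * s with ht
  have h1 : ∑ j ∈ Finset.range (minimalPeriod t x₀),
      ((0 : X → ℤ) (s ((t ^ j) x₀)) - (v (s (s ((t ^ j) x₀))) - v (s ((t ^ j) x₀))))
      = ∑ j ∈ Finset.range (minimalPeriod t x₀),
        (fun y => v (s y) - v y) ((t ^ j) x₀) := by
    refine Finset.sum_congr rfl fun j _ => ?_
    simp only [Pi.zero_apply, hs]
    ring
  rw [h1, ← lrdo_sum_sameCycle t x₀ (fun y => v (s y) - v y)]
  -- the indicator function of the orbit
  let ind : X → ℤ := fun x => if Equiv.Perm.SameCycle t x₀ x then 1 else 0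
  have hind : ∀ x, ind (t x) = ind x := by
    intro x
    show (if Equiv.Perm.SameCycle t x₀ (t x) then (1 : ℤ) else 0)
      = if Equiv.Perm.SameCycle t x₀ x then 1 else 0
    simp only [Equiv.Perm.sameCycle_apply_right]
  have h2 := hv ind hind
  have h3 : ∑ x ∈ Finset.univ.filter (fun x => Equiv.Perm.SameCycle t x₀ x), (v (s x) - v x)
      = ∑ x, ind x * (v (s x) - v x) := by
    rw [Finset.sum_filter]
    refine Finset.sum_congr rfl fun x _ => ?_
    show _ = (if Equiv.Perm.SameCycle t x₀ x then (1 : ℤ) else 0) * _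
    split_ifs <;> simp
  rw [h3]
  have h4 : ∑ x, ind x * v (s x) = ∑ x, ind (s x) * v x := by
    have := lrdDot_shift s v ind
    rw [show ∑ x, ind x * v (s x) = ∑ x, v (s x) * ind x from
      Finset.sum_congr rfl fun x _ => mul_comm _ _, this]
    refine Finset.sum_congr rfl fun x _ => ?_
    rw [lrd_symm_of_sq hs, mul_comm]
  have h5 : ∑ x, ind x * (v (s x) - v x) = lrdDot v (fun x => ind (s x) - ind x) := by
    unfold lrdDot
    simp only [mul_sub, Finset.sum_sub_distrib, h4]
    congr 1 <;> exact Finset.sum_congr rfl fun x _ => mul_comm _ _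
  rw [h5, h2]

end Boundary

end Fermat.Agent.LR
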