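/-
S41 / F2 (helper9): **the pairing `lrdB D` on `Hom_par(Γ, ℤ)`**.

* `lrd_exists_wit`, `lrd_exists_norm`, `lrd_parabolic_of_norm`: the cocycle of a homomorphism has
  integral witnesses; it can be normalised iff the homomorphism is parabolic;
* `lrdB D : ↥(parabolicHoms ℤ Γ ℤ) →ₗ[ℤ] ↥(parabolicHoms ℤ Γ ℤ) →ₗ[ℤ] ℤ`,
  `lrdB_spec : lrdB D φ ψ = ⟨u₁ - u₂, w⟩`, `lrdB_six : 6 * lrdB D φ ψ = ⟨w + 2 w∘r, w'⟩`,
  `lrdB_alt`, `lrdB_antisymm`.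
-/
import Mathlib
import Fermat.Prelude.Def_ModularCurve_PeriodMap
import Fermat.Agent.Lib.T1.Mono.Parab
import Fermat.Agent.Lib.LR.Dual.Model

set_option autoImplicit false
set_option linter.unusedSectionVars false

namespace Fermat.Agent.LR

open Matrix MatrixGroups ModularGroup ModularCurve.Period Function Fermat.Agent.T1

/-! ### A model lemma: independence of all choices -/

section Indep

variable {X : Type*} [Fintype X] {s r : Equiv.Perm X}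

theorem lrdm_indep (hs : ∀ x, s (s x) = x) (hr : ∀ x, r (r (r x)) = x)
    {a b a' b' : X → ℤ} (ha : ∀ x, a x + a (s x) = 0) (hb : ∀ x, b x + b (r x) + b (r (r x)) = 0)
    (ha' : ∀ x, a' x + a' (s x) = 0) (hb' : ∀ x, b' x + b' (r x) + b' (r (r x)) = 0)
    {u₁ u₂ u₁' u₂' uφ wφ v₁ v₂ u w u' w' : X → ℤ}
    (hW : LrdWit s r a b u₁ u₂) (hW' : LrdWit s r a b u₁' u₂') (hNφ : LrdNorm s r a b uφ wφ)
    (hV : LrdWit s r a' b' v₁ v₂) (hN : LrdNorm s r a' b' u w) (hN' : LrdNorm s r a' b' u' w') :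
    lrdDot (u₁ - u₂) w = lrdDot (u₁' - u₂') w' := by
  have hwφ := hNφ.symb hs hr ha hb
  have hw := hN.symb hs hr ha' hb'
  have hw' := hN'.symb hs hr ha' hb'
  have k1 := lrdm_key hs hr hW hNφ hw
  have k2 := lrdm_key hs hr hW' hNφ hw'
  have k3 := lrdm_key hs hr hV hN hwφ
  have k4 := lrdm_key hs hr hV hN' hwφ
  have a1 := lrdm_antisymm hr hwφ.2 hw.2
  have a2 := lrdm_antisymm hr hwφ.2 hw'.2
  have : (6 : ℤ) * lrdDot (u₁ - u₂) w = 6 * lrdDot (u₁' - u₂') w' := by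
    rw [k1, k2, a1, a2, ← k3, ← k4]
  omega

end Indep

/-! ### The cocycle of a homomorphism -/

theorem lrd_int_two_torsion (a : ℤ) (h : a + a = 0) : a = 0 := by omega

namespace LrdSys

variable {Γ : Subgroup SL(2, ℤ)} {ι : Type} [Fintype ι] (D : LrdSys Γ ι)

theorem coc_pow_succ {A : Type*} [AddCommGroup A] (φ : Additive Γ →+ A) (g : SL(2, ℤ)) (n : ℕ)
    (x : ι) : D.coc φ (g ^ (n + 1)) x = D.coc φ (g ^ n) x + D.coc φ g ((D.sigma g ^ n) x) := by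
  rw [pow_succ, coc_mul, act_pow]

theorem coc_smul (c : ℤ) (φ : Additive Γ →+ ℤ) (g : SL(2, ℤ)) (x : ι) :
    D.coc (c • φ) g x = c * D.coc φ g x := by
  simp [coc]

theorem coc_neg_one_int (φ : Additive Γ →+ ℤ) (x : ι) : D.coc φ (-1) x = 0 :=
  D.coc_neg_one lrd_int_two_torsion φ x

end LrdSys

section Hom

variable {Γ : Subgroup SL(2, ℤ)} {ι : Type} [Fintype ι] (D : LrdSys Γ ι)

theorem lrd_cocS_add (φ : Additive Γ →+ ℤ) (x : ι) : D.coc φ S x + D.coc φ S (D.sS x) = 0 :=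
  D.coc_S_add lrd_int_two_torsion φ x

theorem lrd_cocR_add (φ : Additive Γ →+ ℤ) (x : ι) :
    D.coc φ lrdR x + D.coc φ lrdR (D.sR x) + D.coc φ lrdR (D.sR (D.sR x)) = 0 :=
  D.coc_R_add lrd_int_two_torsion φ x

/-- integral witnesses of the cocycle of a homomorphism -/
theorem lrd_exists_wit (φ : Additive Γ →+ ℤ) :
    ∃ u₁ u₂ : ι → ℤ, LrdWit D.sS D.sR (D.coc φ S) (D.coc φ lrdR) u₁ u₂ :=
  lrdm_exists_wit D.sS_sS D.sR_sR_sR _ _ (lrd_cocS_add D φ) (lrd_cocR_add D φ)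

/-- the value of `φ` at `eps (T ^ n) x` for a fixed point `x` of `T ^ n` -/
theorem lrd_trace_eps_T_pow (n : ℕ) (x : ι) (hx : D.act (T ^ n) x = x) :
    (((D.eps (T ^ n) x : Γ) : SL(2, ℤ)) : Matrix (Fin 2) (Fin 2) ℤ).trace ^ 2 = 4 := by
  have h := tdm_trace_conj_T (D.rep x)⁻¹ (n : ℤ)
  rw [inv_inv, zpow_natCast] at h
  rw [D.coe_eps, hx]
  exact h

/-- a parabolic homomorphism has a normalisable cocycle -/
theorem lrd_exists_norm (φ : Additive Γ →+ ℤ) (hφ : IsParabolicHom Γ φ) :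
    ∃ u w : ι → ℤ, LrdNorm D.sS D.sR (D.coc φ S) (D.coc φ lrdR) u w := by
  refine lrdm_exists_norm D.sS_sS _ _ fun x => ?_
  rw [← D.sT_eq]
  set n := minimalPeriod D.sT x with hn
  have h1 : ∀ m : ℕ, ∑ j ∈ Finset.range m,
      (D.coc φ lrdR (D.sS ((D.sT ^ j) x)) - D.coc φ S (D.sS ((D.sT ^ j) x)))
      = D.coc φ (T ^ m) x := by
    intro m
    induction m with
    | zero => rw [Finset.sum_range_zero, pow_zero, D.coc_one]
    | succ m ih =>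
      rw [Finset.sum_range_succ, ih, D.coc_pow_succ, D.coc_T]
      rfl
  rw [h1 n]
  have hx : D.act (T ^ n) x = x := by
    rw [D.act_pow]
    exact lrdo_pow_minimalPeriod D.sT x
  exact hφ _ (lrd_trace_eps_T_pow D n x hx)

/-- the value of a normalised cocycle at `T` -/
theorem lrd_cocT_of_norm {φ : Additive Γ →+ ℤ} {u w : ι → ℤ}
    (hN : LrdNorm D.sS D.sR (D.coc φ S) (D.coc φ lrdR) u w) (y : ι) :
    D.coc φ T y = u y - u (D.sT y) := by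
  rw [D.coc_T, hN.cocT D.sS_sS y, D.sT_apply']

theorem lrd_cocT_pow_of_norm {φ : Additive Γ →+ ℤ} {u w : ι → ℤ}
    (hN : LrdNorm D.sS D.sR (D.coc φ S) (D.coc φ lrdR) u w) (n : ℕ) (x : ι) :
    D.coc φ (T ^ n) x = u x - u (D.act (T ^ n) x) := by
  induction n with
  | zero => rw [pow_zero, D.coc_one, D.act_one, sub_self]
  | succ n ih =>
    rw [D.coc_pow_succ, ih, lrd_cocT_of_norm D hN, D.act_pow, D.act_pow, pow_succ',
      Equiv.Perm.mul_apply]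
    show _ = u x - u (D.sT ((D.sigma T ^ n) x))
    ring

/-- `φ` vanishes on the conjugates of `T ^ n` in `Γ` if its cocycle is normalisable -/
theorem lrd_conj_T_pow_of_norm {φ : Additive Γ →+ ℤ} {u w : ι → ℤ}
    (hN : LrdNorm D.sS D.sR (D.coc φ S) (D.coc φ lrdR) u w) (σ : SL(2, ℤ)) (n : ℕ)
    (hmem : σ⁻¹ * T ^ n * σ ∈ Γ) : φ (Additive.ofMul ⟨σ⁻¹ * T ^ n * σ, hmem⟩) = 0 := by
  set x := D.act σ⁻¹ D.base with hx
  set δ := D.eps σ⁻¹ D.base with hδ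
  have h1 : σ⁻¹ = (δ : SL(2, ℤ)) * D.rep x := by
    have := D.rep_mul σ⁻¹ D.base
    rwa [D.rep_base, one_mul] at this
  set γ : Γ := ⟨σ⁻¹ * T ^ n * σ, hmem⟩ with hγ
  have h2 : D.rep x * T ^ n = ((δ⁻¹ * γ * δ : Γ) : SL(2, ℤ)) * D.rep x := by
    have hσ : σ = (D.rep x)⁻¹ * ((δ : SL(2, ℤ)))⁻¹ := by
      rw [← _root_.mul_inv_rev, ← h1, inv_inv]
    simp only [Subgroup.coe_mul, Subgroup.coe_inv, hγ]
    rw [h1, hσ]
    group
  obtain ⟨e1, e2⟩ := D.eq_of_rep_mul h2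
  have h3 : φ (Additive.ofMul γ) = φ (Additive.ofMul (δ⁻¹ * γ * δ)) := by
    rw [ofMul_mul, ofMul_mul, ofMul_inv, map_add, map_add, map_neg]
    abel
  rw [h3, e2]
  have := lrd_cocT_pow_of_norm D hN n x
  rw [← e1, sub_self] at this
  exact this

/-- **a homomorphism with normalisable cocycle is parabolic** -/
theorem lrd_parabolic_of_norm {φ : Additive Γ →+ ℤ} {u w : ι → ℤ}
    (hN : LrdNorm D.sS D.sR (D.coc φ S) (D.coc φ lrdR) u w) : IsParabolicHom Γ φ := by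
  intro γ hγ
  -- `φ (-1) = 0`
  have hneg : φ (Additive.ofMul (⟨-1, D.neg_mem⟩ : Γ)) = 0 := by
    apply lrd_int_two_torsion
    rw [← map_add, ← ofMul_mul]
    have : (⟨-1, D.neg_mem⟩ : Γ) * ⟨-1, D.neg_mem⟩ = 1 := Subtype.ext lrd_neg_one_mul_self
    rw [this, ofMul_one, map_zero]
  -- conjugates of `T ^ n`, `n : ℤ`
  have key : ∀ (σ : SL(2, ℤ)) (n : ℤ) (hmem : σ⁻¹ * T ^ n * σ ∈ Γ),
      φ (Additive.ofMul ⟨σ⁻¹ * T ^ n * σ, hmem⟩) = 0 := by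
    intro σ n hmem
    rcases Int.eq_nat_or_neg n with ⟨m, rfl | rfl⟩
    · have hmem' : σ⁻¹ * T ^ m * σ ∈ Γ := by simpa using hmem
      have := lrd_conj_T_pow_of_norm D hN σ m hmem'
      convert this using 3
      simp
    · have e : σ⁻¹ * T ^ (-(m : ℤ)) * σ = (σ⁻¹ * T ^ m * σ)⁻¹ := by
        rw [_root_.zpow_neg, zpow_natCast]
        group
      have hmem' : σ⁻¹ * T ^ m * σ ∈ Γ := by
        have := inv_mem hmem
        rwa [e, inv_inv] at this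
      have h0 := lrd_conj_T_pow_of_norm D hN σ m hmem'
      have e2 : (⟨σ⁻¹ * T ^ (-(m : ℤ)) * σ, hmem⟩ : Γ) = (⟨σ⁻¹ * T ^ m * σ, hmem'⟩ : Γ)⁻¹ :=
        Subtype.ext e
      rw [e2, ofMul_inv, map_neg, h0, neg_zero]
  obtain ⟨σ, n, h | h⟩ := tdm_parabolic_conj (γ : SL(2, ℤ)) hγ
  · have hmem : σ⁻¹ * T ^ n * σ ∈ Γ := h ▸ γ.2
    have : γ = ⟨σ⁻¹ * T ^ n * σ, hmem⟩ := Subtype.ext h
    rw [this]
    exact key σ n hmem
  · have hmem : σ⁻¹ * T ^ n * σ ∈ Γ := by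
      have h' : σ⁻¹ * T ^ n * σ = -1 * (γ : SL(2, ℤ)) := by
        rw [h]
        simp
      rw [h']
      exact mul_mem D.neg_mem γ.2
    have : γ = (⟨-1, D.neg_mem⟩ : Γ) * ⟨σ⁻¹ * T ^ n * σ, hmem⟩ := by
      apply Subtype.ext
      rw [Subgroup.coe_mul, h]
      simp
    rw [this, ofMul_mul, map_add, hneg, key σ n hmem, add_zero]

end Hom

/-! ### The pairing -/

section Pairing

variable {Γ : Subgroup SL(2, ℤ)} {ι : Type} [Fintype ι] (D : LrdSys Γ ι)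

/-- the pairing as a function: `⟨u₁ - u₂, w⟩` for chosen witnesses of `φ` and a chosen normalised
symbol of `ψ` -/
noncomputable def lrdBfun (φ ψ : ↥(parabolicHoms ℤ Γ ℤ)) : ℤ :=
  lrdDot ((lrd_exists_wit D φ.1).choose - (lrd_exists_wit D φ.1).choose_spec.choose)
    (lrd_exists_norm D ψ.1 ψ.2).choose_spec.choose

/-- **the pairing does not depend on the choices** -/
theorem lrdBfun_spec (φ ψ : ↥(parabolicHoms ℤ Γ ℤ)) {u₁ u₂ u w : ι → ℤ}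
    (hW : LrdWit D.sS D.sR (D.coc φ.1 S) (D.coc φ.1 lrdR) u₁ u₂)
    (hN : LrdNorm D.sS D.sR (D.coc ψ.1 S) (D.coc ψ.1 lrdR) u w) :
    lrdBfun D φ ψ = lrdDot (u₁ - u₂) w := by
  obtain ⟨uφ, wφ, hNφ⟩ := lrd_exists_norm D φ.1 φ.2
  obtain ⟨v₁, v₂, hV⟩ := lrd_exists_wit D ψ.1
  exact lrdm_indep D.sS_sS D.sR_sR_sR (lrd_cocS_add D φ.1) (lrd_cocR_add D φ.1)
    (lrd_cocS_add D ψ.1) (lrd_cocR_add D ψ.1)
    (lrd_exists_wit D φ.1).choose_spec.choose_spec hW hNφ hV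
    (lrd_exists_norm D ψ.1 ψ.2).choose_spec.choose_spec hN

theorem lrdBfun_add_left (φ φ' ψ : ↥(parabolicHoms ℤ Γ ℤ)) :
    lrdBfun D (φ + φ') ψ = lrdBfun D φ ψ + lrdBfun D φ' ψ := by
  obtain ⟨u₁, u₂, hW⟩ := lrd_exists_wit D φ.1
  obtain ⟨u₁', u₂', hW'⟩ := lrd_exists_wit D φ'.1
  obtain ⟨u, w, hN⟩ := lrd_exists_norm D ψ.1 ψ.2
  have hW2 : LrdWit D.sS D.sR (D.coc (φ + φ').1 S) (D.coc (φ + φ').1 lrdR)
      (u₁ + u₁') (u₂ + u₂') := by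
    refine ⟨fun x => ?_, fun x => ?_⟩
    · show D.coc (φ.1 + φ'.1) S x = _
      rw [D.coc_add, hW.1 x, hW'.1 x]
      simp only [Pi.add_apply]
      ring
    · show D.coc (φ.1 + φ'.1) lrdR x = _
      rw [D.coc_add, hW.2 x, hW'.2 x]
      simp only [Pi.add_apply]
      ring
  rw [lrdBfun_spec D (φ + φ') ψ hW2 hN, lrdBfun_spec D φ ψ hW hN, lrdBfun_spec D φ' ψ hW' hN,
    ← lrdDot_add_left]
  congr 1
  abel

theorem lrdBfun_smul_left (c : ℤ) (φ ψ : ↥(parabolicHoms ℤ Γ ℤ)) :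
    lrdBfun D (c • φ) ψ = c • lrdBfun D φ ψ := by
  obtain ⟨u₁, u₂, hW⟩ := lrd_exists_wit D φ.1
  obtain ⟨u, w, hN⟩ := lrd_exists_norm D ψ.1 ψ.2
  have hW2 : LrdWit D.sS D.sR (D.coc (c • φ).1 S) (D.coc (c • φ).1 lrdR)
      (c • u₁) (c • u₂) := by
    refine ⟨fun x => ?_, fun x => ?_⟩
    · show D.coc (c • φ.1) S x = _
      rw [D.coc_smul, hW.1 x]
      simp only [Pi.smul_apply, smul_eq_mul]
      ring
    · show D.coc (c • φ.1) lrdR x = _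
      rw [D.coc_smul, hW.2 x]
      simp only [Pi.smul_apply, smul_eq_mul]
      ring
  rw [lrdBfun_spec D (c • φ) ψ hW2 hN, lrdBfun_spec D φ ψ hW hN, smul_eq_mul, ← lrdDot_smul_left,
    smul_sub]

theorem lrdBfun_add_right (φ ψ ψ' : ↥(parabolicHoms ℤ Γ ℤ)) :
    lrdBfun D φ (ψ + ψ') = lrdBfun D φ ψ + lrdBfun D φ ψ' := by
  obtain ⟨u₁, u₂, hW⟩ := lrd_exists_wit D φ.1
  obtain ⟨u, w, hN⟩ := lrd_exists_norm D ψ.1 ψ.2
  obtain ⟨u', w', hN'⟩ := lrd_exists_norm D ψ'.1 ψ'.2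
  have hN2 : LrdNorm D.sS D.sR (D.coc (ψ + ψ').1 S) (D.coc (ψ + ψ').1 lrdR)
      (u + u') (w + w') := by
    refine ⟨fun x => ?_, fun x => ?_⟩
    · show _ = D.coc (ψ.1 + ψ'.1) S x + _ - _
      rw [D.coc_add]
      simp only [Pi.add_apply]
      rw [hN.1 x, hN'.1 x]
      ring
    · show _ = D.coc (ψ.1 + ψ'.1) lrdR x + _ - _
      rw [D.coc_add]
      simp only [Pi.add_apply]
      rw [hN.2 x, hN'.2 x]
      ring
  rw [lrdBfun_spec D φ (ψ + ψ') hW hN2, lrdBfun_spec D φ ψ hW hN, lrdBfun_spec D φ ψ' hW hN',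
    lrdDot_add_right]

theorem lrdBfun_smul_right (c : ℤ) (φ ψ : ↥(parabolicHoms ℤ Γ ℤ)) :
    lrdBfun D φ (c • ψ) = c • lrdBfun D φ ψ := by
  obtain ⟨u₁, u₂, hW⟩ := lrd_exists_wit D φ.1
  obtain ⟨u, w, hN⟩ := lrd_exists_norm D ψ.1 ψ.2
  have hN2 : LrdNorm D.sS D.sR (D.coc (c • ψ).1 S) (D.coc (c • ψ).1 lrdR)
      (c • u) (c • w) := by
    refine ⟨fun x => ?_, fun x => ?_⟩
    · show _ = D.coc (c • ψ.1) S x + _ - _
      rw [D.coc_smul]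
      simp only [Pi.smul_apply, smul_eq_mul]
      rw [hN.1 x]
      ring
    · show _ = D.coc (c • ψ.1) lrdR x + _ - _
      rw [D.coc_smul]
      simp only [Pi.smul_apply, smul_eq_mul]
      rw [hN.2 x]
      ring
  rw [lrdBfun_spec D φ (c • ψ) hW hN2, lrdBfun_spec D φ ψ hW hN, smul_eq_mul,
    ← lrdDot_smul_right]

/-- **the pairing** on `Hom_par(Γ, ℤ)` -/
noncomputable def lrdB : ↥(parabolicHoms ℤ Γ ℤ) →ₗ[ℤ] ↥(parabolicHoms ℤ Γ ℤ) →ₗ[ℤ] ℤ :=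
  LinearMap.mk₂ ℤ (lrdBfun D) (lrdBfun_add_left D) (lrdBfun_smul_left D) (lrdBfun_add_right D)
    (lrdBfun_smul_right D)

theorem lrdB_apply (φ ψ : ↥(parabolicHoms ℤ Γ ℤ)) : lrdB D φ ψ = lrdBfun D φ ψ := rfl

/-- `lrdB D φ ψ = ⟨u₁ - u₂, w⟩` for ANY integral witnesses `(u₁, u₂)` of `φ` and ANY normalised
symbol `w` of `ψ` -/
theorem lrdB_spec (φ ψ : ↥(parabolicHoms ℤ Γ ℤ)) {u₁ u₂ u w : ι → ℤ}
    (hW : LrdWit D.sS D.sR (D.coc φ.1 S) (D.coc φ.1 lrdR) u₁ u₂)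
    (hN : LrdNorm D.sS D.sR (D.coc ψ.1 S) (D.coc ψ.1 lrdR) u w) :
    lrdB D φ ψ = lrdDot (u₁ - u₂) w :=
  lrdBfun_spec D φ ψ hW hN

/-- `6 * lrdB D φ ψ = ⟨w + 2 w∘r, w'⟩` for ANY normalised symbols `w` of `φ`, `w'` of `ψ` -/
theorem lrdB_six (φ ψ : ↥(parabolicHoms ℤ Γ ℤ)) {u w u' w' : ι → ℤ}
    (hN : LrdNorm D.sS D.sR (D.coc φ.1 S) (D.coc φ.1 lrdR) u w)
    (hN' : LrdNorm D.sS D.sR (D.coc ψ.1 S) (D.coc ψ.1 lrdR) u' w') :
    6 * lrdB D φ ψ = lrdDot (fun x => w x + 2 * w (D.sR x)) w' := by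
  obtain ⟨u₁, u₂, hW⟩ := lrd_exists_wit D φ.1
  rw [lrdB_spec D φ ψ hW hN']
  exact lrdm_key D.sS_sS D.sR_sR_sR hW hN
    (hN'.symb D.sS_sS D.sR_sR_sR (lrd_cocS_add D ψ.1) (lrd_cocR_add D ψ.1))

/-- the pairing is alternating -/
theorem lrdB_alt (φ : ↥(parabolicHoms ℤ Γ ℤ)) : lrdB D φ φ = 0 := by
  obtain ⟨u, w, hN⟩ := lrd_exists_norm D φ.1 φ.2
  have h6 := lrdB_six D φ φ hN hN
  have hw := hN.symb D.sS_sS D.sR_sR_sR (lrd_cocS_add D φ.1) (lrd_cocR_add D φ.1)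
  rw [lrdm_alt D.sR_sR_sR hw.2] at h6
  omega

/-- the pairing is antisymmetric -/
theorem lrdB_antisymm (φ ψ : ↥(parabolicHoms ℤ Γ ℤ)) : lrdB D φ ψ = - lrdB D ψ φ := by
  have h := lrdB_alt D (φ + ψ)
  rw [map_add, map_add, LinearMap.add_apply, LinearMap.add_apply, lrdB_alt, lrdB_alt] at h
  linear_combination h

end Pairing

end Fermat.Agent.LR
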