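/-
S41 / F2 (helper9): **unimodularity of the pairing `lrdB D`**.

`LrdExistsHom D`: every integral cocycle `(a, b)` comes from a homomorphism `Γ → ℤ` (Shapiro +
presentation of `SL(2, ℤ)`; proved in `Cocycle.lean`/`UnimodMain.lean`).  Under this hypothesis:
`lrdB_unimodular_of : ∀ f : L →ₗ[ℤ] ℤ, ∃ x, ∀ y, lrdB D x y = f y`.
-/
import Mathlib
import Fermat.Agent.Lib.LR.Dual.Pairing
import Fermat.Agent.Lib.LR.Dual.Compare

set_option autoImplicit false
set_option linter.unusedSectionVars false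

namespace Fermat.Agent.LR

open Matrix MatrixGroups ModularGroup ModularCurve.Period Function Fermat.Agent.T1

variable {Γ : Subgroup SL(2, ℤ)} {ι : Type} [Fintype ι] (D : LrdSys Γ ι)

/-- every integral cocycle `(a, b)` is cohomologous to the cocycle of a homomorphism -/
def LrdExistsHom : Prop :=
  ∀ a b : ι → ℤ, (∀ x, a x + a (D.sS x) = 0) →
    (∀ x, b x + b (D.sR x) + b (D.sR (D.sR x)) = 0) →
    ∃ (φ : Additive Γ →+ ℤ) (h : ι → ℤ), (∀ x, D.coc φ S x = h x + a x - h (D.sS x)) ∧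
      (∀ x, D.coc φ lrdR x = h x + b x - h (D.sR x))

/-- `φ` has the normalised symbol `w` -/
def LrdHomOf (w : ι → ℤ) (φ : Additive Γ →+ ℤ) : Prop :=
  ∃ k : ι → ℤ, LrdNorm D.sS D.sR (D.coc φ S) (D.coc φ lrdR) k w

theorem LrdHomOf.parabolic {w : ι → ℤ} {φ : Additive Γ →+ ℤ} (h : LrdHomOf D w φ) :
    IsParabolicHom Γ φ := by
  obtain ⟨k, hk⟩ := h
  exact lrd_parabolic_of_norm D hk

theorem LrdHomOf.unique {w : ι → ℤ} {φ φ' : Additive Γ →+ ℤ} (h : LrdHomOf D w φ)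
    (h' : LrdHomOf D w φ') : φ = φ' := by
  obtain ⟨k, hk⟩ := h
  obtain ⟨k', hk'⟩ := h'
  refine lrdq_hom_ext D φ φ' (fun x => k x - k' x) (fun x => ?_) (fun x => ?_)
  · have h1 := hk.1 x
    have h2 := hk'.1 x
    linear_combination h2 - h1
  · have h1 := hk.2 x
    have h2 := hk'.2 x
    linear_combination h2 - h1

theorem LrdHomOf.add {w w' : ι → ℤ} {φ φ' : Additive Γ →+ ℤ} (h : LrdHomOf D w φ)
    (h' : LrdHomOf D w' φ') : LrdHomOf D (w + w') (φ + φ') := by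
  obtain ⟨k, hk⟩ := h
  obtain ⟨k', hk'⟩ := h'
  refine ⟨k + k', fun x => ?_, fun x => ?_⟩
  · rw [D.coc_add]
    simp only [Pi.add_apply]
    rw [hk.1 x, hk'.1 x]
    ring
  · rw [D.coc_add]
    simp only [Pi.add_apply]
    rw [hk.2 x, hk'.2 x]
    ring

theorem LrdHomOf.smul (c : ℤ) {w : ι → ℤ} {φ : Additive Γ →+ ℤ} (h : LrdHomOf D w φ) :
    LrdHomOf D (c • w) (c • φ) := by
  obtain ⟨k, hk⟩ := h
  refine ⟨c • k, fun x => ?_, fun x => ?_⟩
  · rw [D.coc_smul]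
    simp only [Pi.smul_apply, smul_eq_mul]
    rw [hk.1 x]
    ring
  · rw [D.coc_smul]
    simp only [Pi.smul_apply, smul_eq_mul]
    rw [hk.2 x]
    ring

/-- boundary symbols belong to the zero homomorphism -/
theorem lrd_homOf_boundary (u₀ : ι → ℤ) (hu₀ : ∀ x, u₀ ((D.sR * D.sS) x) = u₀ x) :
    LrdHomOf D (fun x => u₀ (D.sS x) - u₀ x) (0 : Additive Γ →+ ℤ) := by
  refine ⟨u₀, fun x => ?_, fun x => ?_⟩
  · show _ = (0 : ℤ) + _ - _
    ring
  · show _ = (0 : ℤ) + _ - _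
    have := hu₀ (D.sS x)
    rw [Equiv.Perm.mul_apply, D.sS_sS] at this
    rw [this]
    ring

variable {D}

/-- existence of the homomorphism of a symbol -/
theorem LrdExistsHom.homOf (hex : LrdExistsHom D) {w : ι → ℤ} (hw : LrdSymb D.sS D.sR w) :
    ∃ φ : Additive Γ →+ ℤ, LrdHomOf D w φ := by
  obtain ⟨φ, h, h1, h2⟩ := hex w w hw.1 hw.2
  refine ⟨φ, h, fun x => ?_, fun x => ?_⟩
  · rw [h1 x]; ring
  · rw [h2 x]; ring

/-- the homomorphism of a symbol, as an element of `Hom_par(Γ, ℤ)` -/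
noncomputable def lrdHomOfSymb (hex : LrdExistsHom D) (w : ↥(lrdSymbMod D.sS D.sR)) :
    ↥(parabolicHoms ℤ Γ ℤ) :=
  ⟨(hex.homOf w.2).choose, ((hex.homOf w.2).choose_spec).parabolic D⟩

theorem lrdHomOfSymb_spec (hex : LrdExistsHom D) (w : ↥(lrdSymbMod D.sS D.sR)) :
    LrdHomOf D (w : ι → ℤ) (lrdHomOfSymb hex w).1 :=
  (hex.homOf w.2).choose_spec

theorem lrdHomOfSymb_eq (hex : LrdExistsHom D) (w : ↥(lrdSymbMod D.sS D.sR))
    (φ : ↥(parabolicHoms ℤ Γ ℤ)) (h : LrdHomOf D (w : ι → ℤ) φ.1) : lrdHomOfSymb hex w = φ :=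
  Subtype.ext ((lrdHomOfSymb_spec hex w).unique D h)

/-- the linear map `Symb → Hom_par(Γ, ℤ)` -/
noncomputable def lrdHomOfSymbLin (hex : LrdExistsHom D) :
    ↥(lrdSymbMod D.sS D.sR) →ₗ[ℤ] ↥(parabolicHoms ℤ Γ ℤ) where
  toFun := lrdHomOfSymb hex
  map_add' w w' := by
    apply lrdHomOfSymb_eq
    exact (lrdHomOfSymb_spec hex w).add D (lrdHomOfSymb_spec hex w')
  map_smul' c w := by
    apply lrdHomOfSymb_eq
    exact (lrdHomOfSymb_spec hex w).smul D c

variable (D)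

/-- **unimodularity**, given that every integral cocycle comes from a homomorphism -/
theorem lrdB_unimodular_of (hex : LrdExistsHom D) (f : ↥(parabolicHoms ℤ Γ ℤ) →ₗ[ℤ] ℤ) :
    ∃ x : ↥(parabolicHoms ℤ Γ ℤ), ∀ y, lrdB D x y = f y := by
  -- the functional on the symbols
  obtain ⟨v, hv⟩ := lrdm_extend (f.comp (lrdHomOfSymbLin hex))
  -- `v` is orthogonal to the boundary symbols
  have hperp : ∀ u₀ : ι → ℤ, (∀ x, u₀ ((D.sR * D.sS) x) = u₀ x) →
      lrdDot v (fun x => u₀ (D.sS x) - u₀ x) = 0 := by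
    intro u₀ hu₀
    have hb := lrd_homOf_boundary D u₀ hu₀
    have hsymb : LrdSymb D.sS D.sR (fun x => u₀ (D.sS x) - u₀ x) := by
      obtain ⟨k, hk⟩ := hb
      refine hk.symb D.sS_sS D.sR_sR_sR (lrd_cocS_add D 0) (lrd_cocR_add D 0)
    have h1 := hv ⟨_, hsymb⟩
    have h2 : lrdHomOfSymb hex ⟨_, hsymb⟩ = (0 : ↥(parabolicHoms ℤ Γ ℤ)) :=
      lrdHomOfSymb_eq hex ⟨_, hsymb⟩ 0 hb
    rw [← h1]
    show f (lrdHomOfSymb hex ⟨_, hsymb⟩) = 0
    rw [h2, map_zero]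
  -- the cocycle `((s - 1) v, 0)` is parabolic
  obtain ⟨u, w, hN⟩ := lrdm_norm_of_perp D.sS_sS v hperp
  -- the homomorphism of the cocycle `((s - 1) v, 0)`
  obtain ⟨φ, h, h1, h2⟩ := hex (fun x => v (D.sS x) - v x) 0
    (fun x => by rw [D.sS_sS]; ring) (fun x => by simp)
  have hNφ : LrdNorm D.sS D.sR (D.coc φ S) (D.coc φ lrdR) (u + h) w := by
    refine ⟨fun x => ?_, fun x => ?_⟩
    · rw [hN.1 x, h1 x]
      simp only [Pi.add_apply]
      ring
    · rw [hN.2 x, h2 x]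
      simp only [Pi.add_apply, Pi.zero_apply]
      ring
  have hφ : IsParabolicHom Γ φ := lrd_parabolic_of_norm D hNφ
  have hW : LrdWit D.sS D.sR (D.coc φ S) (D.coc φ lrdR) (v - h) (- h) := by
    refine ⟨fun x => ?_, fun x => ?_⟩
    · rw [h1 x]
      simp only [Pi.sub_apply]
      ring
    · rw [h2 x]
      simp only [Pi.neg_apply, Pi.zero_apply]
      ring
  refine ⟨⟨φ, hφ⟩, fun y => ?_⟩
  obtain ⟨uy, wy, hNy⟩ := lrd_exists_norm D y.1 y.2
  have hsy : LrdSymb D.sS D.sR wy :=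
    hNy.symb D.sS_sS D.sR_sR_sR (lrd_cocS_add D y.1) (lrd_cocR_add D y.1)
  rw [lrdB_spec D ⟨φ, hφ⟩ y hW hNy]
  have e : v - h - -h = v := by
    ext x
    simp
  rw [e, ← hv ⟨wy, hsy⟩]
  show f (lrdHomOfSymb hex ⟨wy, hsy⟩) = f y
  rw [lrdHomOfSymb_eq hex ⟨wy, hsy⟩ y ⟨uy, hNy⟩]

/-- `LrdExistsHom D` from the multiplicative statement (S) for `H = Multiplicative ℤ` -/
theorem lrd_existsHom_of
    (hS : ∀ cS cR : ι → Multiplicative ℤ, (∀ x, cS x * cS (D.sS x) = 1) →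
      (∀ x, cR x * cR (D.sR x) * cR (D.sR (D.sR x)) = 1) →
      ∃ (ρ : Γ →* Multiplicative ℤ) (h : ι → Multiplicative ℤ),
        (∀ x, ρ (D.eps S x) = h x * cS x * (h (D.sS x))⁻¹) ∧
        (∀ x, ρ (D.eps lrdR x) = h x * cR x * (h (D.sR x))⁻¹)) : LrdExistsHom D := by
  intro a b ha hb
  obtain ⟨ρ, h, h1, h2⟩ := hS (fun x => Multiplicative.ofAdd (a x))
    (fun x => Multiplicative.ofAdd (b x))
    (fun x => by
      show Multiplicative.ofAdd (a x + a (D.sS x)) = 1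
      rw [ha x]; rfl)
    (fun x => by
      show Multiplicative.ofAdd (b x + b (D.sR x) + b (D.sR (D.sR x))) = 1
      rw [hb x]; rfl)
  refine ⟨{ toFun := fun γ => Multiplicative.toAdd (ρ (Additive.toMul γ))
            map_zero' := by
              show Multiplicative.toAdd (ρ 1) = 0
              rw [map_one]; rfl
            map_add' := fun γ δ => by
              show Multiplicative.toAdd (ρ (Additive.toMul γ * Additive.toMul δ)) = _
              rw [map_mul]; rfl },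
    fun x => Multiplicative.toAdd (h x), fun x => ?_, fun x => ?_⟩
  · show Multiplicative.toAdd (ρ (D.eps S x)) = _
    rw [h1 x]
    rfl
  · show Multiplicative.toAdd (ρ (D.eps lrdR x)) = _
    rw [h2 x]
    rfl

end Fermat.Agent.LR
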