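/-
S41 / F2 (helper9): **unimodularity of `lrdB D`**, unconditional
(`Unimod.lean` + the existence statement (S) of `Cocycle.lean`).
-/
import Mathlib
import Fermat.Agent.Lib.LR.Dual.Unimod
import Fermat.Agent.Lib.LR.Dual.Cocycle

set_option autoImplicit false

namespace Fermat.Agent.LR

open Matrix MatrixGroups ModularGroup ModularCurve.Period

variable {Γ : Subgroup SL(2, ℤ)} {ι : Type} [Fintype ι] (D : LrdSys Γ ι)

/-- every integral cocycle comes from a homomorphism `Γ → ℤ` -/
theorem lrd_existsHom : LrdExistsHom D :=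
  lrd_existsHom_of D fun cS cR hS hR => lrds_exists_hom D cS cR hS hR

/-- **the pairing `lrdB D` is unimodular** -/
theorem lrdB_unimodular (f : ↥(parabolicHoms ℤ Γ ℤ) →ₗ[ℤ] ℤ) :
    ∃ x : ↥(parabolicHoms ℤ Γ ℤ), ∀ y, lrdB D x y = f y :=
  lrdB_unimodular_of D (lrd_existsHom D) f

end Fermat.Agent.LR
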