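/-
S41 / F2 (AL) part 3 (helper7): **the Atkin–Lehner automorphism of `Γ₀(N q)`**.

* `lrdcW N q h : Γ₀(N q) ≃* Γ₀(N q)`, `δ ↦ (t2fSysW N q h).eps δ ()` (conjugation with `W_q`);
* `lrdcW_pospar`: it preserves positive parabolic elements (both ways);
* `lrdc_W_hom`: the operator `(t2fSysW N q h).hom A` is precomposition with `lrdcW`;
* `lrdc_W_sum`: sums of class functions over a cusp system are invariant under `lrdcW`.
-/
import Mathlib
import Fermat.Agent.Lib.LR.Dual.Cusp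
import Fermat.Agent.Lib.T2.F.AL

set_option autoImplicit false
set_option linter.unusedSectionVars false

namespace Fermat.Agent.LR

open Matrix MatrixGroups ModularGroup CongruenceSubgroup Fermat.Agent.T1 Fermat.Agent.T2

section W

variable (N q : ℕ) [NeZero N] [hq : Fact q.Prime] (h : ¬ q ∣ N)

/-- the Atkin–Lehner matrix -/
noncomputable def lrdcWMat : Matrix (Fin 2) (Fin 2) ℤ := t2wMat N q (t2wA N q) (t2wC N q)

include h in
theorem lrdcWMat_det_pos : 0 < (lrdcWMat N q).det :=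
  t2wMat_det_pos N q hq.out.pos _ _ (t2w_bezout N q hq.out h)

/-- the defining relation `W δ = (eps δ) W` -/
theorem lrdc_W_rel (δ : Gamma0 (N * q)) :
    lrdcWMat N q * ((δ : SL(2, ℤ)) : Matrix (Fin 2) (Fin 2) ℤ)
      = (((t2fSysW N q h).eps δ () : Gamma0 (N * q)) : SL(2, ℤ)).1 * lrdcWMat N q :=
  (t2fSysW N q h).rep_mul δ ()

/-- uniqueness in the defining relation -/
theorem lrdc_W_rel_unique {δ ε : Gamma0 (N * q)}
    (hrel : lrdcWMat N q * ((δ : SL(2, ℤ)) : Matrix (Fin 2) (Fin 2) ℤ)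
      = ((ε : SL(2, ℤ)) : Matrix (Fin 2) (Fin 2) ℤ) * lrdcWMat N q) :
    ε = (t2fSysW N q h).eps δ () :=
  ((t2fSysW N q h).eq_of_rep_mul (δ := δ) (i := ()) (j := ()) (ε := ε) hrel).2

/-- conjugation with `W_q` as an endomorphism of `Γ₀(N q)` -/
noncomputable def lrdcWHom : Gamma0 (N * q) →* Gamma0 (N * q) where
  toFun δ := (t2fSysW N q h).eps δ ()
  map_one' := (t2fSysW N q h).eps_one ()
  map_mul' δ₁ δ₂ := (t2fSysW N q h).eps_mul δ₁ δ₂ ()

theorem lrdcWHom_apply (δ : Gamma0 (N * q)) : lrdcWHom N q h δ = (t2fSysW N q h).eps δ () := rfl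

/-- `W² = q G` with `G ∈ Γ₀(N q)`: the square of the endomorphism is inner -/
theorem lrdcWHom_sq : ∃ G : Gamma0 (N * q), ∀ δ : Gamma0 (N * q),
    lrdcWHom N q h (lrdcWHom N q h δ) = G * δ * G⁻¹ := by
  obtain ⟨G, hG, hG10⟩ := t2f_W_sq N q (t2wA N q) (t2wC N q) (t2w_bezout N q hq.out h)
  set Gs : Gamma0 (N * q) := ⟨G, (tdm_mem_Gamma0_iff G).mpr hG10⟩ with hGs
  refine ⟨Gs, fun δ => ?_⟩
  set ε₁ := lrdcWHom N q h δ with hε₁
  set ε₂ := lrdcWHom N q h ε₁ with hε₂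
  have h1 := lrdc_W_rel N q h δ
  have h2 := lrdc_W_rel N q h ε₁
  rw [← lrdcWHom_apply, ← hε₁] at h1
  rw [← lrdcWHom_apply, ← hε₂] at h2
  have hG' : lrdcWMat N q * lrdcWMat N q = (q : ℤ) • (G : Matrix (Fin 2) (Fin 2) ℤ) := hG
  have h3 : (q : ℤ) • (((ε₂ : SL(2, ℤ)) : Matrix (Fin 2) (Fin 2) ℤ) * (G : Matrix (Fin 2) (Fin 2) ℤ))
      = (q : ℤ) • ((G : Matrix (Fin 2) (Fin 2) ℤ) * ((δ : SL(2, ℤ)) : Matrix (Fin 2) (Fin 2) ℤ)) := by
    rw [← Matrix.mul_smul, ← hG', ← Matrix.smul_mul, ← hG', ← Matrix.mul_assoc, ← h2,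
      Matrix.mul_assoc, Matrix.mul_assoc, h1]
  have hq0 : (q : ℤ) ≠ 0 := by exact_mod_cast hq.out.ne_zero
  have h4 := smul_right_injective (Matrix (Fin 2) (Fin 2) ℤ) hq0 h3
  have h5 : ε₂ * Gs = Gs * δ := by
    apply Subtype.ext
    apply Subtype.ext
    rw [Subgroup.coe_mul, Subgroup.coe_mul, Matrix.SpecialLinearGroup.coe_mul,
      Matrix.SpecialLinearGroup.coe_mul]
    exact h4
  exact eq_mul_inv_of_mul_eq h5

theorem lrdcWHom_injective : Function.Injective (lrdcWHom N q h) := by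
  intro δ₁ δ₂ h12
  have h1 := lrdc_W_rel N q h δ₁
  have h2 := lrdc_W_rel N q h δ₂
  rw [← lrdcWHom_apply] at h1 h2
  rw [h12, ← h2] at h1
  have h3 := tdm_mul_left_cancel (lrdcWMat_det_pos N q h).ne' h1
  exact Subtype.ext (Subtype.ext h3)

theorem lrdcWHom_surjective : Function.Surjective (lrdcWHom N q h) := by
  obtain ⟨G, hG⟩ := lrdcWHom_sq N q h
  intro ε
  refine ⟨lrdcWHom N q h (G⁻¹ * ε * G), ?_⟩
  rw [hG]
  group

/-- **the Atkin–Lehner automorphism** of `Γ₀(N q)`: conjugation with `W_q` -/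
noncomputable def lrdcW : Gamma0 (N * q) ≃* Gamma0 (N * q) :=
  MulEquiv.ofBijective (lrdcWHom N q h) ⟨lrdcWHom_injective N q h, lrdcWHom_surjective N q h⟩

theorem lrdcW_apply (δ : Gamma0 (N * q)) : lrdcW N q h δ = (t2fSysW N q h).eps δ () := rfl

/-- `W δ = (lrdcW δ) W` -/
theorem lrdcW_rel (δ : Gamma0 (N * q)) :
    lrdcWMat N q * ((δ : SL(2, ℤ)) : Matrix (Fin 2) (Fin 2) ℤ)
      = ((lrdcW N q h δ : Gamma0 (N * q)) : SL(2, ℤ)).1 * lrdcWMat N q :=
  lrdc_W_rel N q h δ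

/-- **(e)** `lrdcW` preserves positive parabolic elements, in both directions -/
theorem lrdcW_pospar (δ : Gamma0 (N * q)) :
    LrdPosPar (δ : SL(2, ℤ)) ↔ LrdPosPar ((lrdcW N q h δ : Gamma0 (N * q)) : SL(2, ℤ)) := by
  have hrel := lrdcW_rel N q h δ
  have hdet := lrdcWMat_det_pos N q h
  constructor
  · exact lrdc_posPar_conj (lrdcWMat N q) hdet hrel
  · exact lrdc_posPar_conj (lrdcWMat N q).adjugate (by rw [lrda_det_adjugate]; exact hdet)
      (lrda_adj_conj (lrdcWMat N q) hdet hrel)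

/-- the operator of the coset system `{W_q}` is precomposition with `lrdcW` -/
theorem lrdc_W_hom {A : Type*} [AddCommGroup A] (φ : Additive (Gamma0 (N * q)) →+ A)
    (δ : Gamma0 (N * q)) :
    (t2fSysW N q h).hom A φ (Additive.ofMul δ) = φ (Additive.ofMul (lrdcW N q h δ)) := by
  rw [tdmCosetSys.hom_apply, Finset.univ_unique, Finset.sum_singleton]
  rfl

theorem lrdc_W_homPar (φ : ↥(ModularCurve.Period.parabolicHoms ℤ (Gamma0 (N * q)) ℤ))
    (δ : Gamma0 (N * q)) :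
    (((t2fSysW N q h).homPar ℤ ℤ φ : ↥(ModularCurve.Period.parabolicHoms ℤ (Gamma0 (N * q)) ℤ)) :
        Additive (Gamma0 (N * q)) →+ ℤ) (Additive.ofMul δ)
      = (φ : Additive (Gamma0 (N * q)) →+ ℤ) (Additive.ofMul (lrdcW N q h δ)) := by
  rw [tdmCosetSys.homPar_coe]
  exact lrdc_W_hom N q h _ δ

/-- `lrdcW` permutes the cusp classes -/
theorem lrdc_W_perm {κ κ' : Type} [Fintype κ] [Fintype κ'] (K : LrdCusps (Gamma0 (N * q)) κ)
    (K' : LrdCusps (Gamma0 (N * q)) κ') :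
    ∃ (σ : κ ≃ κ') (δ : κ → Gamma0 (N * q)),
      ∀ c, lrdcW N q h (K.gen c) = δ c * K'.gen (σ c) * (δ c)⁻¹ :=
  lrdc_perm K K' (lrdcW N q h) (lrdcW_pospar N q h)

/-- sums of class functions over the cusp generators are invariant under `lrdcW` -/
theorem lrdc_W_sum {A : Type*} [AddCommMonoid A] {κ : Type} [Fintype κ]
    (K : LrdCusps (Gamma0 (N * q)) κ) (F : Gamma0 (N * q) → A)
    (hF : ∀ γ δ : Gamma0 (N * q), LrdPosPar (γ : SL(2, ℤ)) → F (δ * γ * δ⁻¹) = F γ) :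
    ∑ c, F (lrdcW N q h (K.gen c)) = ∑ c, F (K.gen c) :=
  lrdc_sum_perm K (lrdcW N q h) (lrdcW_pospar N q h) F hF

end W

end Fermat.Agent.LR
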