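/-
S41 / F2-(C) (helper6): existence of Heisenberg lifts, reduced to the existence statement (S)
for the explicit cocycle `lrdqCS`, `lrdqCR`.

* `lrdq_symb_of_norm` : the normalised symbol `w` of a homomorphism is a modular symbol;
* `lrdqCS_rel`, `lrdqCR_rel` : the hypotheses `hS`, `hR` of `lrds_exists_hom` for `(w, w')`;
* `lrdq_lift_of_hom` : a homomorphism `ρ : Γ → Heis(ℚ)` with cocycle cohomologous to
  `(lrdqCS, lrdqCR)` is a lift of `(φ, ψ)`.
-/
import Mathlib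
import Fermat.Agent.Lib.LR.Dual.Compare

set_option autoImplicit false

namespace Fermat.Agent.LR

open Matrix MatrixGroups ModularGroup

variable {Γ : Subgroup SL(2, ℤ)} {ι : Type} [Fintype ι] (D : LrdSys Γ ι)

theorem lrdq_int_two_torsion : ∀ a : ℤ, a + a = 0 → a = 0 := fun a h => by omega

/-- the normalised symbol is a modular symbol -/
theorem lrdq_symb_of_norm (φ : Additive Γ →+ ℤ) {u w : ι → ℤ}
    (hN : LrdNorm D.sS D.sR (D.coc φ S) (D.coc φ lrdR) u w) : LrdSymb D.sS D.sR w := by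
  constructor
  · intro x
    have h1 := D.coc_S_add lrdq_int_two_torsion φ x
    rw [hN.1 x, hN.1 (D.sS x), D.sS_sS]
    linarith
  · intro x
    have h1 := D.coc_R_add lrdq_int_two_torsion φ x
    rw [hN.2 x, hN.2 (D.sR x), hN.2 (D.sR (D.sR x)), D.sR_sR_sR]
    linarith

theorem lrdqCS_rel {w w' : ι → ℤ} (hw : LrdSymb D.sS D.sR w) (hw' : LrdSymb D.sS D.sR w')
    (x : ι) :
    lrdqCS (fun y => (w y : ℚ)) (fun y => (w' y : ℚ)) x *
      lrdqCS (fun y => (w y : ℚ)) (fun y => (w' y : ℚ)) (D.sS x) = 1 := by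
  apply lrdqCS_mul
  · intro y
    have := hw.1 y
    have h2 : ((w y + w (D.sS y) : ℤ) : ℚ) = 0 := by rw [this]; simp
    push_cast at h2
    exact h2
  · intro y
    have := hw'.1 y
    have h2 : ((w' y + w' (D.sS y) : ℤ) : ℚ) = 0 := by rw [this]; simp
    push_cast at h2
    exact h2

theorem lrdqCR_rel {w w' : ι → ℤ} (hw : LrdSymb D.sS D.sR w) (hw' : LrdSymb D.sS D.sR w')
    (x : ι) :
    lrdqCR D.sR (fun y => (w y : ℚ)) (fun y => (w' y : ℚ)) x *
      lrdqCR D.sR (fun y => (w y : ℚ)) (fun y => (w' y : ℚ)) (D.sR x) *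
      lrdqCR D.sR (fun y => (w y : ℚ)) (fun y => (w' y : ℚ)) (D.sR (D.sR x)) = 1 := by
  apply lrdqCR_mul
  · exact D.sR_sR_sR
  · intro y
    have := hw.2 y
    have h2 : ((w y + w (D.sR y) + w (D.sR (D.sR y)) : ℤ) : ℚ) = 0 := by rw [this]; simp
    push_cast at h2
    exact h2
  · intro y
    have := hw'.2 y
    have h2 : ((w' y + w' (D.sR y) + w' (D.sR (D.sR y)) : ℤ) : ℚ) = 0 := by rw [this]; simp
    push_cast at h2
    exact h2

/-- the first coordinate of a Heisenberg-valued homomorphism -/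
def lrdqX (ρ : Γ →* LrdHeis ℚ) : Additive Γ →+ ℚ where
  toFun a := (ρ (Additive.toMul a)).x
  map_zero' := by simp
  map_add' a b := by simp

/-- the second coordinate of a Heisenberg-valued homomorphism -/
def lrdqY (ρ : Γ →* LrdHeis ℚ) : Additive Γ →+ ℚ where
  toFun a := (ρ (Additive.toMul a)).y
  map_zero' := by simp
  map_add' a b := by simp

theorem lrdqX_apply (ρ : Γ →* LrdHeis ℚ) (γ : Γ) : lrdqX ρ (Additive.ofMul γ) = (ρ γ).x := rfl

theorem lrdqY_apply (ρ : Γ →* LrdHeis ℚ) (γ : Γ) : lrdqY ρ (Additive.ofMul γ) = (ρ γ).y := rfl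

/-- a homomorphism whose cocycle is cohomologous to the explicit one is a lift -/
theorem lrdq_lift_of_hom (φ ψ : Additive Γ →+ ℤ) {u w u' w' : ι → ℤ}
    (hN : LrdNorm D.sS D.sR (D.coc φ S) (D.coc φ lrdR) u w)
    (hN' : LrdNorm D.sS D.sR (D.coc ψ S) (D.coc ψ lrdR) u' w')
    (ρ : Γ →* LrdHeis ℚ) (h : ι → LrdHeis ℚ)
    (hS : ∀ x, ρ (D.eps S x) =
      h x * lrdqCS (fun y => (w y : ℚ)) (fun y => (w' y : ℚ)) x * (h (D.sS x))⁻¹)
    (hR : ∀ x, ρ (D.eps lrdR x) =
      h x * lrdqCR D.sR (fun y => (w y : ℚ)) (fun y => (w' y : ℚ)) x * (h (D.sR x))⁻¹) :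
    LrdLift φ ψ ρ := by
  have hX : lrdqX ρ = (Int.castAddHom ℚ).comp φ := by
    apply lrdq_hom_ext D _ _ (fun x => (h x).x - (u x : ℚ))
    · intro x
      show (ρ (D.eps S x)).x = ((φ (Additive.ofMul (D.eps S x)) : ℤ) : ℚ) + _ - _
      rw [hS x]
      have := hN.1 x
      have h2 : ((w x : ℤ) : ℚ) = ((D.coc φ S x + u (D.sS x) - u x : ℤ) : ℚ) := by rw [this]
      push_cast at h2
      simp only [LrdHeis.mul_x, LrdHeis.inv_x, lrdqCS]
      rw [h2]
      simp only [LrdSys.coc]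
      ring
    · intro x
      show (ρ (D.eps lrdR x)).x = ((φ (Additive.ofMul (D.eps lrdR x)) : ℤ) : ℚ) + _ - _
      rw [hR x]
      have := hN.2 x
      have h2 : ((w x : ℤ) : ℚ) = ((D.coc φ lrdR x + u (D.sR x) - u x : ℤ) : ℚ) := by rw [this]
      push_cast at h2
      simp only [LrdHeis.mul_x, LrdHeis.inv_x, lrdqCR]
      rw [h2]
      simp only [LrdSys.coc]
      ring
  have hY : lrdqY ρ = (Int.castAddHom ℚ).comp ψ := by
    apply lrdq_hom_ext D _ _ (fun x => (h x).y - (u' x : ℚ))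
    · intro x
      show (ρ (D.eps S x)).y = ((ψ (Additive.ofMul (D.eps S x)) : ℤ) : ℚ) + _ - _
      rw [hS x]
      have := hN'.1 x
      have h2 : ((w' x : ℤ) : ℚ) = ((D.coc ψ S x + u' (D.sS x) - u' x : ℤ) : ℚ) := by rw [this]
      push_cast at h2
      simp only [LrdHeis.mul_y, LrdHeis.inv_y, lrdqCS]
      rw [h2]
      simp only [LrdSys.coc]
      ring
    · intro x
      show (ρ (D.eps lrdR x)).y = ((ψ (Additive.ofMul (D.eps lrdR x)) : ℤ) : ℚ) + _ - _
      rw [hR x]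
      have := hN'.2 x
      have h2 : ((w' x : ℤ) : ℚ) = ((D.coc ψ lrdR x + u' (D.sR x) - u' x : ℤ) : ℚ) := by
        rw [this]
      push_cast at h2
      simp only [LrdHeis.mul_y, LrdHeis.inv_y, lrdqCR]
      rw [h2]
      simp only [LrdSys.coc]
      ring
  intro γ
  constructor
  · rw [← lrdqX_apply, hX]
    rfl
  · rw [← lrdqY_apply, hY]
    rfl

end Fermat.Agent.LR
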