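/-
S41 / F2-(C) (helper6): comparison `P_can = lrdB`, model form.  For the cusp system of the
`T`-orbits (`gen c = eps (T ^ period) (out c)`), every Heisenberg lift `ρ` of `(φ, ψ)` and all
normalisations `(u, w)`, `(u', w')` of the cocycles of `φ`, `ψ`:
`6 · P_can(ρ) = ⟨w + 2 w∘r, w'⟩`  (`lrdq_compare_six`).
-/
import Mathlib
import Fermat.Agent.Lib.LR.Dual.Compare
import Fermat.Agent.Lib.LR.Dual.Orbit

set_option autoImplicit false

namespace Fermat.Agent.LR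

open Matrix MatrixGroups ModularGroup Function

variable {Γ : Subgroup SL(2, ℤ)} {ι : Type} [Fintype ι] (D : LrdSys Γ ι)

theorem lrdq_compare_six (K : LrdCusps Γ (lrdOrb D.sT))
    (hK : ∀ c, K.gen c =
      D.eps (T ^ minimalPeriod D.sT (lrdOrbOut D.sT c)) (lrdOrbOut D.sT c))
    (φ ψ : Additive Γ →+ ℤ) (ρ : Γ →* LrdHeis ℚ) (hρ : LrdLift φ ψ ρ)
    {u w u' w' : ι → ℤ}
    (hN : LrdNorm D.sS D.sR (D.coc φ S) (D.coc φ lrdR) u w)
    (hN' : LrdNorm D.sS D.sR (D.coc ψ S) (D.coc ψ lrdR) u' w') :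
    6 * lrdPcan K ρ = ((lrdDot (fun x => w x + 2 * w (D.sR x)) w' : ℤ) : ℚ) := by
  obtain ⟨uq, huq⟩ : ∃ uq : ι → ℚ, uq = fun x => (u x : ℚ) := ⟨_, rfl⟩
  obtain ⟨uq', huq'⟩ : ∃ uq' : ι → ℚ, uq' = fun x => (u' x : ℚ) := ⟨_, rfl⟩
  have hCSx : ∀ y, (lrdqC D ρ uq uq' S y).x = (w y : ℚ) := by
    intro y
    rw [lrdqC_x, (hρ _).1, hN.1 y, huq]
    simp only [LrdSys.coc, LrdSys.sS_apply]
    push_cast
    ring
  have hCRx : ∀ y, (lrdqC D ρ uq uq' lrdR y).x = (w y : ℚ) := by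
    intro y
    rw [lrdqC_x, (hρ _).1, hN.2 y, huq]
    simp only [LrdSys.coc, LrdSys.sR_apply]
    push_cast
    ring
  have hCSy : ∀ y, (lrdqC D ρ uq uq' S y).y = (w' y : ℚ) := by
    intro y
    rw [lrdqC_y, (hρ _).2, hN'.1 y, huq']
    simp only [LrdSys.coc, LrdSys.sS_apply]
    push_cast
    ring
  have hCRy : ∀ y, (lrdqC D ρ uq uq' lrdR y).y = (w' y : ℚ) := by
    intro y
    rw [lrdqC_y, (hρ _).2, hN'.2 y, huq']
    simp only [LrdSys.coc, LrdSys.sR_apply]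
    push_cast
    ring
  have hSRx : ∀ y, (lrdqC D ρ uq uq' S y).x = (lrdqC D ρ uq uq' lrdR y).x := fun y => by
    rw [hCSx, hCRx]
  have hSRy : ∀ y, (lrdqC D ρ uq uq' S y).y = (lrdqC D ρ uq uq' lrdR y).y := fun y => by
    rw [hCSy, hCRy]
  have h1 : lrdPcan K ρ = ∑ x, lrdqG D ρ uq uq' x := by
    unfold lrdPcan
    rw [← lrdo_sum_orbits D.sT (lrdqG D ρ uq uq')]
    refine Finset.sum_congr rfl fun c _ => ?_
    rw [hK c, lrdq_rho_eps_T_pow D ρ uq uq' hSRx hSRy _ _ (lrdo_pow_minimalPeriod D.sT _)]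
  rw [h1, lrdq_sum_G D ρ uq uq' hSRx hSRy, lrdDot]
  push_cast
  refine Finset.sum_congr rfl fun x _ => ?_
  rw [hCSx, hCSx, hCSy]

end Fermat.Agent.LR
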