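/-
S41 / F2 (AL) (helper7): **positive parabolic elements of `SL(2, ℤ)` and cusp sums**.

* `LrdaPos γ`: `γ` is a *positive parabolic* element (`tr γ = 2`, `γ ≠ 1`, `γ₀₁ ≥ 0 ≥ γ₁₀`);
  `lrda_pos_iff`: `LrdaPos γ ↔ ∃ g, ∃ k > 0, γ = g⁻¹ T^k g`;
* `lrda_pos_conj`: positivity is preserved by conjugation with an integral matrix of positive
  determinant (`W γ = γ' W`);
* cusp data of a finite index subgroup `Γ ∋ -1`: `lrdaWidth`, `lrdaPi`, `lrdaCusps`, `lrdaCuspSum`;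
* `lrda_cuspSum_conj`: the cusp sum of a homogeneous class function is invariant under
  automorphisms of `Γ` induced by conjugation with a matrix of positive determinant.
-/
import Mathlib

set_option autoImplicit false

namespace Fermat.Agent.LR

open Matrix MatrixGroups ModularGroup

/-! ### Positive parabolic elements -/

/-- `γ` is a positive parabolic element: a conjugate of `T ^ k`, `k > 0` (see `lrda_pos_iff`). -/
def LrdaPos (γ : SL(2, ℤ)) : Prop :=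
  γ.1.trace = 2 ∧ γ ≠ 1 ∧ 0 ≤ γ.1 0 1 ∧ γ.1 1 0 ≤ 0

theorem lrda_det (γ : SL(2, ℤ)) : γ.1 0 0 * γ.1 1 1 - γ.1 0 1 * γ.1 1 0 = 1 := by
  have := γ.2
  rwa [Matrix.det_fin_two] at this

theorem lrda_trace (γ : SL(2, ℤ)) : γ.1.trace = γ.1 0 0 + γ.1 1 1 := Matrix.trace_fin_two _

theorem lrda_ext {γ γ' : SL(2, ℤ)} (h00 : γ.1 0 0 = γ'.1 0 0) (h01 : γ.1 0 1 = γ'.1 0 1)
    (h10 : γ.1 1 0 = γ'.1 1 0) (h11 : γ.1 1 1 = γ'.1 1 1) : γ = γ' := by
  apply Subtype.ext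
  ext i j
  fin_cases i <;> fin_cases j <;> assumption

theorem lrda_eq_one_iff (γ : SL(2, ℤ)) :
    γ = 1 ↔ γ.1 0 0 = 1 ∧ γ.1 0 1 = 0 ∧ γ.1 1 0 = 0 ∧ γ.1 1 1 = 1 := by
  constructor
  · rintro rfl
    simp
  · rintro ⟨h00, h01, h10, h11⟩
    apply lrda_ext <;> simp [*]

/-- the entries of `g⁻¹ T^k g` -/
theorem lrda_conj_T_zpow (g : SL(2, ℤ)) (k : ℤ) :
    (g⁻¹ * T ^ k * g).1 = !![1 + k * (g.1 1 0 * g.1 1 1), k * g.1 1 1 ^ 2;
      -(k * g.1 1 0 ^ 2), 1 - k * (g.1 1 0 * g.1 1 1)] := by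
  have hd := lrda_det g
  rw [Matrix.SpecialLinearGroup.coe_mul, Matrix.SpecialLinearGroup.coe_mul,
    Matrix.SpecialLinearGroup.coe_inv, Matrix.adjugate_fin_two, coe_T_zpow]
  ext i j
  fin_cases i <;> fin_cases j <;> simp [Matrix.mul_apply, Fin.sum_univ_two]
  · linear_combination (1 : ℤ) * hd
  · ring
  · ring
  · linear_combination (1 : ℤ) * hd

theorem lrda_pos_of_conj (g : SL(2, ℤ)) {k : ℕ} (hk : 0 < k) : LrdaPos (g⁻¹ * T ^ k * g) := by
  have hk' : (0 : ℤ) < k := by exact_mod_cast hk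
  have hent := lrda_conj_T_zpow g (k : ℤ)
  rw [zpow_natCast] at hent
  have hd := lrda_det g
  refine ⟨?_, ?_, ?_, ?_⟩
  · rw [lrda_trace, hent]
    simp
  · intro h1
    have h01 : (g⁻¹ * T ^ k * g).1 0 1 = 0 := by rw [h1]; simp
    have h10 : (g⁻¹ * T ^ k * g).1 1 0 = 0 := by rw [h1]; simp
    rw [hent] at h01 h10
    simp at h01 h10
    have h1' : g.1 1 1 = 0 := by
      rcases h01 with h | h
      · omega
      · exact h
    have h2' : g.1 1 0 = 0 := by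
      rcases h10 with h | h
      · omega
      · exact h
    rw [h1', h2'] at hd
    simp at hd
  · rw [hent]
    simp
    positivity
  · rw [hent]
    simp
    positivity

/-- a parabolic element of trace `2` fixing the primitive vector `(x, y)` is conjugate to a power
of `T` -/
theorem lrda_conj_of_fix (γ : SL(2, ℤ)) (x y s t : ℤ)
    (hst : x * t - s * y = 1) (hx : γ.1 0 0 * x + γ.1 0 1 * y = x)
    (hy : γ.1 1 0 * x + γ.1 1 1 * y = y) :
    ∃ g : SL(2, ℤ), ∃ k : ℤ, γ = g⁻¹ * T ^ k * g ∧ g.1 1 0 = -y ∧ g.1 1 1 = x := by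
  set g : SL(2, ℤ) := ⟨!![t, -s; -y, x], by
    rw [Matrix.det_fin_two_of]; linear_combination hst⟩ with hg
  set M : SL(2, ℤ) := g * γ * g⁻¹ with hM
  have hMent : M.1 = !![t, -s; -y, x] * γ.1 * !![x, s; y, t] := by
    rw [hM, Matrix.SpecialLinearGroup.coe_mul, Matrix.SpecialLinearGroup.coe_mul,
      Matrix.SpecialLinearGroup.coe_inv, hg]
    simp [Matrix.adjugate_fin_two]
  have h00 : M.1 0 0 = 1 := by
    rw [hMent]
    simp [Matrix.mul_apply, Fin.sum_univ_two, Matrix.vecMul, dotProduct]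
    linear_combination t * hx - s * hy + hst
  have h10 : M.1 1 0 = 0 := by
    rw [hMent]
    simp [Matrix.mul_apply, Fin.sum_univ_two, Matrix.vecMul, dotProduct]
    linear_combination (-y) * hx + x * hy
  have h11 : M.1 1 1 = 1 := by
    have := lrda_det M
    rw [h00, h10] at this
    linarith
  refine ⟨g, M.1 0 1, ?_, by simp [hg], by simp [hg]⟩
  have hMT : M = T ^ (M.1 0 1) := by
    apply lrda_ext <;> rw [coe_T_zpow] <;> simp [h00, h10, h11]
  rw [← hMT, hM]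
  group

/-- a positive parabolic element is conjugate to a positive power of `T` -/
theorem lrda_pos_exists_conj {γ : SL(2, ℤ)} (h : LrdaPos γ) :
    ∃ g : SL(2, ℤ), ∃ k : ℕ, 0 < k ∧ γ = g⁻¹ * T ^ k * g := by
  obtain ⟨htr, hne, hb, hc⟩ := h
  have hd := lrda_det γ
  rw [lrda_trace] at htr
  -- the fixed vector
  have key : ∃ x y s t : ℤ, x * t - s * y = 1 ∧ γ.1 0 0 * x + γ.1 0 1 * y = x ∧
      γ.1 1 0 * x + γ.1 1 1 * y = y := by
    rcases hb.lt_or_eq with hb' | hb'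
    · -- `b > 0`
      set b := γ.1 0 1 with hbdef
      set n := γ.1 0 0 - 1 with hn
      have hbc : b * γ.1 1 0 = -n ^ 2 := by
        rw [hn]; linear_combination (-1 : ℤ) * hd + (γ.1 0 0) * htr
      have hgpos : 0 < Int.gcd b n := Int.gcd_pos_of_ne_zero_left _ hb'.ne'
      obtain ⟨e', x, y', he'pos, hgcd, hx, hy'⟩ := Int.exists_gcd_one' hgpos
      set e : ℤ := (e' : ℤ) with he
      have he0 : e ≠ 0 := by
        rw [he]; exact_mod_cast he'pos.ne'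
      have hcop : IsCoprime x y' := Int.isCoprime_iff_gcd_eq_one.mpr hgcd
      obtain ⟨u, v, huv⟩ := hcop
      -- `u * x + v * y' = 1`; take `y = -y'`, `t = u`, `s = v`
      refine ⟨x, -y', v, u, by linear_combination huv, ?_, ?_⟩
      · have : γ.1 0 0 = n + 1 := by rw [hn]; ring
        rw [this, hy', hx]; ring
      · have h11 : γ.1 1 1 = 1 - n := by rw [hn]; linarith
        have hcx : γ.1 1 0 * x = -e * y' ^ 2 := by
          have h2 : e * (γ.1 1 0 * x) = e * (-e * y' ^ 2) := by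
            have : x * e * γ.1 1 0 = -(y' * e) ^ 2 := by rw [← hx, ← hy']; exact hbc
            linear_combination this
          exact mul_left_cancel₀ he0 h2
        rw [h11, hcx, hy']; ring
    · -- `b = 0`
      have ha : γ.1 0 0 = 1 := by
        have : (γ.1 0 0 - 1) ^ 2 = 0 := by
          rw [← hb'] at hd
          linear_combination (-1 : ℤ) * hd + (γ.1 0 0) * htr
        have := pow_eq_zero_iff (two_ne_zero) |>.mp this
        linarith
      have hd1 : γ.1 1 1 = 1 := by linarith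
      refine ⟨0, 1, -1, 0, by ring, ?_, ?_⟩
      · rw [← hb']; ring
      · rw [hd1]; ring
  obtain ⟨x, y, s, t, hst, hx, hy⟩ := key
  obtain ⟨g, k, hγ, hg10, hg11⟩ := lrda_conj_of_fix γ x y s t hst hx hy
  have hent := lrda_conj_T_zpow g k
  rw [← hγ] at hent
  have h01 : γ.1 0 1 = k * g.1 1 1 ^ 2 := by rw [hent]; simp
  have h10 : γ.1 1 0 = -(k * g.1 1 0 ^ 2) := by rw [hent]; simp
  have hkpos : 0 < k := by
    by_contra hk
    push Not at hk
    have h1 : γ.1 0 1 = 0 := by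
      have : k * g.1 1 1 ^ 2 ≤ 0 := mul_nonpos_of_nonpos_of_nonneg hk (sq_nonneg _)
      omega
    have h2 : γ.1 1 0 = 0 := by
      have : k * g.1 1 0 ^ 2 ≤ 0 := mul_nonpos_of_nonpos_of_nonneg hk (sq_nonneg _)
      omega
    apply hne
    rw [lrda_eq_one_iff]
    have h00 : γ.1 0 0 = 1 := by
      have : (γ.1 0 0 - 1) ^ 2 = 0 := by
        rw [h1] at hd
        linear_combination (-1 : ℤ) * hd + (γ.1 0 0) * htr
      have := pow_eq_zero_iff (two_ne_zero) |>.mp this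
      linarith
    exact ⟨h00, h1, h2, by linarith⟩
  refine ⟨g, k.toNat, by omega, ?_⟩
  rw [hγ, ← zpow_natCast, Int.toNat_of_nonneg hkpos.le]

theorem lrda_pos_iff (γ : SL(2, ℤ)) :
    LrdaPos γ ↔ ∃ g : SL(2, ℤ), ∃ k : ℕ, 0 < k ∧ γ = g⁻¹ * T ^ k * g := by
  constructor
  · exact lrda_pos_exists_conj
  · rintro ⟨g, k, hk, rfl⟩
    exact lrda_pos_of_conj g hk

/-! ### Conjugation by matrices of positive determinant -/

/-- a positive semi-definite binary form of discriminant zero -/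
theorem lrda_psd {b c n : ℤ} (hb : 0 ≤ b) (hc : c ≤ 0) (hbc : b * c = -n ^ 2) (X Y : ℤ) :
    0 ≤ b * X ^ 2 - 2 * n * X * Y - c * Y ^ 2 := by
  rcases hb.lt_or_eq with hb' | hb'
  · have h1 : b * (b * X ^ 2 - 2 * n * X * Y - c * Y ^ 2) = (b * X - n * Y) ^ 2 := by
      linear_combination (-(Y ^ 2)) * hbc
    have h2 : 0 ≤ b * (b * X ^ 2 - 2 * n * X * Y - c * Y ^ 2) := by
      rw [h1]; positivity
    exact nonneg_of_mul_nonneg_right h2 hb'
  · have hn : n = 0 := by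
      have : n ^ 2 = 0 := by rw [← hb'] at hbc; linarith
      exact pow_eq_zero_iff (two_ne_zero) |>.mp this
    rw [← hb', hn]
    have : 0 ≤ -c * Y ^ 2 := mul_nonneg (by omega) (sq_nonneg _)
    linarith

/-- **positivity is preserved by conjugation with a matrix of positive determinant** -/
theorem lrda_pos_conj (W : Matrix (Fin 2) (Fin 2) ℤ) (hW : 0 < W.det) {γ γ' : SL(2, ℤ)}
    (h : W * γ.1 = γ'.1 * W) (hγ : LrdaPos γ) : LrdaPos γ' := by
  obtain ⟨htr, hne, hb, hc⟩ := hγ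
  have hd := lrda_det γ
  rw [lrda_trace] at htr
  rw [Matrix.det_fin_two] at hW
  have e00 := congrFun (congrFun h 0) 0
  have e01 := congrFun (congrFun h 0) 1
  have e10 := congrFun (congrFun h 1) 0
  have e11 := congrFun (congrFun h 1) 1
  simp only [Matrix.mul_apply, Fin.sum_univ_two] at e00 e01 e10 e11
  set x := W 0 0
  set y := W 0 1
  set z := W 1 0
  set t := W 1 1
  set a := γ.1 0 0
  set b := γ.1 0 1
  set c := γ.1 1 0
  set d := γ.1 1 1
  set a' := γ'.1 0 0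
  set b' := γ'.1 0 1
  set c' := γ'.1 1 0
  set d' := γ'.1 1 1
  set n := a - 1 with hn
  have hbc : b * c = -n ^ 2 := by
    rw [hn]; linear_combination (-1 : ℤ) * hd + a * htr
  have hdet0 : x * t - y * z ≠ 0 := hW.ne'
  have htr' : a' + d' = 2 := by
    have : (a' + d') * (x * t - y * z) = (a + d) * (x * t - y * z) := by
      linear_combination (-t) * e00 + z * e01 + y * e10 - x * e11
    have := mul_right_cancel₀ hdet0 this
    rw [this, htr]
  have hb' : b' * (x * t - y * z) = b * x ^ 2 - 2 * n * x * y - c * y ^ 2 := by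
    rw [hn]; linear_combination (-x) * e01 + y * e00 + x * y * htr
  have hc' : c' * (x * t - y * z) = -(b * z ^ 2 - 2 * n * z * t - c * t ^ 2) := by
    rw [hn]; linear_combination (-t) * e10 + z * e11 - z * t * htr
  refine ⟨by rw [lrda_trace]; exact htr', ?_, ?_, ?_⟩
  · rintro rfl
    apply hne
    have ha'1 : a' = 1 := by simp [a']
    have hb'0 : b' = 0 := by simp [b']
    have hc'0 : c' = 0 := by simp [c']
    have hd'1 : d' = 1 := by simp [d']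
    rw [ha'1, hb'0] at e00 e01
    rw [hc'0, hd'1] at e10 e11
    have hn0 : n * (x * t - y * z) = 0 := by
      rw [hn]; linear_combination t * e00 - y * e10
    have hc0 : c * (x * t - y * z) = 0 := by
      linear_combination (-z) * e00 + x * e10
    have hb0 : b * (x * t - y * z) = 0 := by
      linear_combination t * e01 - y * e11
    have hn' : n = 0 := (mul_eq_zero.mp hn0).resolve_right hdet0
    have hc'' : c = 0 := (mul_eq_zero.mp hc0).resolve_right hdet0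
    have hb'' : b = 0 := (mul_eq_zero.mp hb0).resolve_right hdet0
    rw [lrda_eq_one_iff]
    refine ⟨?_, hb'', hc'', ?_⟩
    · show a = 1
      rw [hn] at hn'; linarith
    · show d = 1
      rw [hn] at hn'; linarith
  · have := lrda_psd hb hc hbc x y
    rw [← hb'] at this
    exact nonneg_of_mul_nonneg_left this hW
  · have := lrda_psd hb hc hbc z t
    have h2 : 0 ≤ (-c') * (x * t - y * z) := by
      rw [neg_mul, hc']; linarith
    have := nonneg_of_mul_nonneg_left h2 hW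
    linarith

/-! ### Uniqueness of the conjugating element -/

/-- if `g⁻¹ T^k g = g'⁻¹ T^k' g'` with `k, k' > 0` then `k = k'` and `g' = ± T^j g` -/
theorem lrda_conj_T_unique {g g' : SL(2, ℤ)} {k k' : ℕ} (hk : 0 < k)
    (h : g⁻¹ * T ^ k * g = g'⁻¹ * T ^ k' * g') :
    k = k' ∧ ∃ j : ℤ, g' = T ^ j * g ∨ g' = -(T ^ j * g) := by
  set u : SL(2, ℤ) := g * g'⁻¹ with hu
  -- `u⁻¹ T^k u = T^k'`
  have h1 : u⁻¹ * T ^ k * u = T ^ k' := by
    have : T ^ k = g * (g'⁻¹ * T ^ k' * g') * g⁻¹ := by rw [← h]; group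
    rw [hu, this]; group
  have hent := lrda_conj_T_zpow u (k : ℤ)
  rw [zpow_natCast, h1] at hent
  have hT := coe_T_zpow (k' : ℤ)
  rw [zpow_natCast] at hT
  rw [hT] at hent
  have e01 := congrFun (congrFun hent 0) 1
  have e10 := congrFun (congrFun hent 1) 0
  simp at e01 e10
  have hk0 : (k : ℤ) ≠ 0 := by exact_mod_cast hk.ne'
  have hu10 : u.1 1 0 = 0 := by
    rcases e10 with h0 | h0
    · exact absurd h0 (by exact_mod_cast hk.ne')
    · exact h0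
  have hdet := lrda_det u
  rw [hu10, mul_zero, sub_zero] at hdet
  have hu11 : u.1 1 1 = 1 ∨ u.1 1 1 = -1 := by
    have : IsUnit (u.1 1 1) := IsUnit.of_mul_eq_one _ (by rw [mul_comm]; exact hdet)
    exact Int.isUnit_iff.mp this
  have hsq : u.1 1 1 ^ 2 = 1 := by
    rcases hu11 with h0 | h0 <;> rw [h0] <;> norm_num
  have hkk : k = k' := by
    rw [hsq, mul_one] at e01
    exact_mod_cast e01.symm
  refine ⟨hkk, ?_⟩
  -- `g' = u⁻¹ g`
  have hg' : g' = u⁻¹ * g := by rw [hu]; group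
  rcases hu11 with h0 | h0
  · have h00 : u.1 0 0 = 1 := by rw [h0, mul_one] at hdet; exact hdet
    refine ⟨-(u.1 0 1), Or.inl ?_⟩
    rw [hg']
    congr 1
    apply lrda_ext <;>
      rw [coe_T_zpow, Matrix.SpecialLinearGroup.coe_inv, Matrix.adjugate_fin_two] <;>
      simp [h00, h0, hu10]
  · have h00 : u.1 0 0 = -1 := by rw [h0] at hdet; linarith
    refine ⟨u.1 0 1, Or.inr ?_⟩
    rw [hg', ← neg_mul]
    congr 1
    apply lrda_ext <;>
      rw [Matrix.SpecialLinearGroup.coe_neg, coe_T_zpow, Matrix.SpecialLinearGroup.coe_inv,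
        Matrix.adjugate_fin_two] <;>
      simp [h00, h0, hu10]

/-! ### Cusps of a subgroup -/

section Cusps

variable (Γ : Subgroup SL(2, ℤ))

/-- the width of the cusp attached to the coset `x` -/
noncomputable def lrdaWidth (x : SL(2, ℤ) ⧸ Γ) : ℕ := MulAction.period T x

theorem lrda_width_pos [Γ.FiniteIndex] (x : SL(2, ℤ) ⧸ Γ) : 0 < lrdaWidth Γ x := by
  have : Finite (SL(2, ℤ) ⧸ Γ) := Subgroup.finite_quotient_of_finiteIndex
  have hfin : IsOfFinOrder (MulAction.toPerm T : Equiv.Perm (SL(2, ℤ) ⧸ Γ)) :=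
    isOfFinOrder_of_finite _
  obtain ⟨n, hn, hn1⟩ := hfin.exists_pow_eq_one
  refine MulAction.period_pos_of_fixed hn ?_
  have := congrArg (fun σ : Equiv.Perm (SL(2, ℤ) ⧸ Γ) => σ x) hn1
  rw [← MulAction.toPermHom_apply, ← map_pow] at this
  exact this

theorem lrda_conj_mem_iff (g : SL(2, ℤ)) (k : ℕ) :
    g⁻¹ * T ^ k * g ∈ Γ ↔ T ^ k • ((g : SL(2, ℤ)) : SL(2, ℤ) ⧸ Γ) = (g : SL(2, ℤ) ⧸ Γ) := by
  rw [MulAction.Quotient.smul_coe, smul_eq_mul, eq_comm, QuotientGroup.eq, mul_assoc]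

theorem lrda_pi_mem (x : SL(2, ℤ) ⧸ Γ) :
    (Quotient.out x)⁻¹ * T ^ lrdaWidth Γ x * Quotient.out x ∈ Γ := by
  rw [lrda_conj_mem_iff, QuotientGroup.out_eq']
  exact MulAction.pow_period_smul T x

/-- the primitive positive parabolic element of `Γ` attached to the coset `x` -/
noncomputable def lrdaPi (x : SL(2, ℤ) ⧸ Γ) : Γ :=
  ⟨(Quotient.out x)⁻¹ * T ^ lrdaWidth Γ x * Quotient.out x, lrda_pi_mem Γ x⟩

theorem lrdaPi_coe (x : SL(2, ℤ) ⧸ Γ) :
    ((lrdaPi Γ x : Γ) : SL(2, ℤ)) = (Quotient.out x)⁻¹ * T ^ lrdaWidth Γ x * Quotient.out x := rfl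

theorem lrdaPi_pos [Γ.FiniteIndex] (x : SL(2, ℤ) ⧸ Γ) : LrdaPos (lrdaPi Γ x : SL(2, ℤ)) :=
  lrda_pos_of_conj _ (lrda_width_pos Γ x)

end Cusps

/-! ### Conjugacy classes of positive parabolic elements -/

theorem lrda_conj_pow {G : Type*} [Group G] (r X : G) (m : ℕ) :
    (r⁻¹ * X * r) ^ m = r⁻¹ * X ^ m * r := by
  have := conj_pow (a := r⁻¹) (b := X) (i := m)
  simpa using this

section Classes

variable (Γ : Subgroup SL(2, ℤ))

theorem lrda_width_zpow_smul (x : SL(2, ℤ) ⧸ Γ) (j : ℤ) :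
    lrdaWidth Γ (T ^ j • x) = lrdaWidth Γ x := by
  unfold lrdaWidth
  apply Nat.dvd_antisymm
  · rw [← MulAction.pow_smul_eq_iff_period_dvd, smul_smul, ← zpow_natCast, ← _root_.zpow_add,
      add_comm, _root_.zpow_add, ← smul_smul, zpow_natCast, MulAction.pow_period_smul]
  · rw [← MulAction.pow_smul_eq_iff_period_dvd]
    have h := MulAction.pow_period_smul T (T ^ j • x)
    rw [smul_smul, ← zpow_natCast, ← _root_.zpow_add, add_comm, _root_.zpow_add, ← smul_smul] at h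
    have := congrArg (fun y => (T ^ j)⁻¹ • y) h
    simpa using this

/-- conjugates of `T^k` lying in `Γ` are `Γ`-conjugate to powers of the elements `lrdaPi` -/
theorem lrda_exists_pi_pow (g : SL(2, ℤ)) (k : ℕ) (hmem : g⁻¹ * T ^ k * g ∈ Γ) :
    ∃ δ : Γ, ∃ m : ℕ, k = lrdaWidth Γ (g : SL(2, ℤ) ⧸ Γ) * m ∧
      (⟨g⁻¹ * T ^ k * g, hmem⟩ : Γ) = δ⁻¹ * (lrdaPi Γ (g : SL(2, ℤ) ⧸ Γ)) ^ m * δ := by
  set x : SL(2, ℤ) ⧸ Γ := (g : SL(2, ℤ) ⧸ Γ) with hx
  set r := Quotient.out x with hr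
  have hrx : ((r : SL(2, ℤ)) : SL(2, ℤ) ⧸ Γ) = x := QuotientGroup.out_eq' x
  have hδ : r⁻¹ * g ∈ Γ := by
    rw [← QuotientGroup.eq, hrx]
  have hfix : T ^ k • x = x := (lrda_conj_mem_iff Γ g k).mp hmem
  obtain ⟨m, hm⟩ : lrdaWidth Γ x ∣ k := MulAction.pow_smul_eq_iff_period_dvd.mp hfix
  refine ⟨⟨r⁻¹ * g, hδ⟩, m, hm, ?_⟩
  apply Subtype.ext
  simp only [Subgroup.coe_mul, Subgroup.coe_inv, Subgroup.coe_pow, lrdaPi_coe]
  rw [← hr, hm, pow_mul, lrda_conj_pow]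
  group

/-- every positive parabolic element of `Γ` is `Γ`-conjugate to a positive power of some
`lrdaPi Γ x` -/
theorem lrda_pos_mem_exists (γ : Γ) (hγ : LrdaPos (γ : SL(2, ℤ))) :
    ∃ x : SL(2, ℤ) ⧸ Γ, ∃ δ : Γ, ∃ m : ℕ, 0 < m ∧ γ = δ⁻¹ * (lrdaPi Γ x) ^ m * δ := by
  obtain ⟨g, k, hk, hgk⟩ := lrda_pos_exists_conj hγ
  have hmem : g⁻¹ * T ^ k * g ∈ Γ := by rw [← hgk]; exact γ.2
  obtain ⟨δ, m, hkm, hδ⟩ := lrda_exists_pi_pow Γ g k hmem
  refine ⟨(g : SL(2, ℤ) ⧸ Γ), δ, m, ?_, ?_⟩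
  · rcases Nat.eq_zero_or_pos m with h0 | h0
    · rw [h0, mul_zero] at hkm; omega
    · exact h0
  · rw [← hδ]
    exact Subtype.ext hgk

theorem lrda_neg_coset (hneg : -1 ∈ Γ) (g : SL(2, ℤ)) :
    ((-g : SL(2, ℤ)) : SL(2, ℤ) ⧸ Γ) = (g : SL(2, ℤ) ⧸ Γ) := by
  rw [eq_comm, QuotientGroup.eq]
  have : g⁻¹ * -g = -1 := by
    rw [mul_neg, inv_mul_cancel]
  rw [this]; exact hneg

/-- uniqueness: `lrdaPi Γ x` conjugate to `(lrdaPi Γ y)^m` forces `m = 1` and `y ∈ ⟨T⟩ x` -/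
theorem lrda_pi_conj_unique [Γ.FiniteIndex] (hneg : -1 ∈ Γ) (x y : SL(2, ℤ) ⧸ Γ) (δ : Γ)
    (m : ℕ) (h : lrdaPi Γ x = δ⁻¹ * (lrdaPi Γ y) ^ m * δ) :
    m = 1 ∧ ∃ j : ℤ, y = T ^ j • x := by
  have h' := congrArg (fun γ : Γ => (γ : SL(2, ℤ))) h
  simp only [Subgroup.coe_mul, Subgroup.coe_inv, Subgroup.coe_pow, lrdaPi_coe] at h'
  rw [lrda_conj_pow, ← pow_mul] at h'
  have h2 : (Quotient.out x)⁻¹ * T ^ lrdaWidth Γ x * Quotient.out x
      = (Quotient.out y * (δ : SL(2, ℤ)))⁻¹ * T ^ (lrdaWidth Γ y * m)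
        * (Quotient.out y * (δ : SL(2, ℤ))) := by
    rw [h']; group
  obtain ⟨hw, j, hj⟩ := lrda_conj_T_unique (lrda_width_pos Γ x) h2
  have hy : y = T ^ j • x := by
    have h3 : ((Quotient.out y * (δ : SL(2, ℤ)) : SL(2, ℤ)) : SL(2, ℤ) ⧸ Γ) = y := by
      rw [← QuotientGroup.out_eq' y, QuotientGroup.eq]
      simp
    have h4 : ((T ^ j * Quotient.out x : SL(2, ℤ)) : SL(2, ℤ) ⧸ Γ) = T ^ j • x := by
      rw [← QuotientGroup.out_eq' x, MulAction.Quotient.smul_coe, smul_eq_mul,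
        QuotientGroup.out_eq' x]
    rcases hj with hj | hj
    · rw [← h3, hj, h4]
    · rw [← h3, hj, lrda_neg_coset Γ hneg, h4]
  refine ⟨?_, j, hy⟩
  have hwy : lrdaWidth Γ y = lrdaWidth Γ x := by rw [hy, lrda_width_zpow_smul]
  rw [hwy] at hw
  have hpos := lrda_width_pos Γ x
  have : lrdaWidth Γ x * 1 = lrdaWidth Γ x * m := by rw [mul_one]; exact hw
  exact (Nat.eq_of_mul_eq_mul_left hpos this).symm

/-- the elements `lrdaPi` along a `T`-orbit are `Γ`-conjugate -/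
theorem lrda_pi_orbit [Γ.FiniteIndex] (x : SL(2, ℤ) ⧸ Γ) (j : ℤ) :
    ∃ δ : Γ, lrdaPi Γ (T ^ j • x) = δ⁻¹ * lrdaPi Γ x * δ := by
  set y := T ^ j • x with hy
  set g : SL(2, ℤ) := (T ^ j)⁻¹ * Quotient.out y with hg
  have hgx : ((g : SL(2, ℤ)) : SL(2, ℤ) ⧸ Γ) = x := by
    have : (((T ^ j)⁻¹ * Quotient.out y : SL(2, ℤ)) : SL(2, ℤ) ⧸ Γ) = (T ^ j)⁻¹ • y := by
      rw [← QuotientGroup.out_eq' y, MulAction.Quotient.smul_coe, smul_eq_mul,
        QuotientGroup.out_eq' y]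
    rw [hg, this, hy, inv_smul_smul]
  have hconj : g⁻¹ * T ^ lrdaWidth Γ y * g
      = (Quotient.out y)⁻¹ * T ^ lrdaWidth Γ y * Quotient.out y := by
    rw [hg]
    have hc : (T ^ j) * T ^ lrdaWidth Γ y * (T ^ j)⁻¹ = T ^ lrdaWidth Γ y := by
      rw [← zpow_natCast, ← _root_.zpow_add, ← _root_.zpow_neg, ← _root_.zpow_add]
      congr 1; ring
    calc ((T ^ j)⁻¹ * Quotient.out y)⁻¹ * T ^ lrdaWidth Γ y * ((T ^ j)⁻¹ * Quotient.out y)
        = (Quotient.out y)⁻¹ * ((T ^ j) * T ^ lrdaWidth Γ y * (T ^ j)⁻¹) * Quotient.out y := by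
          group
      _ = _ := by rw [hc]
  have hmem : g⁻¹ * T ^ lrdaWidth Γ y * g ∈ Γ := by rw [hconj]; exact lrda_pi_mem Γ y
  obtain ⟨δ, m, hkm, hδ⟩ := lrda_exists_pi_pow Γ g (lrdaWidth Γ y) hmem
  rw [hgx] at hkm hδ
  have hwy : lrdaWidth Γ y = lrdaWidth Γ x := by rw [hy, lrda_width_zpow_smul]
  have hm1 : m = 1 := by
    rw [hwy] at hkm
    have hpos := lrda_width_pos Γ x
    have : lrdaWidth Γ x * 1 = lrdaWidth Γ x * m := by rw [mul_one]; exact hkm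
    exact (Nat.eq_of_mul_eq_mul_left hpos this).symm
  refine ⟨δ, ?_⟩
  rw [hm1, pow_one] at hδ
  rw [← hδ]
  exact Subtype.ext hconj.symm

end Classes

/-! ### Cusp sums -/

section CuspSum

variable (Γ : Subgroup SL(2, ℤ)) [Γ.FiniteIndex]

/-- the cusps of `Γ`: the orbits of `⟨T⟩` on the coset space -/
abbrev lrdaCusps := MulAction.orbitRel.Quotient (Subgroup.zpowers T) (SL(2, ℤ) ⧸ Γ)

instance lrdaCusps_finite : Finite (lrdaCusps Γ) := by
  have : Finite (SL(2, ℤ) ⧸ Γ) := Subgroup.finite_quotient_of_finiteIndex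
  exact Quotient.finite _

noncomputable instance lrdaCusps_fintype : Fintype (lrdaCusps Γ) := Fintype.ofFinite _

/-- the cusp sum of a function on `Γ`: the sum of its values at the primitive positive parabolic
elements, one for each cusp -/
noncomputable def lrdaCuspSum (ζ : Γ → ℚ) : ℚ := ∑ ω : lrdaCusps Γ, ζ (lrdaPi Γ ω.out)

variable {Γ}

omit [Γ.FiniteIndex] in
theorem lrda_cusp_eq_iff (x y : SL(2, ℤ) ⧸ Γ) :
    (Quotient.mk'' x : lrdaCusps Γ) = Quotient.mk'' y ↔ ∃ j : ℤ, x = T ^ j • y := by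
  rw [Quotient.eq'', MulAction.orbitRel_apply, MulAction.mem_orbit_iff]
  constructor
  · rintro ⟨⟨z, hz⟩, hzy⟩
    obtain ⟨j, rfl⟩ := Subgroup.mem_zpowers_iff.mp hz
    exact ⟨j, hzy.symm⟩
  · rintro ⟨j, rfl⟩
    exact ⟨⟨T ^ j, Subgroup.mem_zpowers_iff.mpr ⟨j, rfl⟩⟩, rfl⟩

theorem lrda_zeta_pi_orbit (ζ : Γ → ℚ)
    (hζ : ∀ γ δ : Γ, LrdaPos (γ : SL(2, ℤ)) → ζ (δ⁻¹ * γ * δ) = ζ γ) (x : SL(2, ℤ) ⧸ Γ) (j : ℤ) :
    ζ (lrdaPi Γ (T ^ j • x)) = ζ (lrdaPi Γ x) := by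
  obtain ⟨δ, hδ⟩ := lrda_pi_orbit Γ x j
  rw [hδ, hζ _ _ (lrdaPi_pos Γ x)]

theorem lrda_zeta_pi_out (ζ : Γ → ℚ)
    (hζ : ∀ γ δ : Γ, LrdaPos (γ : SL(2, ℤ)) → ζ (δ⁻¹ * γ * δ) = ζ γ) (x : SL(2, ℤ) ⧸ Γ) :
    ζ (lrdaPi Γ (Quotient.out (Quotient.mk'' x : lrdaCusps Γ))) = ζ (lrdaPi Γ x) := by
  have h : (Quotient.mk'' (Quotient.out (Quotient.mk'' x : lrdaCusps Γ)) : lrdaCusps Γ)
      = Quotient.mk'' x := Quotient.out_eq _
  obtain ⟨j, hj⟩ := (lrda_cusp_eq_iff _ _).mp h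
  rw [hj, lrda_zeta_pi_orbit ζ hζ]

/-- conjugation with `W` (positive determinant) and with its adjugate -/
theorem lrda_adj_conj (W : Matrix (Fin 2) (Fin 2) ℤ) (hW : 0 < W.det) {γ γ' : SL(2, ℤ)}
    (h : W * γ.1 = γ'.1 * W) : W.adjugate * γ'.1 = γ.1 * W.adjugate := by
  have h1 : W.det • (W.adjugate * γ'.1) = W.det • (γ.1 * W.adjugate) := by
    calc W.det • (W.adjugate * γ'.1) = W.adjugate * γ'.1 * (W * W.adjugate) := by
          rw [Matrix.mul_adjugate, Matrix.mul_smul, Matrix.mul_one]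
      _ = W.adjugate * (γ'.1 * W) * W.adjugate := by simp only [Matrix.mul_assoc]
      _ = W.adjugate * (W * γ.1) * W.adjugate := by rw [h]
      _ = (W.adjugate * W) * γ.1 * W.adjugate := by simp only [Matrix.mul_assoc]
      _ = W.det • (γ.1 * W.adjugate) := by
          rw [Matrix.adjugate_mul, Matrix.smul_mul, Matrix.one_mul, Matrix.smul_mul]
  exact smul_right_injective _ hW.ne' h1

theorem lrda_det_adjugate (W : Matrix (Fin 2) (Fin 2) ℤ) : W.adjugate.det = W.det := by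
  rw [Matrix.adjugate_fin_two, Matrix.det_fin_two_of, Matrix.det_fin_two]; ring

/-- **the cusp sum of a class function (on positive parabolics) is invariant under automorphisms of `Γ` induced
by conjugation with a matrix of positive determinant** -/
theorem lrda_cuspSum_conj (hneg : -1 ∈ Γ) (W : Matrix (Fin 2) (Fin 2) ℤ) (hW : 0 < W.det)
    (w : Γ ≃* Γ) (hw : ∀ γ : Γ, W * (γ : SL(2, ℤ)).1 = ((w γ : Γ) : SL(2, ℤ)).1 * W)
    (ζ : Γ → ℚ) (hζ : ∀ γ δ : Γ, LrdaPos (γ : SL(2, ℤ)) → ζ (δ⁻¹ * γ * δ) = ζ γ) :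
    lrdaCuspSum Γ (ζ ∘ w) = lrdaCuspSum Γ ζ := by
  -- `w` and `w⁻¹` preserve positivity
  have hwpos : ∀ γ : Γ, LrdaPos (γ : SL(2, ℤ)) → LrdaPos ((w γ : Γ) : SL(2, ℤ)) :=
    fun γ hγ => lrda_pos_conj W hW (hw γ) hγ
  have hwpos' : ∀ γ : Γ, LrdaPos (γ : SL(2, ℤ)) → LrdaPos ((w.symm γ : Γ) : SL(2, ℤ)) := by
    intro γ hγ
    have h1 := hw (w.symm γ)
    rw [MulEquiv.apply_symm_apply] at h1
    exact lrda_pos_conj W.adjugate (by rw [lrda_det_adjugate]; exact hW)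
      (lrda_adj_conj W hW h1) hγ
  -- the image of `lrdaPi x`
  have key : ∀ x : SL(2, ℤ) ⧸ Γ, ∃ y : SL(2, ℤ) ⧸ Γ, ∃ δ : Γ,
      w (lrdaPi Γ x) = δ⁻¹ * lrdaPi Γ y * δ := by
    intro x
    obtain ⟨y, δ, m, hm, hy⟩ := lrda_pos_mem_exists Γ (w (lrdaPi Γ x)) (hwpos _ (lrdaPi_pos Γ x))
    obtain ⟨x', δ', m', hm', hx'⟩ := lrda_pos_mem_exists Γ (w.symm (lrdaPi Γ y))
      (hwpos' _ (lrdaPi_pos Γ y))
    have h1 : lrdaPi Γ x = (δ' * w.symm δ)⁻¹ * (lrdaPi Γ x') ^ (m' * m) * (δ' * w.symm δ) := by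
      have h2 : lrdaPi Γ x = w.symm (w (lrdaPi Γ x)) := (w.symm_apply_apply _).symm
      rw [h2, hy, map_mul, map_mul, map_inv, map_pow, hx', lrda_conj_pow, ← pow_mul]
      group
    obtain ⟨hmm, -⟩ := lrda_pi_conj_unique Γ hneg x x' _ _ h1
    have hm1 : m = 1 := Nat.eq_one_of_mul_eq_one_left hmm
    refine ⟨y, δ, ?_⟩
    rw [hy, hm1, pow_one]
  choose σ' δσ hσ using key
  -- the induced map on cusps
  set σ : lrdaCusps Γ → lrdaCusps Γ := fun ω => Quotient.mk'' (σ' ω.out) with hσdef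
  have hσinj : Function.Injective σ := by
    intro ω₁ ω₂ h12
    obtain ⟨j, hj⟩ := (lrda_cusp_eq_iff _ _).mp h12
    obtain ⟨δ, hδ⟩ := lrda_pi_orbit Γ (σ' ω₂.out) j
    rw [← hj] at hδ
    -- `w π₁ ∼ w π₂`
    set E : Γ := (δσ ω₂.out)⁻¹ * δ * δσ ω₁.out with hE
    have h1 : w (lrdaPi Γ ω₁.out) = E⁻¹ * w (lrdaPi Γ ω₂.out) * E := by
      rw [hσ ω₁.out, hσ ω₂.out, hδ, hE]; group
    have h2 : lrdaPi Γ ω₁.out
        = (w.symm E)⁻¹ * (lrdaPi Γ ω₂.out) ^ 1 * (w.symm E) := by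
      have h3 : lrdaPi Γ ω₁.out = w.symm (w (lrdaPi Γ ω₁.out)) := (w.symm_apply_apply _).symm
      rw [h3, h1, map_mul, map_mul, w.symm_apply_apply, pow_one, map_inv]
    obtain ⟨-, j', hj'⟩ := lrda_pi_conj_unique Γ hneg _ _ _ _ h2
    have h4 : (Quotient.mk'' ω₂.out : lrdaCusps Γ) = Quotient.mk'' ω₁.out :=
      (lrda_cusp_eq_iff _ _).mpr ⟨j', hj'⟩
    rw [Quotient.out_eq', Quotient.out_eq'] at h4
    exact h4.symm
  have hσbij : Function.Bijective σ := Finite.injective_iff_bijective.mp hσinj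
  unfold lrdaCuspSum
  rw [← hσbij.sum_comp (fun ω => ζ (lrdaPi Γ ω.out))]
  refine Finset.sum_congr rfl fun ω _ => ?_
  show ζ (w (lrdaPi Γ ω.out)) = ζ (lrdaPi Γ (Quotient.out (σ ω)))
  rw [hσ ω.out, hζ _ _ (lrdaPi_pos Γ _), hσdef, lrda_zeta_pi_out ζ hζ]

end CuspSum

end Fermat.Agent.LR
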