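/-
S41 / F2 (AL) part 2 (helper7): **cusp systems `LrdCusps` from coset systems `LrdSys`**.

* `lrdc_posPar_iff : LrdPosPar γ ↔ LrdaPos γ`, `lrdc_posPar_conj` (conjugation with an integral
  matrix of positive determinant preserves positive parabolic elements);
* `lrdcOfReps`: representatives `x c` of the `T`-orbits on the index set of a coset system `D`
  with exact periods `w c` give a cusp system with `gen c = D.eps (T ^ w c) (x c)`;
* `lrdCuspsOf D`: the canonical instance on `lrdOrb D.sT` (`Orbit.lean`);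
* `lrdc_equiv`, `lrdc_sum_indep`: two cusp systems differ by a bijection and `Γ`-conjugations;
* `lrdcMap`, `lrdc_perm`, `lrdc_sum_perm`: automorphisms preserving positive parabolic
  elements permute the cusp classes.
-/
import Fermat.Agent.Lib.LR.Dual.Defs
import Fermat.Agent.Lib.LR.Dual.Orbit
import Fermat.Agent.Lib.LR.Dual.AL

set_option autoImplicit false

namespace Fermat.Agent.LR

open Matrix MatrixGroups ModularGroup

/-! ### The two notions of positivity agree -/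

theorem lrdc_posPar_iff (γ : SL(2, ℤ)) : LrdPosPar γ ↔ LrdaPos γ := by
  have hd := lrda_det γ
  have htr := lrda_trace γ
  unfold LrdPosPar LrdaPos
  constructor
  · rintro ⟨h1, h2⟩
    have h1' : γ.1 0 0 + γ.1 1 1 = 2 := by rw [← htr]; exact h1
    have h2' : γ.1 1 0 < γ.1 0 1 := h2
    have hbc : γ.1 0 1 * γ.1 1 0 = -(γ.1 0 0 - 1) ^ 2 := by
      have : γ.1 1 1 = 2 - γ.1 0 0 := by linarith
      rw [this] at hd
      linear_combination (-1 : ℤ) * hd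
    refine ⟨h1, ?_, ?_, ?_⟩
    · rintro rfl
      simp at h2'
    · by_contra hb
      rw [not_le] at hb
      nlinarith [sq_nonneg (γ.1 0 0 - 1)]
    · by_contra hc
      rw [not_le] at hc
      nlinarith [sq_nonneg (γ.1 0 0 - 1)]
  · rintro ⟨h1, hne, hb, hc⟩
    refine ⟨h1, ?_⟩
    show γ.1 1 0 < γ.1 0 1
    by_contra hlt
    rw [not_lt] at hlt
    have hb0 : γ.1 0 1 = 0 := by linarith
    have hc0 : γ.1 1 0 = 0 := by linarith
    have h1' : γ.1 0 0 + γ.1 1 1 = 2 := by rw [← htr]; exact h1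
    rw [hb0, hc0] at hd
    have ha : (γ.1 0 0 - 1) ^ 2 = 0 := by
      have : γ.1 1 1 = 2 - γ.1 0 0 := by linarith
      rw [this] at hd
      linear_combination (-1 : ℤ) * hd
    have ha1 : γ.1 0 0 = 1 := by
      have := pow_eq_zero_iff (two_ne_zero) |>.mp ha
      linarith
    exact hne ((lrda_eq_one_iff γ).mpr ⟨ha1, hb0, hc0, by linarith⟩)

/-- **(b)** conjugation with an integral matrix of positive determinant preserves positive
parabolic elements -/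
theorem lrdc_posPar_conj (W : Matrix (Fin 2) (Fin 2) ℤ) (hW : 0 < W.det) {γ γ' : SL(2, ℤ)}
    (h : W * γ.1 = γ'.1 * W) : LrdPosPar γ → LrdPosPar γ' := fun hγ =>
  (lrdc_posPar_iff γ').mpr (lrda_pos_conj W hW h ((lrdc_posPar_iff γ).mp hγ))

/-- the same with explicit arguments (literal form of the sub-brief) -/
theorem lrdc_pospar_conj (W : Matrix (Fin 2) (Fin 2) ℤ) (hW : 0 < W.det) (γ γ' : SL(2, ℤ))
    (h : W * (γ : Matrix (Fin 2) (Fin 2) ℤ) = (γ' : Matrix (Fin 2) (Fin 2) ℤ) * W) :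
    LrdPosPar γ → LrdPosPar γ' := lrdc_posPar_conj W hW h

/-- positive parabolic elements are the conjugates `g * T ^ k * g⁻¹`, `k > 0` -/
theorem lrdc_posPar_iff_conj (γ : SL(2, ℤ)) :
    LrdPosPar γ ↔ ∃ g : SL(2, ℤ), ∃ k : ℕ, 0 < k ∧ γ = g * T ^ k * g⁻¹ := by
  rw [lrdc_posPar_iff]
  constructor
  · intro h
    obtain ⟨g, k, hk, hg⟩ := lrda_pos_exists_conj h
    exact ⟨g⁻¹, k, hk, by rw [hg, inv_inv]⟩
  · rintro ⟨g, k, hk, rfl⟩
    have := lrda_pos_of_conj g⁻¹ hk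
    rwa [inv_inv] at this

/-! ### Coset systems: fixed points of `T ^ k` -/

section Sys

variable {Γ : Subgroup SL(2, ℤ)} {ι : Type} [Fintype ι] (D : LrdSys Γ ι)

theorem lrdc_act_eq_iff (g : SL(2, ℤ)) (x : ι) :
    D.act g x = x ↔ D.rep x * g * (D.rep x)⁻¹ ∈ Γ := by
  constructor
  · intro h
    have h1 := (D.eps g x).2
    rw [D.coe_eps, h] at h1
    exact h1
  · intro h
    exact ((D.eq_of_rep_mul (g := g) (x := x) (y := x) (ε := ⟨_, h⟩)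
      (by rw [inv_mul_cancel_right])).1).symm

theorem lrdc_coe_eps_of_fixed {g : SL(2, ℤ)} {x : ι} (h : D.act g x = x) :
    ((D.eps g x : Γ) : SL(2, ℤ)) = D.rep x * g * (D.rep x)⁻¹ := by
  rw [D.coe_eps, h]

theorem lrdc_sigma_zpow (g : SL(2, ℤ)) (i : ℤ) : D.sigma (g ^ i) = D.sigma g ^ i := by
  cases i with
  | ofNat n => rw [Int.ofNat_eq_natCast, zpow_natCast, zpow_natCast, D.sigma_pow]
  | negSucc n => rw [zpow_negSucc, zpow_negSucc, D.sigma_inv, D.sigma_pow]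

theorem lrdc_act_T_pow (k : ℕ) (x : ι) : D.act (T ^ k) x = (D.sT ^ k) x := D.act_pow T k x

/-- integer powers of `T` act like natural powers -/
theorem lrdc_act_T_zpow (i : ℤ) (x : ι) : ∃ k : ℕ, D.act (T ^ i) x = D.act (T ^ k) x := by
  have h1 : D.act (T ^ i) x = (D.sT ^ i) x := by
    show D.sigma (T ^ i) x = _
    rw [lrdc_sigma_zpow]; rfl
  have h2 : Equiv.Perm.SameCycle D.sT x ((D.sT ^ i) x) := ⟨i, rfl⟩
  obtain ⟨k, hk⟩ := h2.exists_nat_pow_eq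
  exact ⟨k, by rw [h1, lrdc_act_T_pow, hk]⟩

/-- the representatives along a `T`-orbit -/
theorem lrdc_rep_act (g : SL(2, ℤ)) (x : ι) :
    D.rep (D.act g x) = ((D.eps g x : Γ) : SL(2, ℤ))⁻¹ * D.rep x * g := by
  rw [mul_assoc, D.rep_mul, inv_mul_cancel_left]

/-- conjugating `rep y * T ^ n * (rep y)⁻¹` along the `T`-orbit -/
theorem lrdc_conj_orbit (j n : ℕ) (x : ι) :
    D.rep (D.act (T ^ j) x) * T ^ n * (D.rep (D.act (T ^ j) x))⁻¹
      = ((D.eps (T ^ j) x : Γ) : SL(2, ℤ))⁻¹ * (D.rep x * T ^ n * (D.rep x)⁻¹)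
        * ((D.eps (T ^ j) x : Γ) : SL(2, ℤ)) := by
  rw [lrdc_rep_act]
  have hc : T ^ j * T ^ n = T ^ n * T ^ j := by rw [← pow_add, ← pow_add, add_comm]
  calc ((D.eps (T ^ j) x : Γ) : SL(2, ℤ))⁻¹ * D.rep x * T ^ j * T ^ n
        * (((D.eps (T ^ j) x : Γ) : SL(2, ℤ))⁻¹ * D.rep x * T ^ j)⁻¹
      = ((D.eps (T ^ j) x : Γ) : SL(2, ℤ))⁻¹ * D.rep x * (T ^ j * T ^ n) * (T ^ j)⁻¹
        * (D.rep x)⁻¹ * ((D.eps (T ^ j) x : Γ) : SL(2, ℤ)) := by group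
    _ = _ := by rw [hc]; group

/-- exact periods: a fixed point equation forces divisibility -/
theorem lrdc_dvd_of_fixed {x : ι} {w : ℕ} (hw : 0 < w) (hfix : D.act (T ^ w) x = x)
    (hmin : ∀ k, 0 < k → k < w → D.act (T ^ k) x ≠ x) {k : ℕ} (hk : D.act (T ^ k) x = x) :
    w ∣ k := by
  rw [lrdc_act_T_pow] at hfix hk
  have hq : ∀ q : ℕ, (D.sT ^ (w * q)) x = x := by
    intro q
    rw [pow_mul]
    exact Equiv.Perm.pow_apply_eq_self_of_apply_eq_self hfix q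
  have hr : (D.sT ^ (k % w)) x = x := by
    have h1 : (D.sT ^ k) x = (D.sT ^ (k % w)) ((D.sT ^ (w * (k / w))) x) := by
      rw [← Equiv.Perm.mul_apply, ← pow_add, Nat.mod_add_div]
    rw [hk, hq] at h1
    exact h1.symm
  by_contra hdvd
  have hpos : 0 < k % w := Nat.pos_of_ne_zero fun h0 => hdvd (Nat.dvd_of_mod_eq_zero h0)
  exact hmin (k % w) hpos (Nat.mod_lt _ hw) (by rw [lrdc_act_T_pow]; exact hr)

end Sys

/-! ### Cusp systems from orbit representatives -/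

section OfReps

variable {Γ : Subgroup SL(2, ℤ)} {ι : Type} [Fintype ι] (D : LrdSys Γ ι)

theorem lrdc_gen_pos {x : ι} {w : ℕ} (hw : 0 < w) (hfix : D.act (T ^ w) x = x) :
    LrdPosPar ((D.eps (T ^ w) x : Γ) : SL(2, ℤ)) := by
  rw [lrdc_coe_eps_of_fixed D hfix, lrdc_posPar_iff_conj]
  exact ⟨D.rep x, w, hw, rfl⟩

theorem lrdc_act_pow_fixed {x : ι} {w : ℕ} (hfix : D.act (T ^ w) x = x) (m : ℕ) :
    D.act (T ^ (w * m)) x = x := by
  rw [pow_mul, D.act_pow]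
  exact Equiv.Perm.pow_apply_eq_self_of_apply_eq_self hfix m

theorem lrdc_gen_pow {x : ι} {w : ℕ} (hfix : D.act (T ^ w) x = x) (m : ℕ) :
    (D.eps (T ^ w) x) ^ m = D.eps (T ^ (w * m)) x := by
  rw [pow_mul, D.eps_pow_of_fixed hfix]

theorem lrdc_coe_gen_pow {x : ι} {w : ℕ} (hfix : D.act (T ^ w) x = x) (m : ℕ) :
    (((D.eps (T ^ w) x) ^ m : Γ) : SL(2, ℤ)) = D.rep x * T ^ (w * m) * (D.rep x)⁻¹ := by
  rw [lrdc_gen_pow D hfix, lrdc_coe_eps_of_fixed D (lrdc_act_pow_fixed D hfix m)]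

variable {κ : Type} (x : κ → ι) (w : κ → ℕ)

theorem lrdc_conj_exists (hw : ∀ c, 0 < w c) (hfix : ∀ c, D.act (T ^ w c) (x c) = x c)
    (hmin : ∀ c k, 0 < k → k < w c → D.act (T ^ k) (x c) ≠ x c)
    (hcov : ∀ y : ι, ∃ c, ∃ k : ℕ, y = D.act (T ^ k) (x c))
    (γ : Γ) (hγ : LrdPosPar (γ : SL(2, ℤ))) :
    ∃ (c : κ) (m : ℕ) (δ : Γ), 0 < m ∧ γ = δ * (D.eps (T ^ w c) (x c)) ^ m * δ⁻¹ := by
  obtain ⟨g, k, hk, hg⟩ := (lrdc_posPar_iff_conj _).mp hγ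
  have hg0 : g = ((D.eps g D.base : Γ) : SL(2, ℤ)) * D.rep (D.act g D.base) := by
    have := D.rep_mul g D.base
    rwa [D.rep_base, one_mul] at this
  obtain ⟨c, j, hy⟩ := hcov (D.act g D.base)
  have h1 := lrdc_conj_orbit D j k (x c)
  rw [← hy] at h1
  set ε₀ : Γ := D.eps g D.base with hε₀
  set ε₁ : Γ := D.eps (T ^ j) (x c) with hε₁
  set y := D.act g D.base with hydef
  -- `γ = ε₀ ε₁⁻¹ (rep xc T^k rep xc⁻¹) ε₁ ε₀⁻¹`
  have h2 : (γ : SL(2, ℤ)) = (ε₀ : SL(2, ℤ)) * (ε₁ : SL(2, ℤ))⁻¹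
      * (D.rep (x c) * T ^ k * (D.rep (x c))⁻¹) * ((ε₀ : SL(2, ℤ)) * (ε₁ : SL(2, ℤ))⁻¹)⁻¹ := by
    calc (γ : SL(2, ℤ)) = g * T ^ k * g⁻¹ := hg
      _ = (ε₀ : SL(2, ℤ)) * (D.rep y * T ^ k * (D.rep y)⁻¹) * (ε₀ : SL(2, ℤ))⁻¹ := by
          rw [hg0]; group
      _ = _ := by rw [h1]; group
  have hmem : D.rep (x c) * T ^ k * (D.rep (x c))⁻¹ ∈ Γ := by
    have h3 : D.rep (x c) * T ^ k * (D.rep (x c))⁻¹
        = ((ε₁ * ε₀⁻¹ * γ * ε₀ * ε₁⁻¹ : Γ) : SL(2, ℤ)) := by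
      simp only [Subgroup.coe_mul, Subgroup.coe_inv]
      rw [h2]; group
    rw [h3]
    exact (ε₁ * ε₀⁻¹ * γ * ε₀ * ε₁⁻¹ : Γ).2
  have hkfix : D.act (T ^ k) (x c) = x c := (lrdc_act_eq_iff D _ _).mpr hmem
  obtain ⟨m, hm⟩ := lrdc_dvd_of_fixed D (hw c) (hfix c) (hmin c) hkfix
  refine ⟨c, m, ε₀ * ε₁⁻¹, ?_, ?_⟩
  · rcases Nat.eq_zero_or_pos m with h0 | h0
    · rw [h0, mul_zero] at hm; omega
    · exact h0
  · apply Subtype.ext
    simp only [Subgroup.coe_mul, Subgroup.coe_inv]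
    rw [lrdc_coe_gen_pow D (hfix c), ← hm, h2]

theorem lrdc_conj_unique (hw : ∀ c, 0 < w c) (hfix : ∀ c, D.act (T ^ w c) (x c) = x c)
    (hinj : ∀ c c' (k : ℕ), x c' = D.act (T ^ k) (x c) → c = c')
    (c c' : κ) (m m' : ℕ) (δ : Γ) (hm : 0 < m)
    (h : (D.eps (T ^ w c) (x c)) ^ m = δ * (D.eps (T ^ w c') (x c')) ^ m' * δ⁻¹) :
    c = c' ∧ m = m' := by
  have h' := congrArg (fun γ : Γ => (γ : SL(2, ℤ))) h
  simp only [Subgroup.coe_mul, Subgroup.coe_inv] at h'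
  rw [lrdc_coe_gen_pow D (hfix c), lrdc_coe_gen_pow D (hfix c')] at h'
  have h2 : ((D.rep (x c))⁻¹)⁻¹ * T ^ (w c * m) * (D.rep (x c))⁻¹
      = ((D.rep (x c'))⁻¹ * (δ : SL(2, ℤ))⁻¹)⁻¹ * T ^ (w c' * m')
        * ((D.rep (x c'))⁻¹ * (δ : SL(2, ℤ))⁻¹) := by
    rw [inv_inv, h']; group
  obtain ⟨hwm, j, hj⟩ := lrda_conj_T_unique (Nat.mul_pos (hw c) hm) h2
  have hx : x c' = D.act (T ^ (-j)) (x c) := by
    rcases hj with hj | hj
    · have h3 : D.rep (x c) * T ^ (-j) = ((δ : Γ) : SL(2, ℤ)) * D.rep (x c') := by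
        have h4 := congrArg (fun u : SL(2, ℤ) => u⁻¹) hj
        simp only [_root_.mul_inv_rev, inv_inv] at h4
        rw [_root_.zpow_neg, ← h4]
      exact (D.eq_of_rep_mul h3).1
    · have h3 : D.rep (x c) * T ^ (-j)
          = (((⟨-1, D.neg_mem⟩ : Γ) * δ : Γ) : SL(2, ℤ)) * D.rep (x c') := by
        have h4 := congrArg (fun u : SL(2, ℤ) => -(u⁻¹)) hj
        simp only [_root_.mul_inv_rev, inv_inv, inv_neg, neg_neg] at h4
        rw [_root_.zpow_neg, ← h4, Subgroup.coe_mul]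
        simp
      exact (D.eq_of_rep_mul h3).1
  obtain ⟨k, hk⟩ := lrdc_act_T_zpow D (-j) (x c)
  have hcc : c = c' := hinj c c' k (by rw [hx, hk])
  subst hcc
  exact ⟨rfl, Nat.eq_of_mul_eq_mul_left (hw c) hwm⟩

/-- **(c)** representatives `x c` of the `T`-orbits on `ι` with exact periods `w c` give a cusp
system with `gen c = D.eps (T ^ w c) (x c) = rep (x c) * T ^ w c * (rep (x c))⁻¹` -/
noncomputable def lrdcOfReps [Fintype κ] (hw : ∀ c, 0 < w c)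
    (hfix : ∀ c, D.act (T ^ w c) (x c) = x c)
    (hmin : ∀ c k, 0 < k → k < w c → D.act (T ^ k) (x c) ≠ x c)
    (hcov : ∀ y : ι, ∃ c, ∃ k : ℕ, y = D.act (T ^ k) (x c))
    (hinj : ∀ c c' (k : ℕ), x c' = D.act (T ^ k) (x c) → c = c') : LrdCusps Γ κ where
  gen c := D.eps (T ^ w c) (x c)
  pos c := lrdc_gen_pos D (hw c) (hfix c)
  conj_exists γ hγ := lrdc_conj_exists D x w hw hfix hmin hcov γ hγ
  conj_unique c c' m m' δ hm _ h := lrdc_conj_unique D x w hw hfix hinj c c' m m' δ hm h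

theorem lrdcOfReps_gen [Fintype κ] (hw : ∀ c, 0 < w c)
    (hfix : ∀ c, D.act (T ^ w c) (x c) = x c)
    (hmin : ∀ c k, 0 < k → k < w c → D.act (T ^ k) (x c) ≠ x c)
    (hcov : ∀ y : ι, ∃ c, ∃ k : ℕ, y = D.act (T ^ k) (x c))
    (hinj : ∀ c c' (k : ℕ), x c' = D.act (T ^ k) (x c) → c = c') (c : κ) :
    (lrdcOfReps D x w hw hfix hmin hcov hinj).gen c = D.eps (T ^ w c) (x c) := rfl

theorem lrdcOfReps_coe_gen [Fintype κ] (hw : ∀ c, 0 < w c)
    (hfix : ∀ c, D.act (T ^ w c) (x c) = x c)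
    (hmin : ∀ c k, 0 < k → k < w c → D.act (T ^ k) (x c) ≠ x c)
    (hcov : ∀ y : ι, ∃ c, ∃ k : ℕ, y = D.act (T ^ k) (x c))
    (hinj : ∀ c c' (k : ℕ), x c' = D.act (T ^ k) (x c) → c = c') (c : κ) :
    (((lrdcOfReps D x w hw hfix hmin hcov hinj).gen c : Γ) : SL(2, ℤ))
      = D.rep (x c) * T ^ w c * (D.rep (x c))⁻¹ :=
  lrdc_coe_eps_of_fixed D (hfix c)

end OfReps

/-! ### The canonical cusp system of a coset system -/

section Canonical

variable {Γ : Subgroup SL(2, ℤ)} {ι : Type} [Fintype ι] (D : LrdSys Γ ι)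

theorem lrdc_out_fix (c : lrdOrb D.sT) :
    D.act (T ^ Function.minimalPeriod D.sT (lrdOrbOut D.sT c)) (lrdOrbOut D.sT c)
      = lrdOrbOut D.sT c := by
  rw [lrdc_act_T_pow]
  exact lrdo_pow_minimalPeriod D.sT _

theorem lrdc_out_min (c : lrdOrb D.sT) (k : ℕ) (hk : 0 < k)
    (hlt : k < Function.minimalPeriod D.sT (lrdOrbOut D.sT c)) :
    D.act (T ^ k) (lrdOrbOut D.sT c) ≠ lrdOrbOut D.sT c := by
  rw [lrdc_act_T_pow, ← Equiv.Perm.iterate_eq_pow]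
  exact Function.not_isPeriodicPt_of_pos_of_lt_minimalPeriod hk.ne' hlt

theorem lrdc_out_cov (y : ι) :
    ∃ c : lrdOrb D.sT, ∃ k : ℕ, y = D.act (T ^ k) (lrdOrbOut D.sT c) := by
  refine ⟨lrdOrbMk D.sT y, ?_⟩
  have h : Equiv.Perm.SameCycle D.sT (lrdOrbOut D.sT (lrdOrbMk D.sT y)) y := by
    rw [← lrdOrbMk_eq_iff, lrdOrbMk_out]
  obtain ⟨k, hk⟩ := h.exists_nat_pow_eq
  exact ⟨k, by rw [lrdc_act_T_pow, hk]⟩

theorem lrdc_out_inj (c c' : lrdOrb D.sT) (k : ℕ)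
    (h : lrdOrbOut D.sT c' = D.act (T ^ k) (lrdOrbOut D.sT c)) : c = c' := by
  rw [lrdc_act_T_pow] at h
  have h1 := congrArg (lrdOrbMk D.sT) h
  rw [lrdOrbMk_pow_apply, lrdOrbMk_out, lrdOrbMk_out] at h1
  exact h1.symm

/-- **the canonical cusp system** of a coset system: one generator for each `T`-orbit on `ι` -/
noncomputable def lrdCuspsOf : LrdCusps Γ (lrdOrb D.sT) :=
  lrdcOfReps D (lrdOrbOut D.sT) (fun c => Function.minimalPeriod D.sT (lrdOrbOut D.sT c))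
    (fun _ => lrdo_minimalPeriod_pos D.sT _) (lrdc_out_fix D) (lrdc_out_min D)
    (lrdc_out_cov D) (lrdc_out_inj D)

theorem lrdCuspsOf_gen (c : lrdOrb D.sT) :
    (lrdCuspsOf D).gen c
      = D.eps (T ^ Function.minimalPeriod D.sT (lrdOrbOut D.sT c)) (lrdOrbOut D.sT c) := rfl

theorem lrdCuspsOf_coe_gen (c : lrdOrb D.sT) :
    (((lrdCuspsOf D).gen c : Γ) : SL(2, ℤ))
      = D.rep (lrdOrbOut D.sT c) * T ^ Function.minimalPeriod D.sT (lrdOrbOut D.sT c)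
        * (D.rep (lrdOrbOut D.sT c))⁻¹ :=
  lrdc_coe_eps_of_fixed D (lrdc_out_fix D c)

end Canonical

/-! ### Comparison of cusp systems; automorphisms -/

section Abstract

variable {Γ : Subgroup SL(2, ℤ)} {κ κ' : Type} [Fintype κ] [Fintype κ']

theorem lrdc_compare (C : LrdCusps Γ κ) (C' : LrdCusps Γ κ') (c : κ) :
    ∃ (c' : κ') (δ : Γ), C.gen c = δ * C'.gen c' * δ⁻¹ := by
  obtain ⟨c', m, δ, hm, h⟩ := C'.conj_exists (C.gen c) (C.pos c)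
  obtain ⟨c'', m', δ', hm', h'⟩ := C.conj_exists (C'.gen c') (C'.pos c')
  have h1 : C.gen c ^ 1 = (δ * δ') * C.gen c'' ^ (m' * m) * (δ * δ')⁻¹ := by
    rw [pow_one, h, h', conj_pow, ← pow_mul]; group
  obtain ⟨-, h2⟩ := C.conj_unique c c'' 1 (m' * m) _ one_pos (Nat.mul_pos hm' hm) h1
  have hm1 : m = 1 := Nat.eq_one_of_mul_eq_one_left h2.symm
  refine ⟨c', δ, ?_⟩
  rw [h, hm1, pow_one]

theorem lrdc_compare_inv (C : LrdCusps Γ κ) (C' : LrdCusps Γ κ') {c c'' : κ} {c' : κ'}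
    {δ δ' : Γ} (h : C.gen c = δ * C'.gen c' * δ⁻¹) (h' : C'.gen c' = δ' * C.gen c'' * δ'⁻¹) :
    c = c'' := by
  have h1 : C.gen c ^ 1 = (δ * δ') * C.gen c'' ^ 1 * (δ * δ')⁻¹ := by
    rw [pow_one, pow_one, h, h']; group
  exact (C.conj_unique c c'' 1 1 _ one_pos one_pos h1).1

/-- two cusp systems of `Γ` differ by a bijection of the index sets and `Γ`-conjugations -/
theorem lrdc_equiv (C : LrdCusps Γ κ) (C' : LrdCusps Γ κ') :
    ∃ τ : κ ≃ κ', ∀ c, ∃ δ : Γ, C.gen c = δ * C'.gen (τ c) * δ⁻¹ := by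
  choose τ δ hτ using lrdc_compare C C'
  choose τ' δ' hτ' using lrdc_compare C' C
  refine ⟨⟨τ, τ', fun c => ?_, fun c' => ?_⟩, fun c => ⟨δ c, hτ c⟩⟩
  · exact (lrdc_compare_inv C C' (hτ c) (hτ' (τ c))).symm
  · exact (lrdc_compare_inv C' C (hτ' c') (hτ (τ' c'))).symm

/-- the sum of a class function over the generators does not depend on the cusp system -/
theorem lrdc_sum_indep {A : Type*} [AddCommMonoid A] (C : LrdCusps Γ κ) (C' : LrdCusps Γ κ')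
    (F : Γ → A) (hF : ∀ γ δ : Γ, LrdPosPar (γ : SL(2, ℤ)) → F (δ * γ * δ⁻¹) = F γ) :
    ∑ c, F (C.gen c) = ∑ c', F (C'.gen c') := by
  obtain ⟨τ, hτ⟩ := lrdc_equiv C C'
  rw [← τ.sum_comp (fun c' => F (C'.gen c'))]
  refine Finset.sum_congr rfl fun c _ => ?_
  obtain ⟨δ, h⟩ := hτ c
  rw [h, hF _ _ (C'.pos _)]

/-- transport of a cusp system along an automorphism which preserves positive parabolic
elements -/
def lrdcMap (C : LrdCusps Γ κ) (θ : Γ ≃* Γ)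
    (hθ : ∀ γ : Γ, LrdPosPar (γ : SL(2, ℤ)) ↔ LrdPosPar ((θ γ : Γ) : SL(2, ℤ))) :
    LrdCusps Γ κ where
  gen c := θ (C.gen c)
  pos c := (hθ _).mp (C.pos c)
  conj_exists γ hγ := by
    have h1 : LrdPosPar ((θ.symm γ : Γ) : SL(2, ℤ)) := by
      rw [hθ, θ.apply_symm_apply]; exact hγ
    obtain ⟨c, m, δ, hm, h⟩ := C.conj_exists _ h1
    refine ⟨c, m, θ δ, hm, ?_⟩
    have h2 := congrArg θ h
    rw [θ.apply_symm_apply] at h2
    rw [h2, map_mul, map_mul, map_pow, map_inv]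
  conj_unique c c' m m' δ hm hm' h := by
    apply C.conj_unique c c' m m' (θ.symm δ) hm hm'
    apply θ.injective
    rw [map_pow, h, map_mul, map_mul, map_pow, map_inv, θ.apply_symm_apply]

theorem lrdcMap_gen (C : LrdCusps Γ κ) (θ : Γ ≃* Γ)
    (hθ : ∀ γ : Γ, LrdPosPar (γ : SL(2, ℤ)) ↔ LrdPosPar ((θ γ : Γ) : SL(2, ℤ))) (c : κ) :
    (lrdcMap C θ hθ).gen c = θ (C.gen c) := rfl

/-- **(d)** an automorphism of `Γ` preserving positive parabolic elements permutes the cusp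
classes (literal form of the sub-brief: two cusp systems) -/
theorem lrdc_perm (K : LrdCusps Γ κ) (K' : LrdCusps Γ κ') (θ : Γ ≃* Γ)
    (hθ : ∀ γ : Γ, LrdPosPar (γ : SL(2, ℤ)) ↔ LrdPosPar ((θ γ : Γ) : SL(2, ℤ))) :
    ∃ (σ : κ ≃ κ') (δ : κ → Γ), ∀ c, θ (K.gen c) = δ c * K'.gen (σ c) * (δ c)⁻¹ := by
  obtain ⟨σ, hσ⟩ := lrdc_equiv (lrdcMap K θ hθ) K'
  choose δ hδ using hσ
  exact ⟨σ, δ, hδ⟩

theorem lrdc_sum_perm {A : Type*} [AddCommMonoid A] (C : LrdCusps Γ κ) (θ : Γ ≃* Γ)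
    (hθ : ∀ γ : Γ, LrdPosPar (γ : SL(2, ℤ)) ↔ LrdPosPar ((θ γ : Γ) : SL(2, ℤ)))
    (F : Γ → A) (hF : ∀ γ δ : Γ, LrdPosPar (γ : SL(2, ℤ)) → F (δ * γ * δ⁻¹) = F γ) :
    ∑ c, F (θ (C.gen c)) = ∑ c, F (C.gen c) :=
  lrdc_sum_indep (lrdcMap C θ hθ) C F hF

end Abstract

end Fermat.Agent.LR
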