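/-
S41 / F2-(C) (helper6): the canonical pairing — final statements.

* `lrdk_exists_lift` : every pair of parabolic classes has a Heisenberg lift;
* `lrdk_compare`     : `P_can(ρ) = lrdB D φ ψ` for EVERY Heisenberg lift `ρ` of `(φ, ψ)`;
* `lrdk_invariance`  : `P_can(ρ ∘ θ) = P_can(ρ)` for automorphisms `θ` preserving positive
  parabolic elements;
* `lrdk_lrdB_invariant` : hence `lrdB D (φ ∘ θ) (ψ ∘ θ) = lrdB D φ ψ`.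
-/
import Mathlib
import Fermat.Agent.Lib.LR.Dual.CompareOrb
import Fermat.Agent.Lib.LR.Dual.CompareLift
import Fermat.Agent.Lib.LR.Dual.Cusp
import Fermat.Agent.Lib.LR.Dual.Pairing
import Fermat.Agent.Lib.LR.Dual.Cocycle

set_option autoImplicit false

namespace Fermat.Agent.LR

open Matrix MatrixGroups ModularGroup ModularCurve.Period

variable {Γ : Subgroup SL(2, ℤ)} {ι : Type} [Fintype ι] (D : LrdSys Γ ι)

include D in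
/-- **existence of Heisenberg lifts** -/
theorem lrdk_exists_lift (φ ψ : ↥(parabolicHoms ℤ Γ ℤ)) :
    ∃ ρ : Γ →* LrdHeis ℚ, LrdLift φ.1 ψ.1 ρ := by
  obtain ⟨u, w, hN⟩ := lrd_exists_norm D φ.1 φ.2
  obtain ⟨u', w', hN'⟩ := lrd_exists_norm D ψ.1 ψ.2
  have hw := lrdq_symb_of_norm D φ.1 hN
  have hw' := lrdq_symb_of_norm D ψ.1 hN'
  obtain ⟨ρ, h, hS, hR⟩ := lrds_exists_hom D
    (lrdqCS (fun y => (w y : ℚ)) (fun y => (w' y : ℚ)))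
    (lrdqCR D.sR (fun y => (w y : ℚ)) (fun y => (w' y : ℚ)))
    (lrdqCS_rel D hw hw') (lrdqCR_rel D hw hw')
  exact ⟨ρ, lrdq_lift_of_hom D φ.1 ψ.1 hN hN' ρ h hS hR⟩

/-- **comparison**: `P_can(ρ) = lrdB D φ ψ` for every Heisenberg lift `ρ` of `(φ, ψ)` -/
theorem lrdk_compare (φ ψ : ↥(parabolicHoms ℤ Γ ℤ)) (ρ : Γ →* LrdHeis ℚ)
    (hρ : LrdLift φ.1 ψ.1 ρ) : lrdPcan (lrdCuspsOf D) ρ = ((lrdB D φ ψ : ℤ) : ℚ) := by
  obtain ⟨u, w, hN⟩ := lrd_exists_norm D φ.1 φ.2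
  obtain ⟨u', w', hN'⟩ := lrd_exists_norm D ψ.1 ψ.2
  have h6 := lrdq_compare_six D (lrdCuspsOf D) (lrdCuspsOf_gen D) φ.1 ψ.1 ρ hρ hN hN'
  have hB := lrdB_six D φ ψ hN hN'
  have h : (6 : ℚ) * lrdPcan (lrdCuspsOf D) ρ = 6 * ((lrdB D φ ψ : ℤ) : ℚ) := by
    rw [h6, ← hB]
    push_cast
    ring
  linarith

/-- **invariance** of `P_can` under automorphisms preserving positive parabolic elements -/
theorem lrdk_invariance {κ κ' : Type} [Fintype κ] [Fintype κ'] (K : LrdCusps Γ κ)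
    (K' : LrdCusps Γ κ') (θ : Γ ≃* Γ)
    (hθ : ∀ γ : Γ, LrdPosPar (γ : SL(2, ℤ)) ↔ LrdPosPar ((θ γ : Γ) : SL(2, ℤ)))
    (ρ : Γ →* LrdHeis ℚ)
    (hc : ∀ γ : Γ, LrdPosPar (γ : SL(2, ℤ)) → (ρ γ).x = 0 ∧ (ρ γ).y = 0) :
    lrdPcan K (ρ.comp θ.toMonoidHom) = lrdPcan K' ρ :=
  lrdk_invariance_of_perm K K' θ (lrdc_perm K K' θ hθ) ρ hc

/-- a Heisenberg lift of parabolic classes is central on positive parabolic elements -/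
theorem lrdk_lift_central (φ ψ : ↥(parabolicHoms ℤ Γ ℤ)) (ρ : Γ →* LrdHeis ℚ)
    (hρ : LrdLift φ.1 ψ.1 ρ) (γ : Γ) (hγ : LrdPosPar (γ : SL(2, ℤ))) :
    (ρ γ).x = 0 ∧ (ρ γ).y = 0 := by
  have htr : ((γ : SL(2, ℤ)) : Matrix (Fin 2) (Fin 2) ℤ).trace ^ 2 = 4 := by
    rw [hγ.1]; norm_num
  rw [(hρ γ).1, (hρ γ).2, φ.2 γ htr, ψ.2 γ htr]
  simp

/-- **invariance of the pairing** under an automorphism `θ` of `Γ` preserving positive parabolic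
elements: `lrdB D (φ ∘ θ) (ψ ∘ θ) = lrdB D φ ψ`. -/
theorem lrdk_lrdB_invariant (θ : Γ ≃* Γ)
    (hθ : ∀ γ : Γ, LrdPosPar (γ : SL(2, ℤ)) ↔ LrdPosPar ((θ γ : Γ) : SL(2, ℤ)))
    (φ ψ φ' ψ' : ↥(parabolicHoms ℤ Γ ℤ))
    (hφ : ∀ γ : Γ, φ'.1 (Additive.ofMul γ) = φ.1 (Additive.ofMul (θ γ)))
    (hψ : ∀ γ : Γ, ψ'.1 (Additive.ofMul γ) = ψ.1 (Additive.ofMul (θ γ))) :
    lrdB D φ' ψ' = lrdB D φ ψ := by
  obtain ⟨ρ, hρ⟩ := lrdk_exists_lift D φ ψ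
  have hρ' : LrdLift φ'.1 ψ'.1 (ρ.comp θ.toMonoidHom) := by
    intro γ
    constructor
    · show (ρ (θ γ)).x = _
      rw [(hρ (θ γ)).1, hφ]
    · show (ρ (θ γ)).y = _
      rw [(hρ (θ γ)).2, hψ]
  have h1 := lrdk_compare D φ' ψ' _ hρ'
  have h2 := lrdk_compare D φ ψ ρ hρ
  have h3 := lrdk_invariance (lrdCuspsOf D) (lrdCuspsOf D) θ hθ ρ
    (lrdk_lift_central φ ψ ρ hρ)
  rw [h1, h2] at h3
  exact_mod_cast h3

end Fermat.Agent.LR
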