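/-
S41 / F2 duality, package (R) "res / cor in the model", part 1 (helper5).

Two coset systems `D₁ : LrdSys Γ₁ ι₁`, `D₂ : LrdSys Γ₂ ι₂` with `Γ₁ ≤ Γ₂`, and a two-group system
`C : T2fSys₂ Γ₁ Γ₂ I` with representatives in `Γ₂`:

* `lrdrPi : ι₁ → ι₂` (the projection `Γ₁ \ G → Γ₂ \ G`), equivariant, and the comparison of the
  Shapiro cocycles of `res φ` (`lrdr_coc_res`);
* the bijection `lrdrE : I × ι₂ → ι₁`, the push-forward `lrdrPush` (sum over the fibres of `π`),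
  its equivariance, the adjunction `lrdr_dot_adj`, and the Shapiro cocycle of `cor ψ`
  (`lrdr_coc_cor`);
* transport of witnesses (`lrdr_wit_res`) and of normalisations (`lrdr_norm_cor`).
-/
import Mathlib
import Fermat.Agent.Lib.LR.Dual.Defs
import Fermat.Agent.Lib.T2.F.Coset2

set_option autoImplicit false
set_option linter.unusedSectionVars false
set_option linter.unusedVariables false

namespace Fermat.Agent.LR

open Matrix MatrixGroups ModularGroup ModularCurve ModularCurve.Period Fermat.Agent.T2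

/-! ### the class map of a coset system -/

section Cls

variable {Γ : Subgroup SL(2, ℤ)} {ι : Type} [Fintype ι] (D : LrdSys Γ ι)

/-- the class of `h`: `Γ h = Γ rep (cls h)` -/
noncomputable def lrdrCls (h : SL(2, ℤ)) : ι := D.act h D.base

/-- the `Γ`-part of `h`: `h = gam h * rep (cls h)` -/
noncomputable def lrdrGam (h : SL(2, ℤ)) : Γ := D.eps h D.base

theorem lrdr_decomp (h : SL(2, ℤ)) :
    h = (lrdrGam D h : SL(2, ℤ)) * D.rep (lrdrCls D h) := by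
  have := D.rep_mul h D.base
  rwa [D.rep_base, one_mul] at this

/-- uniqueness of the decomposition -/
theorem lrdr_decomp_unique {h : SL(2, ℤ)} {γ : Γ} {x : ι} (hh : h = (γ : SL(2, ℤ)) * D.rep x) :
    x = lrdrCls D h ∧ γ = lrdrGam D h := by
  have h1 : D.rep D.base * h = (γ : SL(2, ℤ)) * D.rep x := by rw [D.rep_base, one_mul, hh]
  exact D.eq_of_rep_mul h1

theorem lrdr_cls_mul (h g : SL(2, ℤ)) : lrdrCls D (h * g) = D.act g (lrdrCls D h) :=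
  D.act_mul h g D.base

theorem lrdr_gam_mul (h g : SL(2, ℤ)) :
    lrdrGam D (h * g) = lrdrGam D h * D.eps g (lrdrCls D h) :=
  D.eps_mul h g D.base

theorem lrdr_cls_mem_mul (γ : Γ) (h : SL(2, ℤ)) :
    lrdrCls D ((γ : SL(2, ℤ)) * h) = lrdrCls D h := by
  unfold lrdrCls
  rw [D.act_mul, D.act_mem_base]

theorem lrdr_gam_mem_mul (γ : Γ) (h : SL(2, ℤ)) :
    lrdrGam D ((γ : SL(2, ℤ)) * h) = γ * lrdrGam D h := by
  unfold lrdrGam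
  rw [D.eps_mul, D.eps_mem_base, D.act_mem_base]

theorem lrdr_cls_rep (x : ι) : lrdrCls D (D.rep x) = x := D.act_rep_base x

theorem lrdr_gam_rep (x : ι) : lrdrGam D (D.rep x) = 1 := D.eps_rep_base x

theorem lrdr_cls_eq_of_mem {h h' : SL(2, ℤ)} (hm : h' * h⁻¹ ∈ Γ) :
    lrdrCls D h' = lrdrCls D h := by
  have h1 : h' = ((⟨h' * h⁻¹, hm⟩ : Γ) : SL(2, ℤ)) * h := by
    show h' = h' * h⁻¹ * h
    rw [inv_mul_cancel_right]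
  calc lrdrCls D h' = lrdrCls D (((⟨h' * h⁻¹, hm⟩ : Γ) : SL(2, ℤ)) * h) := by rw [← h1]
    _ = lrdrCls D h := lrdr_cls_mem_mul D _ h

theorem lrdr_mem_of_cls_eq {h h' : SL(2, ℤ)} (he : lrdrCls D h' = lrdrCls D h) :
    h' * h⁻¹ ∈ Γ := by
  have h1 := lrdr_decomp D h
  have h2 := lrdr_decomp D h'
  rw [he] at h2
  have h3 : h' * h⁻¹ = (lrdrGam D h' : SL(2, ℤ)) * ((lrdrGam D h : SL(2, ℤ)))⁻¹ := by
    rw [eq_mul_inv_iff_mul_eq]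
    calc h' * h⁻¹ * (lrdrGam D h : SL(2, ℤ))
        = h' * (h⁻¹ * (lrdrGam D h : SL(2, ℤ))) := mul_assoc _ _ _
      _ = h' * (D.rep (lrdrCls D h))⁻¹ := by
          congr 1
          rw [inv_mul_eq_iff_eq_mul, eq_mul_inv_iff_mul_eq]
          exact h1.symm
      _ = (lrdrGam D h' : SL(2, ℤ)) := by
          rw [mul_inv_eq_iff_eq_mul]
          exact h2
  rw [h3]
  exact Γ.mul_mem (lrdrGam D h').2 (Γ.inv_mem (lrdrGam D h).2)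

end Cls

/-! ### two coset systems: the projection `π` and restriction -/

section Two

variable {Γ₁ Γ₂ : Subgroup SL(2, ℤ)} (hle : Γ₁ ≤ Γ₂) {ι₁ ι₂ : Type} [Fintype ι₁] [Fintype ι₂]
  (D₁ : LrdSys Γ₁ ι₁) (D₂ : LrdSys Γ₂ ι₂)

/-- the projection `Γ₁ \ G → Γ₂ \ G` -/
noncomputable def lrdrPi (x₁ : ι₁) : ι₂ := lrdrCls D₂ (D₁.rep x₁)

/-- `rep₁ x₁ = kap x₁ * rep₂ (π x₁)` -/
noncomputable def lrdrKap (x₁ : ι₁) : Γ₂ := lrdrGam D₂ (D₁.rep x₁)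

theorem lrdr_rep_eq (x₁ : ι₁) :
    D₁.rep x₁ = (lrdrKap D₁ D₂ x₁ : SL(2, ℤ)) * D₂.rep (lrdrPi D₁ D₂ x₁) :=
  lrdr_decomp D₂ _

include hle in
/-- the class in `D₂` of an element is the projection of its class in `D₁` -/
theorem lrdr_pi_cls (h : SL(2, ℤ)) : lrdrPi D₁ D₂ (lrdrCls D₁ h) = lrdrCls D₂ h := by
  unfold lrdrPi
  apply lrdr_cls_eq_of_mem
  -- `rep₁ (cls₁ h) * h⁻¹ = (gam₁ h)⁻¹ ∈ Γ₁ ≤ Γ₂`
  have h1 := lrdr_decomp D₁ h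
  have h2 : D₁.rep (lrdrCls D₁ h) * h⁻¹ = ((lrdrGam D₁ h : SL(2, ℤ)))⁻¹ := by
    rw [mul_inv_eq_iff_eq_mul, eq_inv_mul_iff_mul_eq]
    exact h1.symm
  rw [h2]
  exact Γ₂.inv_mem (hle (lrdrGam D₁ h).2)

include hle in
/-- `π` is equivariant -/
theorem lrdr_pi_act (g : SL(2, ℤ)) (x₁ : ι₁) :
    lrdrPi D₁ D₂ (D₁.act g x₁) = D₂.act g (lrdrPi D₁ D₂ x₁) := by
  have h1 : D₁.act g x₁ = lrdrCls D₁ (D₁.rep x₁ * g) := by
    rw [lrdr_cls_mul, lrdr_cls_rep]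
  rw [h1, lrdr_pi_cls hle, lrdr_cls_mul]
  rfl

/-- comparison of the `eps` of the two systems -/
theorem lrdr_eps_eq (g : SL(2, ℤ)) (x₁ : ι₁) :
    Subgroup.inclusion hle (D₁.eps g x₁) * lrdrKap D₁ D₂ (D₁.act g x₁)
      = lrdrKap D₁ D₂ x₁ * D₂.eps g (lrdrPi D₁ D₂ x₁) := by
  -- both sides are the `Γ₂`-part of `rep₁ x₁ * g`
  have hA : lrdrGam D₂ (D₁.rep x₁ * g)
      = lrdrKap D₁ D₂ x₁ * D₂.eps g (lrdrPi D₁ D₂ x₁) := lrdr_gam_mul D₂ _ _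
  have hB : lrdrGam D₂ (D₁.rep x₁ * g)
      = Subgroup.inclusion hle (D₁.eps g x₁) * lrdrKap D₁ D₂ (D₁.act g x₁) := by
    rw [D₁.rep_mul g x₁]
    exact lrdr_gam_mem_mul D₂ (Subgroup.inclusion hle (D₁.eps g x₁)) _
  rw [← hA, ← hB]

/-- **the Shapiro cocycle of a restriction** -/
theorem lrdr_coc_res {A : Type*} [AddCommGroup A] (φ : Additive Γ₂ →+ A) (g : SL(2, ℤ))
    (x₁ : ι₁) :
    D₁.coc (t2fRes hle A φ) g x₁
      = D₂.coc φ g (lrdrPi D₁ D₂ x₁) + φ (Additive.ofMul (lrdrKap D₁ D₂ x₁))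
        - φ (Additive.ofMul (lrdrKap D₁ D₂ (D₁.act g x₁))) := by
  have h := congrArg (fun γ : Γ₂ => φ (Additive.ofMul γ)) (lrdr_eps_eq hle D₁ D₂ g x₁)
  simp only [ofMul_mul, map_add] at h
  unfold LrdSys.coc
  rw [t2fRes_apply, eq_sub_iff_add_eq, h, add_comm]

/-- **witnesses of a restriction** -/
theorem lrdr_wit_res (φ : Additive Γ₂ →+ ℤ) {u₁ u₂ : ι₂ → ℤ}
    (hW : LrdWit D₂.sS D₂.sR (D₂.coc φ S) (D₂.coc φ lrdR) u₁ u₂) :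
    LrdWit D₁.sS D₁.sR (D₁.coc (t2fRes hle ℤ φ) S) (D₁.coc (t2fRes hle ℤ φ) lrdR)
      (fun x₁ => u₁ (lrdrPi D₁ D₂ x₁) - φ (Additive.ofMul (lrdrKap D₁ D₂ x₁)))
      (fun x₁ => u₂ (lrdrPi D₁ D₂ x₁) - φ (Additive.ofMul (lrdrKap D₁ D₂ x₁))) := by
  refine ⟨fun x₁ => ?_, fun x₁ => ?_⟩
  · beta_reduce
    rw [lrdr_coc_res hle D₁ D₂ φ S x₁, hW.1, LrdSys.sS_apply, LrdSys.sS_apply,
      lrdr_pi_act hle D₁ D₂]
    ring
  · beta_reduce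
    rw [lrdr_coc_res hle D₁ D₂ φ lrdR x₁, hW.2, LrdSys.sR_apply, LrdSys.sR_apply,
      lrdr_pi_act hle D₁ D₂]
    ring

end Two

/-! ### the fibres of `π` and corestriction -/

section Cor

variable {Γ₁ Γ₂ : Subgroup SL(2, ℤ)} (hle : Γ₁ ≤ Γ₂) {ι₁ ι₂ I : Type} [Fintype ι₁] [Fintype ι₂]
  [Fintype I] (D₁ : LrdSys Γ₁ ι₁) (D₂ : LrdSys Γ₂ ι₂) {C : T2fSys₂ Γ₁ Γ₂ I}
  (hC : ∀ i, ∃ g : SL(2, ℤ), g ∈ Γ₂ ∧ C.rep i = (g : Matrix (Fin 2) (Fin 2) ℤ))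

/-- the representative `g_i ∈ Γ₂` of the two-group system -/
noncomputable def lrdrG (i : I) : SL(2, ℤ) := (hC i).choose

theorem lrdrG_mem (i : I) : lrdrG hC i ∈ Γ₂ := (hC i).choose_spec.1

theorem lrdrG_coe (i : I) : C.rep i = (lrdrG hC i : Matrix (Fin 2) (Fin 2) ℤ) :=
  (hC i).choose_spec.2

/-- `g_i * δ = ε_i(δ) * g_{σ_δ i}` in `SL(2, ℤ)` -/
theorem lrdrG_mul (δ : Γ₂) (i : I) :
    lrdrG hC i * (δ : SL(2, ℤ)) = ((C.eps δ i : Γ₁) : SL(2, ℤ)) * lrdrG hC (C.sigma δ i) := by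
  apply Subtype.ext
  rw [Matrix.SpecialLinearGroup.coe_mul, Matrix.SpecialLinearGroup.coe_mul, ← lrdrG_coe hC,
    ← lrdrG_coe hC]
  exact C.rep_mul δ i

/-- the bijection `I × ι₂ → ι₁`, `(i, x₂) ↦ class of g_i * rep₂ x₂` -/
noncomputable def lrdrE (p : I × ι₂) : ι₁ := lrdrCls D₁ (lrdrG hC p.1 * D₂.rep p.2)

/-- the `Γ₁`-part of `g_i * rep₂ x₂` -/
noncomputable def lrdrN (p : I × ι₂) : Γ₁ := lrdrGam D₁ (lrdrG hC p.1 * D₂.rep p.2)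

theorem lrdr_E_decomp (p : I × ι₂) :
    lrdrG hC p.1 * D₂.rep p.2 = (lrdrN D₁ D₂ hC p : SL(2, ℤ)) * D₁.rep (lrdrE D₁ D₂ hC p) :=
  lrdr_decomp D₁ _

include hle in
theorem lrdr_pi_E (p : I × ι₂) : lrdrPi D₁ D₂ (lrdrE D₁ D₂ hC p) = p.2 := by
  unfold lrdrE
  rw [lrdr_pi_cls hle]
  have := lrdr_cls_mem_mul D₂ ⟨lrdrG hC p.1, lrdrG_mem hC p.1⟩ (D₂.rep p.2)
  exact this.trans (lrdr_cls_rep D₂ p.2)

include hle in
theorem lrdr_E_injective : Function.Injective (lrdrE D₁ D₂ hC) := by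
  rintro ⟨i, x₂⟩ ⟨j, y₂⟩ h
  have hx : x₂ = y₂ := by
    have := congrArg (lrdrPi D₁ D₂) h
    rwa [lrdr_pi_E hle, lrdr_pi_E hle] at this
  subst hx
  have hm := lrdr_mem_of_cls_eq D₁ h
  have hm' : lrdrG hC i * (lrdrG hC j)⁻¹ ∈ Γ₁ := by
    have e : lrdrG hC i * D₂.rep x₂ * (lrdrG hC j * D₂.rep x₂)⁻¹
        = lrdrG hC i * (lrdrG hC j)⁻¹ := by
      rw [_root_.mul_inv_rev, mul_assoc, mul_inv_cancel_left]
    rwa [← e]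
  have key := C.eq_of_rep_mul (δ := 1) (i := i) (j := j) (ε := ⟨_, hm'⟩) (by
    rw [lrdrG_coe hC i, lrdrG_coe hC j, ← Matrix.SpecialLinearGroup.coe_mul,
      ← Matrix.SpecialLinearGroup.coe_mul]
    congr 1
    show lrdrG hC i * 1 = lrdrG hC i * (lrdrG hC j)⁻¹ * lrdrG hC j
    rw [mul_one, inv_mul_cancel_right])
  have hji : j = i := by rw [key.1, C.sigmaFun_one]
  rw [hji]

theorem lrdr_E_surjective [Nonempty I] : Function.Surjective (lrdrE D₁ D₂ hC) := by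
  intro x₁
  obtain ⟨i₀⟩ := ‹Nonempty I›
  set δ : Γ₂ := ⟨(lrdrG hC i₀)⁻¹, Γ₂.inv_mem (lrdrG_mem hC i₀)⟩ * lrdrKap D₁ D₂ x₁ with hδ
  have h1 := lrdrG_mul hC δ i₀
  have h2 : lrdrG hC i₀ * (δ : SL(2, ℤ)) = (lrdrKap D₁ D₂ x₁ : SL(2, ℤ)) := by
    rw [hδ, Subgroup.coe_mul]
    show lrdrG hC i₀ * ((lrdrG hC i₀)⁻¹ * (lrdrKap D₁ D₂ x₁ : SL(2, ℤ))) = _
    rw [mul_inv_cancel_left]
  refine ⟨(C.sigma δ i₀, lrdrPi D₁ D₂ x₁), ?_⟩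
  unfold lrdrE
  have h3 : lrdrG hC (C.sigma δ i₀) * D₂.rep (lrdrPi D₁ D₂ x₁)
      = (((C.eps δ i₀)⁻¹ : Γ₁) : SL(2, ℤ)) * D₁.rep x₁ := by
    rw [lrdr_rep_eq D₁ D₂ x₁, ← h2, h1, Subgroup.coe_inv, mul_assoc, inv_mul_cancel_left]
  show lrdrCls D₁ (lrdrG hC (C.sigma δ i₀) * D₂.rep (lrdrPi D₁ D₂ x₁)) = x₁
  rw [h3, lrdr_cls_mem_mul, lrdr_cls_rep]

include hle in
theorem lrdr_E_bijective [Nonempty I] : Function.Bijective (lrdrE D₁ D₂ hC) :=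
  ⟨lrdr_E_injective hle D₁ D₂ hC, lrdr_E_surjective D₁ D₂ hC⟩

/-- equivariance of `E` and the comparison of the `Γ₁`-parts -/
theorem lrdr_E_act (g : SL(2, ℤ)) (i : I) (x₂ : ι₂) :
    D₁.act g (lrdrE D₁ D₂ hC (i, x₂))
        = lrdrE D₁ D₂ hC (C.sigma (D₂.eps g x₂) i, D₂.act g x₂) ∧
      lrdrN D₁ D₂ hC (i, x₂) * D₁.eps g (lrdrE D₁ D₂ hC (i, x₂))
        = C.eps (D₂.eps g x₂) i * lrdrN D₁ D₂ hC (C.sigma (D₂.eps g x₂) i, D₂.act g x₂) := by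
  have e : lrdrG hC i * D₂.rep x₂ * g
      = ((C.eps (D₂.eps g x₂) i : Γ₁) : SL(2, ℤ))
        * (lrdrG hC (C.sigma (D₂.eps g x₂) i) * D₂.rep (D₂.act g x₂)) := by
    rw [mul_assoc, D₂.rep_mul g x₂, ← mul_assoc, lrdrG_mul hC, mul_assoc]
  constructor
  · have h1 : lrdrCls D₁ (lrdrG hC i * D₂.rep x₂ * g) = D₁.act g (lrdrE D₁ D₂ hC (i, x₂)) :=
      lrdr_cls_mul D₁ _ g
    rw [← h1, e, lrdr_cls_mem_mul]
    rfl
  · have h1 : lrdrGam D₁ (lrdrG hC i * D₂.rep x₂ * g)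
        = lrdrN D₁ D₂ hC (i, x₂) * D₁.eps g (lrdrE D₁ D₂ hC (i, x₂)) :=
      lrdr_gam_mul D₁ _ g
    rw [← h1, e, lrdr_gam_mem_mul]
    rfl

/-- the push-forward (sum over the fibres of `π`) -/
noncomputable def lrdrPush (f : ι₁ → ℤ) (x₂ : ι₂) : ℤ := ∑ i : I, f (lrdrE D₁ D₂ hC (i, x₂))

theorem lrdr_push_add (f f' : ι₁ → ℤ) (x₂ : ι₂) :
    lrdrPush D₁ D₂ hC (fun x => f x + f' x) x₂
      = lrdrPush D₁ D₂ hC f x₂ + lrdrPush D₁ D₂ hC f' x₂ :=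
  Finset.sum_add_distrib

theorem lrdr_push_sub (f f' : ι₁ → ℤ) (x₂ : ι₂) :
    lrdrPush D₁ D₂ hC (fun x => f x - f' x) x₂
      = lrdrPush D₁ D₂ hC f x₂ - lrdrPush D₁ D₂ hC f' x₂ :=
  Finset.sum_sub_distrib _ _

/-- the push-forward is equivariant -/
theorem lrdr_push_act (f : ι₁ → ℤ) (g : SL(2, ℤ)) (x₂ : ι₂) :
    lrdrPush D₁ D₂ hC (fun x₁ => f (D₁.act g x₁)) x₂ = lrdrPush D₁ D₂ hC f (D₂.act g x₂) := by
  unfold lrdrPush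
  rw [← Equiv.sum_comp (C.sigma (D₂.eps g x₂))
    (fun i => f (lrdrE D₁ D₂ hC (i, D₂.act g x₂)))]
  refine Finset.sum_congr rfl fun i _ => ?_
  beta_reduce
  rw [(lrdr_E_act D₁ D₂ hC g i x₂).1]

include hle in
/-- **adjunction** `⟨a ∘ π, b⟩₁ = ⟨a, π_* b⟩₂` -/
theorem lrdr_dot_adj [Nonempty I] (a : ι₂ → ℤ) (b : ι₁ → ℤ) :
    lrdDot (fun x₁ => a (lrdrPi D₁ D₂ x₁)) b = lrdDot a (lrdrPush D₁ D₂ hC b) := by
  unfold lrdDot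
  have h1 : ∑ x₁, a (lrdrPi D₁ D₂ x₁) * b x₁
      = ∑ p : I × ι₂, a p.2 * b (lrdrE D₁ D₂ hC p) := by
    refine (Fintype.sum_bijective (lrdrE D₁ D₂ hC) (lrdr_E_bijective hle D₁ D₂ hC) _ _ ?_).symm
    intro p
    rw [lrdr_pi_E hle]
  rw [h1, Fintype.sum_prod_type_right]
  refine Finset.sum_congr rfl fun x₂ _ => ?_
  unfold lrdrPush
  rw [Finset.mul_sum]

/-- the correction term of the corestriction -/
noncomputable def lrdrM (ψ : Additive Γ₁ →+ ℤ) (x₂ : ι₂) : ℤ :=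
  ∑ i : I, ψ (Additive.ofMul (lrdrN D₁ D₂ hC (i, x₂)))

/-- **the Shapiro cocycle of a corestriction** -/
theorem lrdr_coc_cor (ψ : Additive Γ₁ →+ ℤ) (g : SL(2, ℤ)) (x₂ : ι₂) :
    D₂.coc (C.cor ℤ ψ) g x₂
      = lrdrPush D₁ D₂ hC (D₁.coc ψ g) x₂ + lrdrM D₁ D₂ hC ψ x₂
        - lrdrM D₁ D₂ hC ψ (D₂.act g x₂) := by
  unfold LrdSys.coc
  rw [T2fSys₂.cor_apply]
  have key : ∀ i : I, ψ (Additive.ofMul (C.eps (D₂.eps g x₂) i))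
      = ψ (Additive.ofMul (D₁.eps g (lrdrE D₁ D₂ hC (i, x₂))))
        + ψ (Additive.ofMul (lrdrN D₁ D₂ hC (i, x₂)))
        - ψ (Additive.ofMul (lrdrN D₁ D₂ hC (C.sigma (D₂.eps g x₂) i, D₂.act g x₂))) := by
    intro i
    have h := congrArg (fun γ : Γ₁ => ψ (Additive.ofMul γ)) (lrdr_E_act D₁ D₂ hC g i x₂).2
    simp only [ofMul_mul, map_add] at h
    rw [eq_sub_iff_add_eq, ← h, add_comm]
  rw [Finset.sum_congr rfl fun i _ => key i, Finset.sum_sub_distrib, Finset.sum_add_distrib]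
  unfold lrdrPush lrdrM
  rw [Equiv.sum_comp (C.sigma (D₂.eps g x₂))
    (fun i => ψ (Additive.ofMul (lrdrN D₁ D₂ hC (i, D₂.act g x₂))))]

/-- **normalisation of a corestriction** -/
theorem lrdr_norm_cor (ψ : Additive Γ₁ →+ ℤ) {u w : ι₁ → ℤ}
    (hN : LrdNorm D₁.sS D₁.sR (D₁.coc ψ S) (D₁.coc ψ lrdR) u w) :
    LrdNorm D₂.sS D₂.sR (D₂.coc (C.cor ℤ ψ) S) (D₂.coc (C.cor ℤ ψ) lrdR)
      (fun x₂ => lrdrPush D₁ D₂ hC u x₂ + lrdrM D₁ D₂ hC ψ x₂) (lrdrPush D₁ D₂ hC w) := by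
  refine ⟨fun x₂ => ?_, fun x₂ => ?_⟩
  · beta_reduce
    have h1 : lrdrPush D₁ D₂ hC w x₂
        = lrdrPush D₁ D₂ hC (D₁.coc ψ S) x₂ + lrdrPush D₁ D₂ hC u (D₂.act S x₂)
          - lrdrPush D₁ D₂ hC u x₂ := by
      rw [← lrdr_push_act D₁ D₂ hC u S x₂, ← lrdr_push_add, ← lrdr_push_sub]
      unfold lrdrPush
      refine Finset.sum_congr rfl fun i _ => ?_
      rw [hN.1]
      rfl
    rw [h1, lrdr_coc_cor D₁ D₂ hC ψ S x₂, LrdSys.sS_apply]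
    ring
  · beta_reduce
    have h1 : lrdrPush D₁ D₂ hC w x₂
        = lrdrPush D₁ D₂ hC (D₁.coc ψ lrdR) x₂ + lrdrPush D₁ D₂ hC u (D₂.act lrdR x₂)
          - lrdrPush D₁ D₂ hC u x₂ := by
      rw [← lrdr_push_act D₁ D₂ hC u lrdR x₂, ← lrdr_push_add, ← lrdr_push_sub]
      unfold lrdrPush
      refine Finset.sum_congr rfl fun i _ => ?_
      rw [hN.2]
      rfl
    rw [h1, lrdr_coc_cor D₁ D₂ hC ψ lrdR x₂, LrdSys.sR_apply]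
    ring

end Cor

end Fermat.Agent.LR
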