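/-
S41 / F2 duality, package (R) "res / cor in the model", part 2 (helper5): the adjunction
`B₁ (res x) y = B₂ x (cor y)` for any pairings satisfying the specification of `lrdB`
(`lrdB_spec`): `B φ ψ = ⟨u₁ - u₂, w⟩` for witnesses `(u₁, u₂)` of `φ` and a normalised symbol `w`
of `ψ`.
-/
import Mathlib
import Fermat.Agent.Lib.LR.Dual.ResCorAux

set_option autoImplicit false
set_option linter.unusedSectionVars false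
set_option linter.unusedVariables false

namespace Fermat.Agent.LR

open Matrix MatrixGroups ModularGroup ModularCurve ModularCurve.Period Fermat.Agent.T2

section Main

variable {Γ₁ Γ₂ : Subgroup SL(2, ℤ)} (hle : Γ₁ ≤ Γ₂) {ι₁ ι₂ I : Type} [Fintype ι₁] [Fintype ι₂]
  [Fintype I] [Nonempty I] (D₁ : LrdSys Γ₁ ι₁) (D₂ : LrdSys Γ₂ ι₂) (C : T2fSys₂ Γ₁ Γ₂ I)
  (hC : ∀ i, ∃ g : SL(2, ℤ), g ∈ Γ₂ ∧ C.rep i = (g : Matrix (Fin 2) (Fin 2) ℤ))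

include hC in
/-- **res / cor adjunction**, abstract form: `B₁`, `B₂` any functions satisfying the
specification of the model pairing. -/
theorem lrdr_res_cor_of_spec
    (B₁ : ↥(parabolicHoms ℤ Γ₁ ℤ) → ↥(parabolicHoms ℤ Γ₁ ℤ) → ℤ)
    (B₂ : ↥(parabolicHoms ℤ Γ₂ ℤ) → ↥(parabolicHoms ℤ Γ₂ ℤ) → ℤ)
    (hB₁ : ∀ (φ ψ : ↥(parabolicHoms ℤ Γ₁ ℤ)) (u₁ u₂ u w : ι₁ → ℤ),
      LrdWit D₁.sS D₁.sR (D₁.coc φ.1 S) (D₁.coc φ.1 lrdR) u₁ u₂ →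
      LrdNorm D₁.sS D₁.sR (D₁.coc ψ.1 S) (D₁.coc ψ.1 lrdR) u w →
      B₁ φ ψ = lrdDot (u₁ - u₂) w)
    (hB₂ : ∀ (φ ψ : ↥(parabolicHoms ℤ Γ₂ ℤ)) (u₁ u₂ u w : ι₂ → ℤ),
      LrdWit D₂.sS D₂.sR (D₂.coc φ.1 S) (D₂.coc φ.1 lrdR) u₁ u₂ →
      LrdNorm D₂.sS D₂.sR (D₂.coc ψ.1 S) (D₂.coc ψ.1 lrdR) u w →
      B₂ φ ψ = lrdDot (u₁ - u₂) w)
    (hwit : ∀ φ : Additive Γ₂ →+ ℤ,
      ∃ u₁ u₂ : ι₂ → ℤ, LrdWit D₂.sS D₂.sR (D₂.coc φ S) (D₂.coc φ lrdR) u₁ u₂)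
    (hnorm : ∀ ψ : Additive Γ₁ →+ ℤ, IsParabolicHom Γ₁ ψ →
      ∃ u w : ι₁ → ℤ, LrdNorm D₁.sS D₁.sR (D₁.coc ψ S) (D₁.coc ψ lrdR) u w)
    (x : ↥(parabolicHoms ℤ Γ₂ ℤ)) (y : ↥(parabolicHoms ℤ Γ₁ ℤ)) :
    B₁ (t2fResPar hle ℤ ℤ x) y = B₂ x (C.corPar ℤ ℤ y) := by
  obtain ⟨u₁, u₂, hW⟩ := hwit x.1
  obtain ⟨u, w, hN⟩ := hnorm y.1 y.2
  have hW₁ := lrdr_wit_res hle D₁ D₂ x.1 hW
  have hN₂ := lrdr_norm_cor D₁ D₂ hC y.1 hN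
  rw [hB₁ (t2fResPar hle ℤ ℤ x) y _ _ u w hW₁ hN, hB₂ x (C.corPar ℤ ℤ y) u₁ u₂ _ _ hW hN₂,
    ← lrdr_dot_adj hle D₁ D₂ hC]
  congr 1
  funext x₁
  simp only [Pi.sub_apply]
  ring

end Main

end Fermat.Agent.LR
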