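/-
S41 / F2 duality, package (R) (helper5): **the res / cor adjunction for the pairing `lrdB`**,
literal target `lrdr_res_cor` of the F2 sub-brief.
-/
import Mathlib
import Fermat.Agent.Lib.LR.Dual.ResCor
import Fermat.Agent.Lib.LR.Dual.Pairing

set_option autoImplicit false

namespace Fermat.Agent.LR

open Matrix MatrixGroups ModularGroup ModularCurve ModularCurve.Period Fermat.Agent.T2

/-- **res / cor adjunction**: `lrdB D₁ (res x) y = lrdB D₂ x (cor y)` for `Γ₁ ≤ Γ₂`, arbitrary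
coset systems `D₁`, `D₂` and an arbitrary two-group system `C` with representatives in `Γ₂`. -/
theorem lrdr_res_cor {Γ₁ Γ₂ : Subgroup SL(2, ℤ)} (hle : Γ₁ ≤ Γ₂) {ι₁ ι₂ I : Type} [Fintype ι₁]
    [Fintype ι₂] [Fintype I] [Nonempty I] (D₁ : LrdSys Γ₁ ι₁) (D₂ : LrdSys Γ₂ ι₂)
    (C : T2fSys₂ Γ₁ Γ₂ I)
    (hC : ∀ i, ∃ g : SL(2, ℤ), g ∈ Γ₂ ∧ C.rep i = (g : Matrix (Fin 2) (Fin 2) ℤ))
    (x : ↥(parabolicHoms ℤ Γ₂ ℤ)) (y : ↥(parabolicHoms ℤ Γ₁ ℤ)) :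
    lrdB D₁ (t2fResPar hle ℤ ℤ x) y = lrdB D₂ x (C.corPar ℤ ℤ y) :=
  lrdr_res_cor_of_spec hle D₁ D₂ C hC (fun φ ψ => lrdB D₁ φ ψ) (fun φ ψ => lrdB D₂ φ ψ)
    (fun φ ψ _ _ _ _ hW hN => lrdB_spec D₁ φ ψ hW hN)
    (fun φ ψ _ _ _ _ hW hN => lrdB_spec D₂ φ ψ hW hN)
    (lrd_exists_wit D₂) (lrd_exists_norm D₁) x y

/-- independence of the coset system: two systems for the same group give the same pairing -/
theorem lrdr_indep {Γ : Subgroup SL(2, ℤ)} {ι₁ ι₂ : Type} [Fintype ι₁] [Fintype ι₂]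
    (D₁ : LrdSys Γ ι₁) (D₂ : LrdSys Γ ι₂) (x y : ↥(parabolicHoms ℤ Γ ℤ)) :
    lrdB D₁ x y = lrdB D₂ x y := by
  -- the trivial two-group system `Γ ≤ Γ`, `I = Unit`, `rep = 1`
  let C : T2fSys₂ Γ Γ Unit :=
    { rep := fun _ => 1
      det_pos := fun _ => by simp
      perm := fun δ i => ⟨(), ⟨δ, by simp⟩, fun _ _ => rfl⟩ }
  have hC : ∀ i, ∃ g : SL(2, ℤ), g ∈ Γ ∧ C.rep i = (g : Matrix (Fin 2) (Fin 2) ℤ) :=
    fun _ => ⟨1, Γ.one_mem, by simp [C]⟩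
  have h := lrdr_res_cor (le_refl Γ) D₁ D₂ C hC x y
  have hres : t2fResPar (le_refl Γ) ℤ ℤ x = x := by
    apply Subtype.ext
    refine AddMonoidHom.ext fun γ => ?_
    obtain ⟨γ, rfl⟩ := Additive.ofMul.surjective γ
    rfl
  have hcor : C.corPar ℤ ℤ y = y := by
    apply Subtype.ext
    refine AddMonoidHom.ext fun γ => ?_
    obtain ⟨γ, rfl⟩ := Additive.ofMul.surjective γ
    rw [T2fSys₂.corPar_coe, T2fSys₂.cor_apply, Fintype.sum_unique]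
    have he : C.eps γ default = γ := by
      have h1 : C.rep default * ((γ : SL(2, ℤ)) : Matrix (Fin 2) (Fin 2) ℤ)
          = ((γ : SL(2, ℤ)) : Matrix (Fin 2) (Fin 2) ℤ) * C.rep default := by
        simp [C]
      exact ((C.eq_of_rep_mul h1).2).symm
    rw [he]
  rw [hres, hcor] at h
  exact h

end Fermat.Agent.LR
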