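/-
S41 / F2 (Poincaré duality on the lattices `L_M = tdmL M`): the FINAL INTERFACE.

`lrdBN M` := the pairing `lrdB` of the standard coset system of `Γ₀(M)` in `SL(2, ℤ)`; the four facts
consumed by `lrm_main` (`LrmDual`): alternating, unimodular, res/cor adjunction, `w_q`-invariance.
Plugs: `lrdB_alt` (Pairing), `lrdB_unimodular_of` + `lrd_existsHom_of` + `lrds_exists_hom`
(Unimod, Cocycle), `lrdr_res_cor` (ResCorMain), `lrdk_lrdB_invariant` (CanonMain) with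
`lrdcW`, `lrdcW_pospar`, `lrdc_W_homPar` (ALW).
-/
import Mathlib
import Fermat.Agent.Lib.LR.Dual.Pairing
import Fermat.Agent.Lib.LR.Dual.Unimod
import Fermat.Agent.Lib.LR.Dual.Cocycle
import Fermat.Agent.Lib.LR.Dual.ResCorMain
import Fermat.Agent.Lib.LR.Dual.CanonMain
import Fermat.Agent.Lib.LR.Dual.ALW
import Fermat.Agent.Lib.LR.HeckeLat

set_option autoImplicit false
set_option linter.unusedSectionVars false
set_option linter.unusedVariables false
set_option linter.style.haveILetI false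

open Matrix MatrixGroups ModularGroup CongruenceSubgroup ModularCurve ModularCurve.Period
open Fermat.Agent.T1 Fermat.Agent.T2

namespace Fermat.Agent.LR

noncomputable section

/-- `-1 ∈ Γ₀(M)` -/
theorem lrdz_neg_one_mem (M : ℕ) : (-1 : SL(2, ℤ)) ∈ Gamma0 M := by
  rw [Gamma0_mem]
  simp

/-- the standard right-coset system of `Γ₀(M)` in `SL(2, ℤ)` -/
def lrdzSys (M : ℕ) [NeZero M] :
    @LrdSys (Gamma0 M) (SL(2, ℤ) ⧸ Gamma0 M) Subgroup.fintypeQuotientOfFiniteIndex :=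
  lrdSysOf (Gamma0 M) (lrdz_neg_one_mem M)

/-- **the duality pairing on `L_M`** -/
def lrdBN (M : ℕ) [NeZero M] : ↥(tdmL M) →ₗ[ℤ] ↥(tdmL M) →ₗ[ℤ] ℤ :=
  @lrdB (Gamma0 M) (SL(2, ℤ) ⧸ Gamma0 M) Subgroup.fintypeQuotientOfFiniteIndex (lrdzSys M)

/-- alternating -/
theorem lrdBN_alt (M : ℕ) [NeZero M] (x : ↥(tdmL M)) : lrdBN M x x = 0 := by
  letI : Fintype (SL(2, ℤ) ⧸ Gamma0 M) := Subgroup.fintypeQuotientOfFiniteIndex
  exact lrdB_alt (lrdzSys M) x

/-- unimodular -/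
theorem lrdBN_unimodular (M : ℕ) [NeZero M] (f : ↥(tdmL M) →ₗ[ℤ] ℤ) :
    ∃ x, ∀ y, lrdBN M x y = f y := by
  letI : Fintype (SL(2, ℤ) ⧸ Gamma0 M) := Subgroup.fintypeQuotientOfFiniteIndex
  exact lrdB_unimodular_of (lrdzSys M)
    (lrd_existsHom_of (lrdzSys M) fun cS cR hS hR => lrds_exists_hom (lrdzSys M) cS cR hS hR) f

/-- res / cor adjunction -/
theorem lrdBN_res_cor (N q : ℕ) [NeZero N] [Fact q.Prime] (h : ¬ q ∣ N) (x : ↥(tdmL N))
    (y : ↥(tdmL (N * q))) :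
    lrdBN (N * q) (lrhRes N q x) y = lrdBN N x (lrhCor N q h y) := by
  letI : Fintype (SL(2, ℤ) ⧸ Gamma0 N) := Subgroup.fintypeQuotientOfFiniteIndex
  letI : Fintype (SL(2, ℤ) ⧸ Gamma0 (N * q)) := Subgroup.fintypeQuotientOfFiniteIndex
  exact lrdr_res_cor (t2f5_Gamma0_le N q) (lrdzSys (N * q)) (lrdzSys N) (t2fSysC N q h)
    (fun i => ⟨(t2fRepC N q h i : SL(2, ℤ)), (t2fRepC N q h i).2, rfl⟩) x y

/-- invariance under the Atkin–Lehner involution `w_q` -/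
theorem lrdBN_w (N q : ℕ) [NeZero N] [Fact q.Prime] (h : ¬ q ∣ N) (x y : ↥(tdmL (N * q))) :
    lrdBN (N * q) (lrhW N q h x) (lrhW N q h y) = lrdBN (N * q) x y := by
  letI : Fintype (SL(2, ℤ) ⧸ Gamma0 (N * q)) := Subgroup.fintypeQuotientOfFiniteIndex
  exact lrdk_lrdB_invariant (lrdzSys (N * q)) (lrdcW N q h) (lrdcW_pospar N q h) x y
    (lrhW N q h x) (lrhW N q h y) (fun γ => lrdc_W_homPar N q h x γ)
    (fun γ => lrdc_W_homPar N q h y γ)

end

end Fermat.Agent.LR
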