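/-
S41 / F2 duality, package (C) "Canon", helper5: the Heisenberg group `Heis(A) = A × A × A`,
`(a,b,c)(a',b',c') = (a+a', b+b', c+c'+a*b')`.
-/
import Mathlib

set_option autoImplicit false

namespace Fermat.Agent.LR

/-- the Heisenberg group over a commutative ring -/
@[ext]
structure LrdkHeis (A : Type*) where
  /-- first coordinate -/
  a : A
  /-- second coordinate -/
  b : A
  /-- central coordinate -/
  c : A

namespace LrdkHeis

variable {A : Type*} [CommRing A]

instance : Mul (LrdkHeis A) := ⟨fun x y => ⟨x.a + y.a, x.b + y.b, x.c + y.c + x.a * y.b⟩⟩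

instance : One (LrdkHeis A) := ⟨⟨0, 0, 0⟩⟩

instance : Inv (LrdkHeis A) := ⟨fun x => ⟨-x.a, -x.b, -x.c + x.a * x.b⟩⟩

@[simp] theorem lrdkHeis_mul_a (x y : LrdkHeis A) : (x * y).a = x.a + y.a := rfl
@[simp] theorem lrdkHeis_mul_b (x y : LrdkHeis A) : (x * y).b = x.b + y.b := rfl
@[simp] theorem lrdkHeis_mul_c (x y : LrdkHeis A) : (x * y).c = x.c + y.c + x.a * y.b := rfl
@[simp] theorem lrdkHeis_one_a : (1 : LrdkHeis A).a = 0 := rfl
@[simp] theorem lrdkHeis_one_b : (1 : LrdkHeis A).b = 0 := rfl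
@[simp] theorem lrdkHeis_one_c : (1 : LrdkHeis A).c = 0 := rfl
@[simp] theorem lrdkHeis_inv_a (x : LrdkHeis A) : (x⁻¹).a = -x.a := rfl
@[simp] theorem lrdkHeis_inv_b (x : LrdkHeis A) : (x⁻¹).b = -x.b := rfl
@[simp] theorem lrdkHeis_inv_c (x : LrdkHeis A) : (x⁻¹).c = -x.c + x.a * x.b := rfl

instance : Group (LrdkHeis A) where
  mul_assoc x y z := by
    ext
    · simp only [lrdkHeis_mul_a]; ring
    · simp only [lrdkHeis_mul_b]; ring
    · simp only [lrdkHeis_mul_c, lrdkHeis_mul_a, lrdkHeis_mul_b]; ring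
  one_mul x := by
    ext
    · simp only [lrdkHeis_mul_a, lrdkHeis_one_a]; ring
    · simp only [lrdkHeis_mul_b, lrdkHeis_one_b]; ring
    · simp only [lrdkHeis_mul_c, lrdkHeis_one_c, lrdkHeis_one_a]; ring
  mul_one x := by
    ext
    · simp only [lrdkHeis_mul_a, lrdkHeis_one_a]; ring
    · simp only [lrdkHeis_mul_b, lrdkHeis_one_b]; ring
    · simp only [lrdkHeis_mul_c, lrdkHeis_one_c, lrdkHeis_one_b]; ring
  inv_mul_cancel x := by
    ext
    · simp only [lrdkHeis_mul_a, lrdkHeis_inv_a, lrdkHeis_one_a]; ring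
    · simp only [lrdkHeis_mul_b, lrdkHeis_inv_b, lrdkHeis_one_b]; ring
    · simp only [lrdkHeis_mul_c, lrdkHeis_inv_c, lrdkHeis_inv_a, lrdkHeis_one_c]; ring

end LrdkHeis

open LrdkHeis

variable {A : Type*} [CommRing A]

/-- the first coordinate as a homomorphism -/
def lrdkHeisA : LrdkHeis A →* Multiplicative A where
  toFun x := Multiplicative.ofAdd x.a
  map_one' := rfl
  map_mul' _ _ := rfl

/-- the second coordinate as a homomorphism -/
def lrdkHeisB : LrdkHeis A →* Multiplicative A where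
  toFun x := Multiplicative.ofAdd x.b
  map_one' := rfl
  map_mul' _ _ := rfl

@[simp] theorem lrdkHeisA_apply (x : LrdkHeis A) : lrdkHeisA x = Multiplicative.ofAdd x.a := rfl
@[simp] theorem lrdkHeisB_apply (x : LrdkHeis A) : lrdkHeisB x = Multiplicative.ofAdd x.b := rfl

/-- the central elements `(0,0,c)` -/
def lrdkHeisZ : Multiplicative A →* LrdkHeis A where
  toFun c := ⟨0, 0, Multiplicative.toAdd c⟩
  map_one' := rfl
  map_mul' x y := by
    ext
    · simp only [lrdkHeis_mul_a]; ring
    · simp only [lrdkHeis_mul_b]; ring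
    · simp only [lrdkHeis_mul_c, toAdd_mul]; ring

@[simp] theorem lrdkHeisZ_a (c : Multiplicative A) : (lrdkHeisZ c).a = 0 := rfl
@[simp] theorem lrdkHeisZ_b (c : Multiplicative A) : (lrdkHeisZ c).b = 0 := rfl
@[simp] theorem lrdkHeisZ_c (c : Multiplicative A) : (lrdkHeisZ c).c = Multiplicative.toAdd c := rfl

/-- elements with vanishing first two coordinates are central -/
theorem lrdkHeis_central (x : LrdkHeis A) (ha : x.a = 0) (hb : x.b = 0) (y : LrdkHeis A) :
    y * x = x * y := by
  ext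
  · simp only [lrdkHeis_mul_a]; ring
  · simp only [lrdkHeis_mul_b]; ring
  · simp only [lrdkHeis_mul_c, ha, hb]; ring

theorem lrdkHeisZ_central (c : Multiplicative A) (y : LrdkHeis A) :
    y * lrdkHeisZ c = lrdkHeisZ c * y :=
  lrdkHeis_central _ rfl rfl y

/-- the central coordinate of a power of a central element -/
theorem lrdkHeis_pow_c (x : LrdkHeis A) (ha : x.a = 0) (n : ℕ) : (x ^ n).c = n * x.c := by
  induction n with
  | zero => simp
  | succ n ih =>
    have hna : (x ^ n).a = 0 := by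
      clear ih
      induction n with
      | zero => simp
      | succ n ih => rw [pow_succ, lrdkHeis_mul_a, ih, ha, add_zero]
    rw [pow_succ, lrdkHeis_mul_c, ih, hna]
    push_cast
    ring

/-- conjugation does not change the central coordinate of a central element -/
theorem lrdkHeis_conj_c (x : LrdkHeis A) (ha : x.a = 0) (hb : x.b = 0) (y : LrdkHeis A) :
    (y * x * y⁻¹).c = x.c := by
  rw [lrdkHeis_central x ha hb y, mul_assoc, mul_inv_cancel, mul_one]

end Fermat.Agent.LR
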