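/-
S41 / F2 duality, package (C) "Canon", abstract part (helper5).

For homomorphisms `φ ψ : Γ → ℤ` a *Heisenberg lift* is a `1`-cochain `F : Γ → ℚ` with
`F (γ γ') = F γ + F γ' + φ γ * ψ γ'` (i.e. `γ ↦ (φ γ, ψ γ, F γ)` is a homomorphism to the Heisenberg
group).  This file contains the formal calculus of such lifts (conjugation invariance and homogeneity
on elements killed by `φ` and `ψ`, bilinearity, antisymmetry, the diagonal lift, transport along
homomorphisms, difference of two lifts) and the transfer argument: a homomorphism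
`χ : Γ → ℚ` on a finite index subgroup of `SL(2, ℤ)` has vanishing cusp sum.
-/
import Mathlib
import Fermat.Agent.Lib.LR.Dual.Heis

set_option autoImplicit false

open scoped MatrixGroups

namespace Fermat.Agent.LR

section Formal

variable {Γ : Type*} [Group Γ]

/-- `F` is a Heisenberg lift of the pair `(φ, ψ)`: `δ F = φ ∪ ψ`. -/
def LrdkLift (φ ψ : Additive Γ →+ ℤ) (F : Γ → ℚ) : Prop :=
  ∀ γ γ' : Γ, F (γ * γ') =
    F γ + F γ' + (φ (Additive.ofMul γ) : ℚ) * (ψ (Additive.ofMul γ') : ℚ)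

variable {φ ψ φ' ψ' : Additive Γ →+ ℤ} {F F' : Γ → ℚ}

theorem lrdk_hom_mul (φ : Additive Γ →+ ℤ) (γ γ' : Γ) :
    φ (Additive.ofMul (γ * γ')) = φ (Additive.ofMul γ) + φ (Additive.ofMul γ') := by
  rw [ofMul_mul, map_add]

theorem lrdk_hom_one (φ : Additive Γ →+ ℤ) : φ (Additive.ofMul (1 : Γ)) = 0 := by
  rw [ofMul_one, map_zero]

theorem lrdk_hom_inv (φ : Additive Γ →+ ℤ) (γ : Γ) :
    φ (Additive.ofMul γ⁻¹) = - φ (Additive.ofMul γ) := by
  rw [ofMul_inv, map_neg]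

theorem lrdk_hom_pow (φ : Additive Γ →+ ℤ) (γ : Γ) (m : ℕ) :
    φ (Additive.ofMul (γ ^ m)) = m * φ (Additive.ofMul γ) := by
  rw [ofMul_pow, map_nsmul, nsmul_eq_mul]

theorem lrdk_lift_one (hF : LrdkLift φ ψ F) : F 1 = 0 := by
  have h := hF 1 1
  rw [mul_one, lrdk_hom_one, Int.cast_zero, zero_mul, add_zero] at h
  linarith

theorem lrdk_lift_inv (hF : LrdkLift φ ψ F) (γ : Γ) :
    F γ⁻¹ = - F γ + (φ (Additive.ofMul γ) : ℚ) * (ψ (Additive.ofMul γ) : ℚ) := by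
  have h := hF γ γ⁻¹
  rw [mul_inv_cancel, lrdk_lift_one hF, lrdk_hom_inv, Int.cast_neg] at h
  linarith

/-- the effect of conjugation on a lift -/
theorem lrdk_lift_conj_gen (hF : LrdkLift φ ψ F) (γ δ : Γ) :
    F (δ * γ * δ⁻¹) = F γ
      + (φ (Additive.ofMul δ) : ℚ) * (ψ (Additive.ofMul γ) : ℚ)
      - (φ (Additive.ofMul γ) : ℚ) * (ψ (Additive.ofMul δ) : ℚ) := by
  rw [hF (δ * γ) δ⁻¹, hF δ γ, lrdk_lift_inv hF δ, lrdk_hom_mul, lrdk_hom_inv]
  push_cast
  ring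

/-- **conjugation invariance** on elements killed by `φ` and `ψ` -/
theorem lrdk_lift_conj (hF : LrdkLift φ ψ F) {γ : Γ} (h0 : φ (Additive.ofMul γ) = 0)
    (h0' : ψ (Additive.ofMul γ) = 0) (δ : Γ) : F (δ * γ * δ⁻¹) = F γ := by
  rw [lrdk_lift_conj_gen hF, h0, h0']
  simp

/-- the effect of powers on a lift -/
theorem lrdk_lift_pow_gen (hF : LrdkLift φ ψ F) (γ : Γ) (m : ℕ) :
    F (γ ^ m) = m * F γ
      + ((m : ℚ) * ((m : ℚ) - 1) / 2) * ((φ (Additive.ofMul γ) : ℚ) * (ψ (Additive.ofMul γ) : ℚ)) := by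
  induction m with
  | zero => simp [lrdk_lift_one hF]
  | succ m ih =>
    rw [pow_succ, hF, ih, lrdk_hom_pow]
    push_cast
    ring

/-- **homogeneity** on elements killed by `φ` and `ψ` -/
theorem lrdk_lift_pow (hF : LrdkLift φ ψ F) {γ : Γ} (h0 : φ (Additive.ofMul γ) = 0)
    (m : ℕ) : F (γ ^ m) = m * F γ := by
  rw [lrdk_lift_pow_gen hF, h0]
  simp

theorem lrdk_lift_add_left (hF : LrdkLift φ ψ F) (hF' : LrdkLift φ' ψ F') :
    LrdkLift (φ + φ') ψ (fun γ => F γ + F' γ) := by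
  intro γ γ'
  simp only [hF γ γ', hF' γ γ', AddMonoidHom.add_apply]
  push_cast
  ring

theorem lrdk_lift_add_right (hF : LrdkLift φ ψ F) (hF' : LrdkLift φ ψ' F') :
    LrdkLift φ (ψ + ψ') (fun γ => F γ + F' γ) := by
  intro γ γ'
  simp only [hF γ γ', hF' γ γ', AddMonoidHom.add_apply]
  push_cast
  ring

theorem lrdk_lift_zsmul_left (hF : LrdkLift φ ψ F) (n : ℤ) :
    LrdkLift (n • φ) ψ (fun γ => (n : ℚ) * F γ) := by
  intro γ γ'
  simp only [hF γ γ', AddMonoidHom.smul_apply, smul_eq_mul]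
  push_cast
  ring

theorem lrdk_lift_zsmul_right (hF : LrdkLift φ ψ F) (n : ℤ) :
    LrdkLift φ (n • ψ) (fun γ => (n : ℚ) * F γ) := by
  intro γ γ'
  simp only [hF γ γ', AddMonoidHom.smul_apply, smul_eq_mul]
  push_cast
  ring

theorem lrdk_lift_zero_left (ψ : Additive Γ →+ ℤ) : LrdkLift (0 : Additive Γ →+ ℤ) ψ (fun _ => 0) := by
  intro γ γ'
  simp

theorem lrdk_lift_zero_right (φ : Additive Γ →+ ℤ) : LrdkLift φ (0 : Additive Γ →+ ℤ) (fun _ => 0) := by
  intro γ γ'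
  simp

/-- adding a homomorphism to a lift -/
theorem lrdk_lift_add_hom (hF : LrdkLift φ ψ F) (χ : Additive Γ →+ ℚ) :
    LrdkLift φ ψ (fun γ => F γ + χ (Additive.ofMul γ)) := by
  intro γ γ'
  simp only [hF γ γ', ofMul_mul, map_add]
  ring

/-- two lifts of the same pair differ by a homomorphism -/
theorem lrdk_lift_sub (hF : LrdkLift φ ψ F) (hF' : LrdkLift φ ψ F') :
    ∃ χ : Additive Γ →+ ℚ, ∀ γ : Γ, F' γ - F γ = χ (Additive.ofMul γ) := by
  refine ⟨AddMonoidHom.mk' (fun a => F' (Additive.toMul a) - F (Additive.toMul a)) ?_, fun γ => rfl⟩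
  intro a b
  rw [toMul_add, hF, hF']
  ring

/-- **antisymmetry**: a lift of `(φ, ψ)` gives a lift of `(ψ, φ)` -/
theorem lrdk_lift_swap (hF : LrdkLift φ ψ F) :
    LrdkLift ψ φ (fun γ => (φ (Additive.ofMul γ) : ℚ) * (ψ (Additive.ofMul γ) : ℚ) - F γ) := by
  intro γ γ'
  simp only [hF γ γ', lrdk_hom_mul]
  push_cast
  ring

/-- **the diagonal lift** `φ² / 2` of `(φ, φ)` -/
theorem lrdk_lift_self (φ : Additive Γ →+ ℤ) :
    LrdkLift φ φ (fun γ => (φ (Additive.ofMul γ) : ℚ) ^ 2 / 2) := by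
  intro γ γ'
  simp only [lrdk_hom_mul]
  push_cast
  ring

/-- transport of a lift along a homomorphism `w : Γ' → Γ` -/
theorem lrdk_lift_comp {Γ' : Type*} [Group Γ'] (w : Γ' →* Γ) (hF : LrdkLift φ ψ F)
    (φ₁ ψ₁ : Additive Γ' →+ ℤ)
    (hφ : ∀ γ : Γ', φ₁ (Additive.ofMul γ) = φ (Additive.ofMul (w γ)))
    (hψ : ∀ γ : Γ', ψ₁ (Additive.ofMul γ) = ψ (Additive.ofMul (w γ))) :
    LrdkLift φ₁ ψ₁ (fun γ => F (w γ)) := by
  intro γ γ'
  simp only [map_mul, hF (w γ) (w γ'), hφ, hψ]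

/-- a homomorphism to the Heisenberg group gives a lift -/
theorem lrdk_lift_of_hom (ρ : Γ →* LrdkHeis ℚ)
    (hφ : ∀ γ : Γ, (ρ γ).a = (φ (Additive.ofMul γ) : ℚ))
    (hψ : ∀ γ : Γ, (ρ γ).b = (ψ (Additive.ofMul γ) : ℚ)) :
    LrdkLift φ ψ (fun γ => (ρ γ).c) := by
  intro γ γ'
  simp only [map_mul, LrdkHeis.lrdkHeis_mul_c, hφ, hψ]

/-- a lift gives a homomorphism to the Heisenberg group -/
def lrdkLiftHom (hF : LrdkLift φ ψ F) : Γ →* LrdkHeis ℚ where
  toFun γ := ⟨(φ (Additive.ofMul γ) : ℚ), (ψ (Additive.ofMul γ) : ℚ), F γ⟩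
  map_one' := by
    ext
    · simp
    · simp
    · simp [lrdk_lift_one hF]
  map_mul' γ γ' := by
    ext
    · simp
    · simp
    · simp [hF γ γ']

@[simp] theorem lrdkLiftHom_a (hF : LrdkLift φ ψ F) (γ : Γ) :
    (lrdkLiftHom hF γ).a = (φ (Additive.ofMul γ) : ℚ) := rfl
@[simp] theorem lrdkLiftHom_b (hF : LrdkLift φ ψ F) (γ : Γ) :
    (lrdkLiftHom hF γ).b = (ψ (Additive.ofMul γ) : ℚ) := rfl
@[simp] theorem lrdkLiftHom_c (hF : LrdkLift φ ψ F) (γ : Γ) :
    (lrdkLiftHom hF γ).c = F γ := rfl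

end Formal

section Transfer

open Matrix ModularGroup

/-- `SL(2, ℤ)` has no nontrivial homomorphism to `ℚ` -/
theorem lrdk_hom_SL2Z_eq_one (χ : SL(2, ℤ) →* Multiplicative ℚ) : χ = 1 := by
  have htf : ∀ (x : Multiplicative ℚ) (n : ℕ), n ≠ 0 → x ^ n = 1 → x = 1 := by
    intro x n hn hx
    have h1 : (n : ℚ) * Multiplicative.toAdd x = 0 := by
      have := congrArg Multiplicative.toAdd hx
      rwa [toAdd_pow, toAdd_one, nsmul_eq_mul] at this
    have h2 : Multiplicative.toAdd x = 0 := by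
      rcases mul_eq_zero.mp h1 with h | h
      · exact absurd (by exact_mod_cast h) hn
      · exact h
    exact h2
  have hS : χ S = 1 := by
    apply htf _ 4 (by norm_num)
    rw [← map_pow]
    have : (S : SL(2, ℤ)) ^ 4 = 1 := by decide
    rw [this, map_one]
  have hST : χ (S * T) = 1 := by
    apply htf _ 6 (by norm_num)
    rw [← map_pow]
    have : (S * T : SL(2, ℤ)) ^ 6 = 1 := by decide
    rw [this, map_one]
  have hT : χ T = 1 := by
    rw [map_mul, hS, one_mul] at hST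
    exact hST
  have hker : χ.ker = ⊤ := by
    rw [eq_top_iff, ← SpecialLinearGroup.SL2Z_generators, Subgroup.closure_le]
    intro g hg
    rcases hg with rfl | rfl
    · exact hS
    · exact hT
  ext g
  have : g ∈ χ.ker := by rw [hker]; trivial
  exact congrArg Multiplicative.toAdd (MonoidHom.mem_ker.mp this)

theorem lrdk_hom_SL2Z_eq_zero (χ : Additive SL(2, ℤ) →+ ℚ) : χ = 0 := by
  have h := lrdk_hom_SL2Z_eq_one (AddMonoidHom.toMultiplicativeRight χ)
  ext g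
  have := congrArg (fun f : SL(2, ℤ) →* Multiplicative ℚ => Multiplicative.toAdd (f g)) h
  simpa using this

variable (Γ : Subgroup SL(2, ℤ))

/-- **transfer**: the cusp sum of a homomorphism `Γ → ℚ` vanishes.  The sum is written exactly as in
Mathlib's explicit formula for the transfer (`T`-orbits on `SL(2, ℤ) ⧸ Γ` = cusps, minimal period =
width). -/
theorem lrdk_transfer_cusp [Γ.FiniteIndex] (χ : Additive Γ →+ ℚ)
    [Fintype (Quotient (MulAction.orbitRel (Subgroup.zpowers (T : SL(2, ℤ))) (SL(2, ℤ) ⧸ Γ)))] :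
    ∑ q : Quotient (MulAction.orbitRel (Subgroup.zpowers (T : SL(2, ℤ))) (SL(2, ℤ) ⧸ Γ)),
      χ (Additive.ofMul (⟨q.out.out⁻¹ * T ^ Function.minimalPeriod ((T : SL(2, ℤ)) • ·) q.out
          * q.out.out, QuotientGroup.out_conj_pow_minimalPeriod_mem Γ T q.out⟩ : Γ)) = 0 := by
  have h := MonoidHom.transfer_eq_prod_quotient_orbitRel_zpowers_quot
    (AddMonoidHom.toMultiplicativeRight χ) (T : SL(2, ℤ))
  rw [lrdk_hom_SL2Z_eq_one (MonoidHom.transfer (AddMonoidHom.toMultiplicativeRight χ))] at h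
  have h2 := congrArg Multiplicative.toAdd h
  rw [MonoidHom.one_apply, toAdd_one, toAdd_prod] at h2
  exact h2.symm

end Transfer

end Fermat.Agent.LR
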