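/-
S41 / F2-(C) (helper6): invariance of the pairing `lrdB` under the Atkin–Lehner involution `w_q`
on `Γ₀(N q)`, for ANY coset system `D` of `Γ₀(N q)`.
-/
import Mathlib
import Fermat.Agent.Lib.LR.Dual.CanonMain
import Fermat.Agent.Lib.LR.Dual.ALW

set_option autoImplicit false

namespace Fermat.Agent.LR

open Matrix MatrixGroups ModularGroup CongruenceSubgroup ModularCurve.Period
open Fermat.Agent.T1 Fermat.Agent.T2

/-- **`lrdB (w x) (w y) = lrdB x y`** -/
theorem lrdk_w (N q : ℕ) [NeZero N] [Fact q.Prime] (h : ¬ q ∣ N) {ι : Type} [Fintype ι]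
    (D : LrdSys (Gamma0 (N * q)) ι) (x y : ↥(parabolicHoms ℤ (Gamma0 (N * q)) ℤ)) :
    lrdB D ((t2fSysW N q h).homPar ℤ ℤ x) ((t2fSysW N q h).homPar ℤ ℤ y) = lrdB D x y :=
  lrdk_lrdB_invariant D (lrdcW N q h) (lrdcW_pospar N q h) x y _ _
    (lrdc_W_homPar N q h x) (lrdc_W_homPar N q h y)

end Fermat.Agent.LR
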