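/-
S41 / F2 duality, package (R) (helper5): the res / cor adjunction of `lrdB` for
`Γ₀(N q) ≤ Γ₀(N)` and the two-group system `t2fSysC N q h` (the shape consumed by `LrmDual`).
-/
import Mathlib
import Fermat.Agent.Lib.LR.Dual.ResCorMain
import Fermat.Agent.Lib.T2.F.ResCor

set_option autoImplicit false

namespace Fermat.Agent.LR

open Matrix MatrixGroups ModularGroup CongruenceSubgroup ModularCurve ModularCurve.Period
  Fermat.Agent.T2

/-- the representatives of `t2fSysC N q h` lie in `Γ₀(N)` -/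
theorem lrdr_sysC_rep_mem (N q : ℕ) [NeZero N] [Fact q.Prime] (h : ¬ q ∣ N)
    (i : Option (Fin q)) :
    ∃ g : SL(2, ℤ), g ∈ Gamma0 N ∧ (t2fSysC N q h).rep i = (g : Matrix (Fin 2) (Fin 2) ℤ) :=
  ⟨((t2fRepC N q h i : Gamma0 N) : SL(2, ℤ)), (t2fRepC N q h i).2, t2fSysC_rep N q h i⟩

/-- **res / cor adjunction at levels `(N, N q)`**, for arbitrary coset systems -/
theorem lrdr_res_cor_Gamma0 (N q : ℕ) [NeZero N] [Fact q.Prime] (h : ¬ q ∣ N) {ι₁ ι₂ : Type}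
    [Fintype ι₁] [Fintype ι₂] (D₁ : LrdSys (Gamma0 (N * q)) ι₁) (D₂ : LrdSys (Gamma0 N) ι₂)
    (x : ↥(parabolicHoms ℤ (Gamma0 N) ℤ)) (y : ↥(parabolicHoms ℤ (Gamma0 (N * q)) ℤ)) :
    lrdB D₁ (t2fResPar (t2f5_Gamma0_le N q) ℤ ℤ x) y
      = lrdB D₂ x ((t2fSysC N q h).corPar ℤ ℤ y) :=
  lrdr_res_cor (t2f5_Gamma0_le N q) D₁ D₂ (t2fSysC N q h) (lrdr_sysC_rep_mem N q h) x y

end Fermat.Agent.LR
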